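import Fermat.Agent.Raise.Ihara
import Fermat.Agent.Duality.Gamma0

/-!
# The degeneracy maps between levels `N` and `N q`

Pullbacks `res₀`, `tw` and transfers `C₁`, `C₂`; composites, adjointness for the intersection
pairing, commutation with `T_ℓ`, and `U_q² = 1` on the common kernel of the transfers.
-/

set_option autoImplicit false

noncomputable section

namespace Fermat.Agent.Raise

open CongruenceSubgroup Fermat.Agent.ParHom
open scoped MatrixGroups

theorem smul_eq_of_coe_eq_smul {g g' : GL (Fin 2) ℚ} {c : ℚ} (hc : c ≠ 0)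
    (h : (g : Matrix (Fin 2) (Fin 2) ℚ) = c • (g' : Matrix (Fin 2) (Fin 2) ℚ)) (r : Cusp) :
    g • r = g' • r := by
  induction r using OnePoint.rec with
  | infty =>
    rw [OnePoint.smul_infty_eq_ite, OnePoint.smul_infty_eq_ite]
    simp only [h, Matrix.smul_apply, smul_eq_mul, mul_eq_zero, hc, false_or,
      mul_div_mul_left _ _ hc]
  | coe k =>
    rw [OnePoint.smul_some_eq_ite, OnePoint.smul_some_eq_ite]
    simp only [h, Matrix.smul_apply, smul_eq_mul, mul_assoc, ← mul_add, mul_eq_zero, hc, false_or,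
      mul_div_mul_left _ _ hc]

theorem g0Q_eq {M : ℕ} (γ : Gamma0 M) : g0Q M γ = Duality.toGL (γ : SL(2, ℤ)) := rfl

theorem isPrim_iff_isPot {M : ℕ} {A : Type*} [AddCommGroup A] {F : Cusp → A}
    {x : Additive (Gamma0 M) →+ A} : IsPrim M F x ↔ Duality.IsPot x F := by
  constructor <;> intro h γ r
  · have h' := h γ r; rw [g0Q_eq] at h'; rw [h', add_comm]
  · rw [g0Q_eq, h γ r, add_comm]

theorem heckeHom_int {M : ℕ} {R A : Type*} [Semiring R] [AddCommGroup A] [Module R A]
    (ℓ : Nat.Primes) (x : Additive (Gamma0 M) →+ A) :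
    HeckeCohom.heckeHom M R A ℓ x = HeckeCohom.heckeHom M ℤ A ℓ x :=
  HeckeCohom.comp_heckeHom (R := R) (S := ℤ) (AddMonoidHom.id A) ℓ x

/-- A function invariant under `Γ₀(M)` is a primitive of `0`. -/
theorem isPrim_zero_iff {M : ℕ} {A : Type*} [AddCommGroup A] {F : Cusp → A} :
    IsPrim M F 0 ↔ ∀ (γ : Gamma0 M) r, F (g0Q M γ • r) = F r := by
  simp [IsPrim]

theorem sum_heckeIdx_congr {N M p : ℕ} [NeZero p] (hN : ¬ p ∣ N) (hM : ¬ p ∣ M) {B : Type*}
    [AddCommMonoid B] (F : GL (Fin 2) ℚ → B) :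
    ∑ i, F (ratBeta N p i) = ∑ i, F (ratBeta M p i) := by
  refine Fintype.sum_equiv (Equiv.subtypeEquivRight fun x => by simp [hN, hM]) _ _ fun i => ?_
  rfl

/-- Primitive of a cusp function sums. -/
theorem heckeFun_congr {N M p : ℕ} [NeZero p] (hN : ¬ p ∣ N) (hM : ¬ p ∣ M) {A : Type*}
    [AddCommGroup A] (F : Cusp → A) : heckeFun N p F = heckeFun M p F :=
  funext fun r => sum_heckeIdx_congr hN hM fun g => F (g • r)

/-- Transfer after restriction is multiplication by the index. -/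
theorem cor_res {H Γ : Subgroup SL(2, ℤ)} [H.FiniteIndex] (hH : H ≤ Γ) {ι : Type*} [Fintype ι]
    {r : ι → SL(2, ℤ)} (hr : Duality.IsReps H Γ r) {R A : Type*} [Semiring R] [AddCommGroup A]
    [Module R A] (φ : parEllHoms Γ R A) :
    Duality.corPar (Γ := Γ) R A (Duality.resPar R A hH φ) = Fintype.card ι • φ := by
  refine Subtype.ext (AddMonoidHom.ext fun g => ?_)
  obtain ⟨γ, rfl⟩ : ∃ γ : Γ, Additive.ofMul γ = g := ⟨Additive.toMul g, rfl⟩
  obtain ⟨π, δ, e⟩ := Duality.exists_step hr γ.2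
  rw [Duality.coe_corPar, Duality.cor_eq_sum hr _ γ e]
  have e' : ∀ i, Subgroup.inclusion hH (δ i)
      = (⟨r i, hr.1 i⟩ : Γ) * γ * (⟨r (π i), hr.1 (π i)⟩ : Γ)⁻¹ := fun i => by
    apply Subtype.ext
    simp only [Subgroup.coe_mul, Subgroup.coe_inv, Subgroup.coe_inclusion, e i,
      mul_inv_cancel_right]
  simp only [Duality.resPar_apply, e', ofMul_mul, ofMul_inv, map_add, map_neg,
    Finset.sum_add_distrib, Finset.sum_neg_distrib]
  rw [Equiv.sum_comp π fun i => (φ : Additive Γ →+ A) (Additive.ofMul (⟨r i, hr.1 i⟩ : Γ))]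
  simp [Submodule.coe_smul]

section

variable {N q : ℕ} [Fact q.Prime] [NeZero N] [NeZero q]

/-- The pullback along `z ↦ z`. -/
def res0 (R A : Type*) [Semiring R] [AddCommGroup A] [Module R A] :
    parEllHoms (Gamma0 N) R A →ₗ[R] parEllHoms (Gamma0 (N * q)) R A :=
  Duality.resPar R A (Duality.Gamma0_mul_le N q)

/-- The pullback along `z ↦ q z`. -/
def tw (R A : Type*) [Semiring R] [AddCommGroup A] [Module R A] :
    parEllHoms (Gamma0 N) R A →ₗ[R] parEllHoms (Gamma0 (N * q)) R A :=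
  (Duality.conjPar R A (Duality.diagTop q) (Duality.downHom N q) (Duality.downHom_spec N q)).comp
    (Duality.resPar R A (Duality.gammaUp_le N q))

/-- The transfer adjoint to `res0`. -/
def cor1 (R A : Type*) [Semiring R] [AddCommGroup A] [Module R A] :
    parEllHoms (Gamma0 (N * q)) R A →ₗ[R] parEllHoms (Gamma0 N) R A :=
  Duality.corPar (Γ := Gamma0 N) R A

/-- The transfer adjoint to `tw`. -/
def cor2 (R A : Type*) [Semiring R] [AddCommGroup A] [Module R A] :
    parEllHoms (Gamma0 (N * q)) R A →ₗ[R] parEllHoms (Gamma0 N) R A :=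
  (Duality.corPar (Γ := Gamma0 N) R A).comp
    (Duality.conjPar R A (Duality.diagOne q) (Duality.upHom N q) (Duality.upHom_spec N q))

theorem upHom_downHom (g : Gamma0 (N * q)) :
    Duality.upHom N q (Duality.downHom N q g) = g := by
  refine Subtype.ext (Duality.toGL_mul_cancel (α := Duality.diagOne q * Duality.diagTop q) ?_)
  have hs : ∀ k : SL(2, ℤ), Duality.toGL k * (Duality.diagOne q * Duality.diagTop q)
      = Duality.diagOne q * Duality.diagTop q * Duality.toGL k := by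
    intro k
    ext i j
    fin_cases i <;> fin_cases j <;> simp [Matrix.mul_apply, Fin.sum_univ_two, mul_comm]
  rw [hs (g : SL(2, ℤ)), mul_assoc (Duality.diagOne q), Duality.downHom_spec, ← mul_assoc,
    ← mul_assoc, Duality.upHom_spec]

variable (hqN : ¬ q ∣ N)
include hqN

theorem exists_reps :
    ∃ (a b : ℤ) (r : Gamma0 N), a * q - b * N = 1 ∧
      ((r : SL(2, ℤ)) : Matrix (Fin 2) (Fin 2) ℤ) = !![a * q, b; (N : ℤ), 1] ∧
      Duality.IsReps (Duality.gammaUp N q) (Gamma0 N) (Duality.upRep (l := q) r) ∧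
      Duality.IsReps (Gamma0 (N * q)) (Gamma0 N)
        (fun i : HeckeCohom.HeckeIdx N q => (r : SL(2, ℤ))⁻¹ * Duality.upRep (l := q) r i) := by
  obtain ⟨a, b, r, u, hab, hr, -⟩ :=
    Duality.exists_bezoutRep N q ((Fact.out : q.Prime).coprime_iff_not_dvd.mpr hqN)
  have h1 := Duality.isReps_upRep hqN hab hr
  refine ⟨a, b, r, hab, hr, h1, fun i => (Gamma0 N).mul_mem ((Gamma0 N).inv_mem r.2) (h1.1 i),
    fun g hg => ?_⟩
  have e : ∀ i, g * ((r : SL(2, ℤ))⁻¹ * Duality.upRep r i)⁻¹ ∈ Gamma0 (N * q) ↔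
      (r : SL(2, ℤ)) * g * (Duality.upRep (l := q) r i)⁻¹ ∈ Duality.gammaUp N q := fun i => by
    rw [← Duality.conj_mem_gammaUp_iff hab hr]
    simp [mul_assoc]
  simp only [e]
  exact h1.2 _ ((Gamma0 N).mul_mem r.2 hg)

variable {R A : Type*} [CommRing R] [AddCommGroup A] [Module R A]

theorem cor1_res0 (x : parEllHoms (Gamma0 N) R A) :
    cor1 (q := q) R A (res0 R A x) = (q + 1) • x := by
  obtain ⟨a, b, r, -, -, -, h2⟩ := exists_reps (q := q) hqN
  rw [cor1, res0, cor_res _ h2, card_heckeIdx hqN]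

theorem cor2_tw (x : parEllHoms (Gamma0 N) R A) :
    cor2 (q := q) R A (tw R A x) = (q + 1) • x := by
  obtain ⟨a, b, r, -, -, h1, -⟩ := exists_reps (q := q) hqN
  rw [cor2, LinearMap.comp_apply, tw, LinearMap.comp_apply]
  have e : Duality.conjPar R A (Duality.diagOne q) (Duality.upHom N q) (Duality.upHom_spec N q)
      (Duality.conjPar R A (Duality.diagTop q) (Duality.downHom N q) (Duality.downHom_spec N q)
        (Duality.resPar R A (Duality.gammaUp_le N q) x))
      = Duality.resPar R A (Duality.gammaUp_le N q) x := by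
    refine Subtype.ext (AddMonoidHom.ext fun g => ?_)
    show (Duality.resPar R A (Duality.gammaUp_le N q) x : Additive (Duality.gammaUp N q) →+ A)
      (Additive.ofMul (Duality.downHom N q (Duality.upHom N q (Additive.toMul g)))) = _
    rw [Duality.downHom_upHom]
    rfl
  rw [e, cor_res _ h1, card_heckeIdx hqN]

theorem cor1_tw (hq : q.Prime) (x : parEllHoms (Gamma0 N) R R) :
    cor1 (q := q) R R (tw R R x) = HeckeCohom.heckeParEll N R R ⟨q, hq⟩ x :=
  (Duality.heckeParEll_eq_down ⟨q, hq⟩ hqN x).symm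

theorem cor2_res0 (hq : q.Prime) (x : parEllHoms (Gamma0 N) R R) :
    cor2 (q := q) R R (res0 R R x) = HeckeCohom.heckeParEll N R R ⟨q, hq⟩ x :=
  (Duality.heckeParEll_eq_up ⟨q, hq⟩ hqN x).symm

omit hqN in
theorem pairing_res0 (x : parEllHoms (Gamma0 N) R R) (z : parEllHoms (Gamma0 (N * q)) R R) :
    Duality.pairing R (neg_one_mem_Gamma0 (N * q)) (res0 R R x) z
      = Duality.pairing R (neg_one_mem_Gamma0 N) x (cor1 R R z) :=
  Duality.pairing_res _ _ (Duality.Gamma0_mul_le N q) x z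

theorem pairing_tw (x : parEllHoms (Gamma0 N) R R) (z : parEllHoms (Gamma0 (N * q)) R R) :
    Duality.pairing R (neg_one_mem_Gamma0 (N * q)) (tw R R x) z
      = Duality.pairing R (neg_one_mem_Gamma0 N) x (cor2 R R z) := by
  have e : z = Duality.conjPar R R (Duality.diagTop q) (Duality.downHom N q)
      (Duality.downHom_spec N q) (Duality.conjPar R R (Duality.diagOne q) (Duality.upHom N q)
        (Duality.upHom_spec N q) z) := by
    refine Subtype.ext (AddMonoidHom.ext fun g => ?_)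
    show _ = (z : Additive (Gamma0 (N * q)) →+ R)
      (Additive.ofMul (Duality.upHom N q (Duality.downHom N q (Additive.toMul g))))
    rw [upHom_downHom]
    rfl
  conv_lhs => rw [e]
  rw [tw, LinearMap.comp_apply,
    Duality.pairing_conj (neg_one_mem_Gamma0 _) (Duality.neg_one_mem_gammaUp N q)
      (Duality.det_diagTop_pos q) (Duality.downHom N q) (Duality.downHom_spec N q)
      (Duality.index_gammaUp hqN).symm,
    Duality.pairing_res (Duality.neg_one_mem_gammaUp N q) (neg_one_mem_Gamma0 N)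
      (Duality.gammaUp_le N q)]
  rfl

/-! ### Commutation with `T_ℓ` -/

omit hqN in
theorem res0_isPrim {F : Cusp → A} {x : parEllHoms (Gamma0 N) R A}
    (hF : IsPrim N F (x : Additive (Gamma0 N) →+ A)) :
    IsPrim (N * q) F ((res0 (q := q) R A x : parEllHoms (Gamma0 (N * q)) R A) :
      Additive (Gamma0 (N * q)) →+ A) :=
  fun γ r => hF (Subgroup.inclusion (Duality.Gamma0_mul_le N q) γ) r

omit hqN in
theorem diagTop_eq : Duality.diagTop q = diagQ q := by
  apply Units.ext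
  rw [coe_diagQ (NeZero.ne q)]
  exact Duality.coe_diagTop q

omit hqN in
theorem tw_isPrim {F : Cusp → A} {x : parEllHoms (Gamma0 N) R A}
    (hF : IsPrim N F (x : Additive (Gamma0 N) →+ A)) :
    IsPrim (N * q) (fun r => F (diagQ q • r))
      ((tw (q := q) R A x : parEllHoms (Gamma0 (N * q)) R A) : Additive (Gamma0 (N * q)) →+ A) := by
  intro γ r
  show F (diagQ q • g0Q (N * q) γ • r) = F (diagQ q • r) + _
  rw [← mul_smul, ← diagTop_eq, g0Q_eq, Duality.downHom_spec, mul_smul]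
  exact hF (Subgroup.inclusion (Duality.gammaUp_le N q) (Duality.downHom N q γ)) _

omit hqN in
theorem heckeParEll_isPrim {M : ℕ} (ℓ : Nat.Primes) [NeZero (ℓ : ℕ)] {F : Cusp → A}
    {x : parEllHoms (Gamma0 M) R A} (hF : IsPrim M F (x : Additive (Gamma0 M) →+ A)) :
    IsPrim M (heckeFun M ℓ F)
      (HeckeCohom.heckeParEll M R A ℓ x : Additive (Gamma0 M) →+ A) := by
  rw [HeckeCohom.coe_heckeParEll_apply]
  exact hF.heckeFun ℓ R

omit hqN in
theorem heckeParEll_res0 (ℓ : Nat.Primes) (hℓ : ¬ (ℓ : ℕ) ∣ N * q)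
    (x : parEllHoms (Gamma0 N) R A) :
    HeckeCohom.heckeParEll (N * q) R A ℓ (res0 R A x)
      = res0 R A (HeckeCohom.heckeParEll N R A ℓ x) := by
  haveI : NeZero (ℓ : ℕ) := ⟨ℓ.2.ne_zero⟩
  have hF := IsPrim.of_parEll x
  have h1 := heckeParEll_isPrim ℓ (res0_isPrim (q := q) hF)
  have h2 := res0_isPrim (q := q) (heckeParEll_isPrim ℓ hF)
  rw [heckeFun_congr (N := N) (M := N * q) (fun h => hℓ (h.mul_right q)) hℓ] at h2
  exact Subtype.ext (h1.unique h2)

omit hqN in
/-- The twist by `diag (q, 1)` commutes with `T_l` on primitives. -/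
theorem heckeFun_comp_diagQ {B : Type*} [AddCommGroup B] (ℓ : Nat.Primes) [NeZero (ℓ : ℕ)]
    (hℓ : ¬ (ℓ : ℕ) ∣ N * q) {F : Cusp → B} {x : Additive (Gamma0 N) →+ B}
    (hF : IsPrim N F x) :
    heckeFun (N * q) ℓ (fun r => F (diagQ q • r))
      = fun r => heckeFun N ℓ F (diagQ q • r) := by
  haveI : Fact (ℓ : ℕ).Prime := ⟨ℓ.2⟩
  have hℓN : ¬ (ℓ : ℕ) ∣ N := fun h => hℓ (h.mul_right q)
  have hℓq : ((q : ℕ) : ZMod ℓ) ≠ 0 := fun h =>
    hℓ (((ZMod.natCast_eq_zero_iff _ _).mp h).mul_left N)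
  rw [← heckeFun_congr hℓN hℓ]
  funext r
  show ∑ i, F (diagQ q • ratBeta N ℓ i • r) = ∑ i, F (ratBeta N ℓ i • diagQ q • r)
  let π : Equiv.Perm (HeckeCohom.HeckeIdx N (ℓ : ℕ)) :=
    { toFun := fun i => ⟨i.1.map (fun j => (q : ZMod ℓ) * j), fun _ => hℓN⟩
      invFun := fun i => ⟨i.1.map (fun j => (q : ZMod ℓ)⁻¹ * j), fun _ => hℓN⟩
      left_inv := fun i => by
        apply Subtype.ext; rcases i with ⟨_ | j, _⟩ <;> simp [← mul_assoc, hℓq]
      right_inv := fun i => by
        apply Subtype.ext; rcases i with ⟨_ | j, _⟩ <;> simp [← mul_assoc, hℓq] }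
  refine Fintype.sum_equiv π _ _ fun i => ?_
  obtain ⟨_ | j, hi⟩ := i
  · rw [← mul_smul, ← mul_smul]
    congr 2
    apply Units.ext
    simp [π, ratBeta, NeZero.ne, mul_comm]
  · obtain ⟨k, hk⟩ : ((ℓ : ℕ) : ℤ) ∣ (q : ℤ) * j.val - ((q : ZMod ℓ) * j).val := by
      rw [← ZMod.intCast_zmod_eq_zero_iff_dvd]
      push_cast
      rw [ZMod.natCast_zmod_val, ZMod.natCast_zmod_val, sub_self]
    obtain ⟨u, hu⟩ := exists_gamma0 (N := N) 1 k 0 1 (by ring) (dvd_zero _)
    have hfix : g0Q N u • (OnePoint.infty : Cusp) = OnePoint.infty := by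
      rw [OnePoint.smul_infty_eq_ite, if_pos (by simp [coe_g0Q, hu])]
    have em : diagQ q * ratBeta N ℓ ⟨some j, hi⟩
        = g0Q N u * (ratBeta N ℓ (π ⟨some j, hi⟩) * diagQ q) := by
      apply Units.ext
      have hkQ := congrArg (Int.cast : ℤ → ℚ) hk
      push_cast at hkQ
      ext a b
      fin_cases a <;> fin_cases b <;>
        simp [π, ratBeta, NeZero.ne, Matrix.mul_apply, Fin.sum_univ_two, coe_g0Q, hu,
          -ZMod.natCast_val]
      linear_combination hkQ
    show F (diagQ q • ratBeta N ℓ ⟨some j, hi⟩ • r) = _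
    rw [← mul_smul, em, mul_smul, mul_smul, hF u, hF.eq_zero_of_fix hfix, add_zero]

omit hqN in
theorem heckeParEll_tw (ℓ : Nat.Primes) (hℓ : ¬ (ℓ : ℕ) ∣ N * q)
    (x : parEllHoms (Gamma0 N) R A) :
    HeckeCohom.heckeParEll (N * q) R A ℓ (tw R A x)
      = tw R A (HeckeCohom.heckeParEll N R A ℓ x) := by
  haveI : NeZero (ℓ : ℕ) := ⟨ℓ.2.ne_zero⟩
  have hF : IsPrim N (prim N (x : Additive (Gamma0 N) →+ A)) (x : Additive (Gamma0 N) →+ A) :=
    IsPrim.of_parEll x
  have h1 := heckeParEll_isPrim ℓ (tw_isPrim (q := q) hF)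
  have h2 := tw_isPrim (q := q) (heckeParEll_isPrim ℓ hF)
  rw [heckeFun_comp_diagQ ℓ hℓ hF] at h1
  exact Subtype.ext (h1.unique h2)

theorem heckeParEll_cor1 (h2 : IsUnit (2 : R)) (ℓ : Nat.Primes) (hℓ : ¬ (ℓ : ℕ) ∣ N * q)
    (z : parEllHoms (Gamma0 (N * q)) R R) :
    cor1 R R (HeckeCohom.heckeParEll (N * q) R R ℓ z)
      = HeckeCohom.heckeParEll N R R ℓ (cor1 R R z) := by
  have hℓN : ¬ (ℓ : ℕ) ∣ N := fun h => hℓ (h.mul_right q)
  rw [← sub_eq_zero]
  refine Duality.eq_zero_of_pairing_eq_zero (neg_one_mem_Gamma0 N) h2 fun x => ?_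
  rw [Duality.pairing_swap, map_sub, ← pairing_res0,
    ← Duality.pairing_heckeParEll ℓ hℓN, ← pairing_res0, ← heckeParEll_res0 ℓ hℓ,
    Duality.pairing_heckeParEll ℓ hℓ, sub_self, neg_zero]

theorem heckeParEll_cor2 (h2 : IsUnit (2 : R)) (ℓ : Nat.Primes) (hℓ : ¬ (ℓ : ℕ) ∣ N * q)
    (z : parEllHoms (Gamma0 (N * q)) R R) :
    cor2 R R (HeckeCohom.heckeParEll (N * q) R R ℓ z)
      = HeckeCohom.heckeParEll N R R ℓ (cor2 R R z) := by
  have hℓN : ¬ (ℓ : ℕ) ∣ N := fun h => hℓ (h.mul_right q)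
  rw [← sub_eq_zero]
  refine Duality.eq_zero_of_pairing_eq_zero (neg_one_mem_Gamma0 N) h2 fun x => ?_
  rw [Duality.pairing_swap, map_sub, ← pairing_tw hqN,
    ← Duality.pairing_heckeParEll ℓ hℓN, ← pairing_tw hqN, ← heckeParEll_tw ℓ hℓ,
    Duality.pairing_heckeParEll ℓ hℓ, sub_self, neg_zero]

/-- On the common kernel of both transfers `U_q² = 1`. -/
theorem heckeParEll_sq_eq_self (hq : q.Prime) {z : parEllHoms (Gamma0 (N * q)) R A}
    (h1 : cor1 R A z = 0) (h2 : cor2 R A z = 0) :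
    HeckeCohom.heckeParEll (N * q) R A ⟨q, hq⟩
      (HeckeCohom.heckeParEll (N * q) R A ⟨q, hq⟩ z) = z := by
  obtain ⟨a, b, r, hab, hr, hreps, hreps'⟩ := exists_reps (q := q) hqN
  -- the Atkin–Lehner matrix
  set W : GL (Fin 2) ℚ := Duality.diagOne q * Duality.toGL (r : SL(2, ℤ)) with hW
  have hmem : ∀ g : Gamma0 (N * q),
      (r : SL(2, ℤ)) * g * (r : SL(2, ℤ))⁻¹ ∈ Duality.gammaUp N q :=
    fun g => (Duality.conj_mem_gammaUp_iff hab hr (g : SL(2, ℤ))).mpr g.2
  let cW : Gamma0 (N * q) →* Gamma0 (N * q) := (Duality.upHom N q).comp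
    (MonoidHom.mk' (fun g => (⟨(r : SL(2, ℤ)) * g * (r : SL(2, ℤ))⁻¹, hmem g⟩ :
      Duality.gammaUp N q)) fun g h => Subtype.ext (by simp [mul_assoc]))
  have hcW : ∀ g : Gamma0 (N * q),
      W * Duality.toGL (g : SL(2, ℤ)) = Duality.toGL (cW g : SL(2, ℤ)) * W := by
    intro g
    have h := Duality.upHom_spec N q ⟨_, hmem g⟩
    rw [hW, ← mul_assoc _ _ (Duality.toGL (r : SL(2, ℤ)))]
    show _ = Duality.toGL (Duality.upHom N q ⟨_, hmem g⟩ : SL(2, ℤ)) * _ * _
    rw [← h, mul_assoc, mul_assoc, ← map_mul, ← map_mul, inv_mul_cancel_right]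
  have hab' : (a : ℚ) * q - b * N = 1 := by exact_mod_cast hab
  obtain ⟨γ₁, hγ₁⟩ := exists_gamma0 (N := N * q) (a * a * q + b * N) (b * (a + 1))
    ((N : ℤ) * q * (a + 1)) (b * N + q)
    (by linear_combination ((a * q - b * N : ℤ) + 1) * hab) (by push_cast; exact Dvd.intro _ rfl)
  have hW2 : ∀ s : Cusp, W • W • s = g0Q (N * q) γ₁ • s := by
    intro s
    rw [← mul_smul]
    refine smul_eq_of_coe_eq_smul (c := (q : ℚ)) (Nat.cast_ne_zero.mpr (NeZero.ne q)) ?_ s
    ext i j
    fin_cases i <;> fin_cases j <;>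
      simp [hW, Matrix.mul_apply, Matrix.vecMul, dotProduct, Fin.sum_univ_two, coe_g0Q, hr, hγ₁] <;>
      ring
  -- the twist by `W`
  let wC : parEllHoms (Gamma0 (N * q)) R A →ₗ[R] parEllHoms (Gamma0 (N * q)) R A :=
    Duality.conjPar R A W cW hcW
  have hwC : ∀ {H : Cusp → A} {y : parEllHoms (Gamma0 (N * q)) R A},
      IsPrim (N * q) H (y : Additive (Gamma0 (N * q)) →+ A) →
      IsPrim (N * q) (fun s => H (W • s)) (wC y : Additive (Gamma0 (N * q)) →+ A) := by
    intro H y hH γ s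
    show H (W • g0Q (N * q) γ • s) = H (W • s) + _
    rw [← mul_smul, g0Q_eq, hcW, mul_smul]
    exact hH (cW γ) _
  have hww : ∀ y, wC (wC y) = y := by
    intro y
    have hH := IsPrim.of_parEll y
    refine Subtype.ext ((hwC (hwC hH)).eq_of_const hH ((y : Additive (Gamma0 (N * q)) →+ A)
      (Additive.ofMul γ₁)) fun s => ?_)
    show prim _ _ (W • W • s) = _
    rw [hW2, hH]
  -- potentials of the transfers
  have hidx : ∀ {H : Cusp → A} {y : parEllHoms (Gamma0 (N * q)) R A},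
      IsPrim (N * q) H (y : Additive (Gamma0 (N * q)) →+ A) →
      IsPrim N (fun s => ∑ i, H (Duality.diagOne q • Duality.toGL (Duality.upRep (l := q) r i) • s))
        (cor2 R A y : Additive (Gamma0 N) →+ A) := by
    intro H y hH
    rw [isPrim_iff_isPot, cor2, LinearMap.comp_apply, Duality.coe_corPar]
    refine Duality.IsPot.cor (Φ := fun s => H (Duality.diagOne q • s)) hreps ?_
    intro γ s
    show H (Duality.diagOne q • Duality.toGL (γ : SL(2, ℤ)) • s) = _ + H (Duality.diagOne q • s)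
    rw [← mul_smul, Duality.upHom_spec, mul_smul, add_comm]
    exact hH (Duality.upHom N q γ) _
  have hU : ∀ y, res0 R A (cor2 R A y)
      = HeckeCohom.heckeParEll (N * q) R A ⟨q, hq⟩ y + wC y := by
    intro y
    have hH := IsPrim.of_parEll y
    set H := prim (N * q) (y : Additive (Gamma0 (N * q)) →+ A)
    have h := (heckeParEll_isPrim (ℓ := ⟨q, hq⟩) hH).add (hwC hH)
    refine Subtype.ext ((res0_isPrim (hidx hH)).eq_of_const h 0 fun s => ?_)
    rw [add_zero]
    show ∑ i, _ = ∑ i, H (ratBeta (N * q) q i • s) + H (W • s)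
    have hdvd : q ∣ N * q := dvd_mul_left q N
    rw [Fintype.sum_equiv (Equiv.subtypeUnivEquiv (p := fun x : Option (ZMod q) => x = none → ¬ q ∣ N)
        fun x _ => hqN) (fun i => H (Duality.diagOne q • Duality.toGL
          (Duality.upRep (l := q) r i) • s))
      (fun x => H (Duality.diagOne q • Duality.toGL (Duality.upRep (l := q) r ⟨x, fun _ => hqN⟩) • s))
      (fun i => rfl), Fintype.sum_option, add_comm]
    congr 1
    · let e : HeckeCohom.HeckeIdx (N * q) q ≃ ZMod q :=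
        { toFun := fun i => i.1.getD 0
          invFun := fun j => ⟨some j, by simp⟩
          left_inv := fun i => by
            obtain ⟨_ | j, hj⟩ := i
            · exact absurd hdvd (hj rfl)
            · rfl
          right_inv := fun j => rfl }
      refine (Fintype.sum_equiv e _ _ fun i => ?_).symm
      obtain ⟨_ | j, hj⟩ := i
      · exact absurd hdvd (hj rfl)
      · show H (heckeQ q j.val • s) = H (Duality.diagOne q • Duality.toGL _ • s)
        rw [← mul_smul]
        congr 2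
        apply Units.ext
        ext i j'
        fin_cases i <;> fin_cases j' <;>
          simp [e, Duality.upRep, NeZero.ne q, Matrix.mul_apply, Fin.sum_univ_two, -ZMod.natCast_val]
    · rw [hW, mul_smul]; rfl
  have hC : ∀ y, cor2 R A (wC y) = cor1 R A y := by
    intro y
    have hH := IsPrim.of_parEll y
    set H := prim (N * q) (y : Additive (Gamma0 (N * q)) →+ A)
    have h : IsPrim N (fun s => ∑ i : HeckeCohom.HeckeIdx N q,
        H (Duality.toGL ((r : SL(2, ℤ))⁻¹ * Duality.upRep (l := q) r i) • s))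
        (cor1 R A y : Additive (Gamma0 N) →+ A) := by
      rw [isPrim_iff_isPot, cor1, Duality.coe_corPar]
      exact Duality.IsPot.cor hreps' (isPrim_iff_isPot.mp hH)
    refine Subtype.ext ((hidx (hwC hH)).eq_of_const h
      (Fintype.card (HeckeCohom.HeckeIdx N q) • (y : Additive (Gamma0 (N * q)) →+ A)
        (Additive.ofMul γ₁)) fun s => ?_)
    rw [← Finset.card_univ, ← Finset.sum_const, ← Finset.sum_add_distrib]
    refine Finset.sum_congr rfl fun i _ => ?_
    show H (W • Duality.diagOne q • _) = _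
    rw [← hH γ₁, ← hW2]
    congr 2
    rw [map_mul, hW, map_inv, mul_smul, mul_smul, smul_inv_smul]
  have hUz : ∀ y, cor2 R A y = 0 →
      HeckeCohom.heckeParEll (N * q) R A ⟨q, hq⟩ y = -wC y := fun y hy =>
    eq_neg_of_add_eq_zero_left (by rw [← hU, hy, map_zero])
  rw [hUz z h2, map_neg, hUz (wC z) (by rw [hC, h1]), neg_neg, hww]

end

end Fermat.Agent.Raise
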