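import Fermat.Agent.Raise.Symmetric

/-!
# Ihara's lemma, elementary form

If a homomorphism of `Γ₀(N)` has a primitive which also serves a homomorphism of the conjugate of
`Γ₀(N)` by `diag (q, 1)`, it is annihilated by `(T_{l₀} - 1 - l₀)(T_l² - (1 + l)²)` for
`l₀ ≡ 1 (mod N)`.
-/

set_option autoImplicit false

noncomputable section

namespace Fermat.Agent.Raise

open CongruenceSubgroup Matrix.SpecialLinearGroup
open scoped MatrixGroups

variable {q N : ℕ} {A : Type*} [AddCommGroup A]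

theorem card_heckeIdx {M p : ℕ} [NeZero p] (h : ¬ p ∣ M) :
    Fintype.card (HeckeCohom.HeckeIdx M p) = p + 1 := by
  rw [Fintype.card_congr (Equiv.subtypeUnivEquiv fun x _ => h), Fintype.card_option, ZMod.card]

theorem coe_upperQ_smul {a b d : ℚ} (h : a * d ≠ 0) (c : ℚ) (hc : c ≠ 0) (g : SL2Q)
    (hg : (g : Matrix (Fin 2) (Fin 2) ℚ) = c • !![a, b; 0, d]) (r : Cusp) :
    Matrix.SpecialLinearGroup.toGL g • r = upperQ a b d • r := by
  have e : ∀ i j, g i j = c * (upperQ a b d : Matrix (Fin 2) (Fin 2) ℚ) i j := by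
    intro i j; rw [coe_upperQ h, hg]; rfl
  induction r using OnePoint.rec with
  | infty =>
    rw [OnePoint.smul_infty_eq_ite, OnePoint.smul_infty_eq_ite]
    change (if g 1 0 = 0 then _ else ((g 0 0 / g 1 0 : ℚ) : Cusp)) = _
    simp only [e, mul_eq_zero, hc, false_or, mul_div_mul_left _ _ hc]
  | coe k =>
    rw [OnePoint.smul_some_eq_ite, OnePoint.smul_some_eq_ite]
    change (if g 1 0 * k + g 1 1 = 0 then _ else
      (((g 0 0 * k + g 0 1) / (g 1 0 * k + g 1 1) : ℚ) : Cusp)) = _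
    simp only [e, mul_assoc, ← mul_add, mul_eq_zero, hc, false_or, mul_div_mul_left _ _ hc]

/-- The product of two coset representatives is triangular of determinant `l²`. -/
theorem exists_ratBeta_mul {l : ℕ} [NeZero l] (i j : HeckeCohom.HeckeIdx N l) :
    ∃ (k b : ℕ), k ≤ 2 ∧ ratBeta N l j * ratBeta N l i
      = upperQ ((l : ℚ) ^ k) b ((l : ℚ) ^ (2 - k)) := by
  have hl : (l : ℚ) ≠ 0 := Nat.cast_ne_zero.mpr (NeZero.ne l)
  obtain ⟨i | i, hi⟩ := i <;> obtain ⟨j | j, hj⟩ := j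
  · refine ⟨2, 0, le_rfl, ?_⟩
    apply Units.ext
    rw [Units.val_mul, coe_upperQ (by simp [hl])]
    ext a b
    fin_cases a <;> fin_cases b <;>
      simp [ratBeta, NeZero.ne l, Matrix.mul_apply, Fin.sum_univ_two, sq]
  · refine ⟨1, j.val, by omega, ?_⟩
    apply Units.ext
    rw [Units.val_mul, coe_upperQ (by simp [hl])]
    ext a b
    fin_cases a <;> fin_cases b <;>
      simp [ratBeta, NeZero.ne l, Matrix.mul_apply, Fin.sum_univ_two, -ZMod.natCast_val]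
  · refine ⟨1, l * i.val, by omega, ?_⟩
    apply Units.ext
    rw [Units.val_mul, coe_upperQ (by simp [hl])]
    ext a b
    fin_cases a <;> fin_cases b <;>
      simp [ratBeta, NeZero.ne l, Matrix.mul_apply, Fin.sum_univ_two, -ZMod.natCast_val]
  · refine ⟨0, i.val + j.val * l, by omega, ?_⟩
    apply Units.ext
    rw [Units.val_mul, coe_upperQ (by simp [hl])]
    ext a b
    fin_cases a <;> fin_cases b <;>
      simp [ratBeta, NeZero.ne l, Matrix.mul_apply, Fin.sum_univ_two, sq, -ZMod.natCast_val]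

/-- Step one: `(T_l² - (1 + l)²) x` vanishes on a principal congruence subgroup. -/
theorem exists_level_vanish (hq : q.Prime) (hqN : ¬ q ∣ N) {F G : Cusp → A}
    {x y : Additive (Gamma0 N) →+ A} (hF : IsPrim N F x) (hG : IsPrim N G y) {a : A}
    (hFG : ∀ r, F r + G (diagQ q • r) = a) (ℓ : Nat.Primes) [NeZero (ℓ : ℕ)]
    (hℓ : ¬ (ℓ : ℕ) ∣ N) (hℓq : (ℓ : ℕ) ≠ q) :
    ∃ M : ℕ, 0 < M ∧ N ∣ M ∧ ∀ γ : Gamma0 N, slQ (γ : SL(2, ℤ)) ∈ congr q M →
      (HeckeCohom.heckeHom N ℤ A ℓ (HeckeCohom.heckeHom N ℤ A ℓ x)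
        - (((ℓ : ℕ) + 1) ^ 2 : ℕ) • x) (Additive.ofMul γ) = 0 := by
  classical
  obtain ⟨ψ, hψ, hψF⟩ := exists_uHom hq hqN hF hG hFG
  have hl0 : ((ℓ : ℕ) : ℚ) ≠ 0 := Nat.cast_ne_zero.mpr (NeZero.ne _)
  have hN : N ≠ 0 := fun h => hqN (by rw [h]; exact dvd_zero q)
  have hpair : ∀ i j : HeckeCohom.HeckeIdx N (ℓ : ℕ), ∃ (h : SL2Q) (n : ℕ),
      (∀ g ∈ congr q (N * (ℓ : ℕ) ^ n), h * g * h⁻¹ ∈ congr q N ∧ ψ (h * g * h⁻¹) = ψ g) ∧
      ∀ r : Cusp, Matrix.SpecialLinearGroup.toGL h • r = (ratBeta N ℓ j * ratBeta N ℓ i) • r := by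
    intro i j
    obtain ⟨k, b, hk, e⟩ := exists_ratBeta_mul i j
    have hkk : ((ℓ : ℕ) : ℚ) ^ k * ((ℓ : ℕ) : ℚ) ^ (2 - k) = ((ℓ : ℕ) : ℚ) ^ 2 := by
      rw [← pow_add, Nat.add_sub_cancel' hk]
    set c : ℚ := 1 / ((ℓ : ℕ) : ℚ) with hc
    set h : SL2Q := ⟨c • !![((ℓ : ℕ) : ℚ) ^ k, (b : ℚ); 0, ((ℓ : ℕ) : ℚ) ^ (2 - k)], by
      rw [Matrix.det_smul, Matrix.det_fin_two_of, Fintype.card_fin, mul_zero, sub_zero, hkk, hc]
      field_simp⟩ with hh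
    obtain ⟨n, hn⟩ := exists_deep_invariant hq ℓ.2 hℓq hqN hψ h k b hk rfl
    refine ⟨h, n, hn, fun r => ?_⟩
    rw [e]
    exact coe_upperQ_smul (mul_ne_zero (pow_ne_zero _ hl0) (pow_ne_zero _ hl0)) c
      (by simp [hc, hl0]) h rfl r
  choose h n hn hsm using hpair
  set n0 := ∑ i, ∑ j, n i j with hn0
  refine ⟨N * (ℓ : ℕ) ^ n0, Nat.pos_of_ne_zero
    (Nat.mul_ne_zero hN (pow_ne_zero _ (NeZero.ne _))), dvd_mul_right _ _, fun γ hγ => ?_⟩
  have hcongN : slQ (γ : SL(2, ℤ)) ∈ congr q N := congr_anti (dvd_mul_right _ _) hγ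
  have hx : ∀ r, F (Matrix.SpecialLinearGroup.toGL (slQ (γ : SL(2, ℤ))) • r)
      = F r + x (Additive.ofMul γ) := fun r => by rw [toGL_slQ]; exact hF γ r
  have hψx : ψ (slQ (γ : SL(2, ℤ))) = x (Additive.ofMul γ) := by
    have h1 := hψF _ (matA_of_mem_congr hcongN) ((mem_congr_iff hN).mp hcongN).2.2.1 OnePoint.infty
    rw [hx] at h1
    exact (add_left_cancel h1).symm
  have hTT := (hF.heckeFun ℓ ℤ).heckeFun ℓ ℤ
  have hterm : ∀ i j r, F (ratBeta N ℓ j • ratBeta N ℓ i • g0Q N γ • r)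
      = F (ratBeta N ℓ j • ratBeta N ℓ i • r) + x (Additive.ofMul γ) := by
    intro i j r
    have hle : n i j ≤ n0 :=
      (Finset.single_le_sum (fun _ _ => Nat.zero_le _) (Finset.mem_univ j)).trans
        (Finset.single_le_sum (f := fun i => ∑ j, n i j) (fun _ _ => Nat.zero_le _)
          (Finset.mem_univ i))
    obtain ⟨hmem, hval⟩ := hn i j _ (congr_anti (mul_dvd_mul_left N (pow_dvd_pow _ hle)) hγ)
    have e1 : ∀ y : Cusp, ratBeta N ℓ j • ratBeta N ℓ i • y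
        = Matrix.SpecialLinearGroup.toGL (h i j) • y := fun y =>
      (mul_smul _ _ y).symm.trans (hsm i j y).symm
    rw [e1, e1, ← toGL_slQ, ← mul_smul, ← map_mul]
    have e : h i j * slQ (γ : SL(2, ℤ))
        = h i j * slQ (γ : SL(2, ℤ)) * (h i j)⁻¹ * h i j := by group
    rw [e, map_mul, mul_smul, hψF _ (matA_of_mem_congr hmem) ((mem_congr_iff hN).mp hmem).2.2.1,
      hval, hψx]
  have h2 := hTT γ OnePoint.infty
  simp only [heckeFun, hterm, Finset.sum_add_distrib, add_right_inj] at h2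
  rw [AddMonoidHom.sub_apply, ← h2, AddMonoidHom.nsmul_apply]
  simp only [Finset.sum_const, Finset.card_univ, card_heckeIdx hℓ, smul_smul, ← sq, sub_self]

/-- A parabolic homomorphism which is trivial on a congruence subgroup only depends on `d mod N`. -/
theorem eq_zero_of_congr {M : ℕ} (hM : 0 < M) (hNM : N ∣ M) {F : Cusp → A}
    {x : Additive (Gamma0 N) →+ A} (hF : IsPrim N F x)
    (h0 : ∀ γ : Gamma0 N, slQ (γ : SL(2, ℤ)) ∈ congr q M → x (Additive.ofMul γ) = 0)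
    (γ : Gamma0 N) (hγ : (((γ : SL(2, ℤ)) 1 1 : ℤ) : ZMod N) = 1) :
    x (Additive.ofMul γ) = 0 := by
  classical
  have hunip : ∀ δ : Gamma0 N, (δ : SL(2, ℤ)) 0 0 + (δ : SL(2, ℤ)) 1 1 = 2 →
      x (Additive.ofMul δ) = 0 := fun δ hδ => by
    obtain ⟨r, hr⟩ := exists_fixed_of_trace (g := slQ (δ : SL(2, ℤ))) (by
      rw [coe_slQ, coe_slQ]; exact_mod_cast hδ)
    rw [toGL_slQ] at hr
    exact hF.eq_zero_of_fix hr
  have hrel : ∀ δ ε : Gamma0 N, (∀ i j, ((((δ : SL(2, ℤ)) i j : ℤ)) : ZMod M)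
      = (((ε : SL(2, ℤ)) i j : ℤ) : ZMod M)) → x (Additive.ofMul δ) = x (Additive.ofMul ε) := by
    intro δ ε he
    have h := h0 (δ * ε⁻¹) ?_
    · rw [ofMul_mul, ofMul_inv, map_add, map_neg, add_neg_eq_zero] at h
      exact h
    have he' : ∀ i j, ((((δ * ε⁻¹ : Gamma0 N) : SL(2, ℤ)) i j : ℤ) : ZMod M)
        = (1 : Matrix (Fin 2) (Fin 2) (ZMod M)) i j := by
      intro i j
      have hd := congrArg (Int.cast : ℤ → ZMod M) (HeckeCohom.det_eq_one (ε : SL(2, ℤ)))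
      push_cast at hd
      fin_cases i <;> fin_cases j <;>
        simp [Matrix.SpecialLinearGroup.coe_inv, Matrix.adjugate_fin_two, Matrix.mul_apply,
          Matrix.vecMul, dotProduct, Fin.sum_univ_two, he] <;>
        first | linear_combination hd | ring
    rw [mem_congr_iff hM.ne']
    have key : ∀ (z c : ℤ), (z : ZMod M) = (c : ZMod M) → InA q (((z : ℚ) - c) / M) := by
      intro z c h
      obtain ⟨t, ht⟩ := (ZMod.intCast_eq_intCast_iff_dvd_sub _ _ _).mp h.symm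
      refine ⟨0, t, ?_⟩
      rw [show (z : ℚ) - c = ((z - c : ℤ) : ℚ) by push_cast; ring, ht]
      field_simp
      push_cast
      ring
    simp only [coe_slQ]
    exact ⟨by simpa using key _ 1 (by simpa using he' 0 0),
      by simpa using key _ 0 (by simpa using he' 0 1),
      by simpa using key _ 0 (by simpa using he' 1 0),
      by simpa using key _ 1 (by simpa using he' 1 1)⟩
  -- make the upper left entry prime to `M`
  obtain ⟨t, ht⟩ : ∃ t : ℤ,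
      IsCoprime ((γ : SL(2, ℤ)) 0 0 + t * (γ : SL(2, ℤ)) 1 0) (M : ℤ) := by
    set a := (γ : SL(2, ℤ)) 0 0
    set c := (γ : SL(2, ℤ)) 1 0
    refine ⟨∏ p ∈ M.primeFactors.filter (fun p : ℕ => ¬ (p : ℤ) ∣ a), ((p : ℕ) : ℤ), ?_⟩
    set t : ℤ := ∏ p ∈ M.primeFactors.filter (fun p : ℕ => ¬ (p : ℤ) ∣ a), ((p : ℕ) : ℤ)
    rw [Int.isCoprime_iff_gcd_eq_one]
    refine Nat.coprime_of_dvd fun p hp h1 h2 => ?_
    have hpM : p ∈ M.primeFactors := Nat.mem_primeFactors.mpr ⟨hp, by simpa using h2, hM.ne'⟩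
    have h1' : (p : ℤ) ∣ a + t * c := Int.natCast_dvd.mpr h1
    have hp' : Prime (p : ℤ) := Nat.prime_iff_prime_int.mp hp
    by_cases ha : (p : ℤ) ∣ a
    · rcases hp'.dvd_or_dvd ((Int.dvd_add_right ha).mp h1') with h | h
      · obtain ⟨r, hr, hpr⟩ := (hp'.dvd_finsetProd_iff _).mp h
        rw [Finset.mem_filter] at hr
        have hpr' : p = r := (Nat.prime_dvd_prime_iff_eq hp (Nat.prime_of_mem_primeFactors hr.1)).mp
          (Int.natCast_dvd_natCast.mp hpr)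
        exact hr.2 (hpr' ▸ ha)
      · have hd := HeckeCohom.det_eq_one (γ : SL(2, ℤ))
        exact hp'.not_dvd_one (hd ▸ (ha.mul_right _).sub (h.mul_left _))
    · have : (p : ℤ) ∣ t := Finset.dvd_prod_of_mem (fun p : ℕ => (p : ℤ))
        (Finset.mem_filter.mpr ⟨hpM, ha⟩)
      exact ha ((Int.dvd_add_left (this.mul_right _)).mp h1')
  obtain ⟨u, hu⟩ := exists_gamma0 (N := N) 1 t 0 1 (by ring) (dvd_zero _)
  set γ' : Gamma0 N := u * γ with hγ'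
  have hxγ : x (Additive.ofMul γ') = x (Additive.ofMul γ) := by
    rw [hγ', ofMul_mul, map_add, hunip u (by simp [hu]), zero_add]
  rw [← hxγ]
  set a := (γ' : SL(2, ℤ)) 0 0 with ha
  set b := (γ' : SL(2, ℤ)) 0 1 with hb
  set c := (γ' : SL(2, ℤ)) 1 0 with hc
  have haM : IsCoprime a (M : ℤ) := by
    have : a = (γ : SL(2, ℤ)) 0 0 + t * (γ : SL(2, ℤ)) 1 0 := by
      simp [ha, γ', hu, Matrix.mul_apply, Fin.sum_univ_two]
    rw [this]; exact ht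
  obtain ⟨a', w, haw⟩ := haM
  have hcN : (N : ℤ) ∣ c := HeckeCohom.dvd_apply_one_zero N γ'
  have ha1 : (N : ℤ) ∣ a - 1 := by
    have hd' : (((γ' : SL(2, ℤ)) 1 1 : ℤ) : ZMod N) = 1 := by
      simp [γ', hu, Matrix.mul_apply, Fin.sum_univ_two, hγ]
    have hd := congrArg (Int.cast : ℤ → ZMod N) (HeckeCohom.det_eq_one (γ' : SL(2, ℤ)))
    push_cast at hd
    rw [hd', mul_one, (ZMod.intCast_zmod_eq_zero_iff_dvd _ _).mpr hcN, mul_zero, sub_zero] at hd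
    rw [← ZMod.intCast_zmod_eq_zero_iff_dvd]
    push_cast
    rw [ha, hd, sub_self]
  set t' := (c - (a - 1)) * a' with ht'
  set s := (b - 1) * a' with hs
  have ht'N : (N : ℤ) ∣ t' := (hcN.sub ha1).mul_right _
  obtain ⟨L, hL⟩ := exists_gamma0 (N := N) 1 0 t' 1 (by ring) ht'N
  obtain ⟨U, hU⟩ := exists_gamma0 (N := N) 1 s 0 1 (by ring) (dvd_zero _)
  obtain ⟨L₀, hL₀⟩ := exists_gamma0 (N := N) 1 0 (a - 1) 1 (by ring) ha1
  obtain ⟨U₀, hU₀⟩ := exists_gamma0 (N := N) 1 1 0 1 (by ring) (dvd_zero _)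
  have hprod : x (Additive.ofMul (L * (U₀ * L₀) * U)) = 0 := by
    simp only [ofMul_mul, map_add, hunip L (by simp [hL]), hunip U (by simp [hU]),
      hunip L₀ (by simp [hL₀]), hunip U₀ (by simp [hU₀]), add_zero]
  rw [← hprod]
  refine hrel _ _ fun i j => ?_
  have hMa : (a : ZMod M) * (a' : ZMod M) = 1 := by
    have h := congrArg (Int.cast : ℤ → ZMod M) haw
    push_cast at h
    rw [ZMod.natCast_self, mul_zero, add_zero] at h
    linear_combination h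
  have hdM := congrArg (Int.cast : ℤ → ZMod M) (HeckeCohom.det_eq_one (γ' : SL(2, ℤ)))
  push_cast at hdM
  rw [← ha, ← hb, ← hc] at hdM
  fin_cases i <;> fin_cases j <;>
    simp [hL, hU, hL₀, hU₀, Matrix.mul_apply, Fin.sum_univ_two, t', s, ← ha, ← hb, ← hc]
  · linear_combination -((b : ZMod M) - 1) * hMa
  · linear_combination -((c : ZMod M) - (a - 1)) * hMa
  · linear_combination (a' : ZMod M) * hdM -
      ((((γ' : SL(2, ℤ)) 1 1 : ℤ) : ZMod M) +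
        (a' : ZMod M) * ((c : ZMod M) - (a - 1)) * ((b : ZMod M) - 1) - 1) * hMa

/-- For `l ≡ 1 (mod N)`, `T_l - (1 + l)` kills homomorphisms through `d mod N`. -/
theorem heckeHom_eq_smul (ℓ : Nat.Primes) [NeZero (ℓ : ℕ)] (hℓ : ¬ (ℓ : ℕ) ∣ N)
    (h1 : ((ℓ : ℕ) : ZMod N) = 1) {x : Additive (Gamma0 N) →+ A}
    (hx : ∀ γ : Gamma0 N, (((γ : SL(2, ℤ)) 1 1 : ℤ) : ZMod N) = 1 → x (Additive.ofMul γ) = 0) :
    HeckeCohom.heckeHom N ℤ A ℓ x = ((ℓ : ℕ) + 1) • x := by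
  haveI : Fact (ℓ : ℕ).Prime := ⟨ℓ.2⟩
  refine AddMonoidHom.ext fun g => ?_
  obtain ⟨γ, rfl⟩ : ∃ γ : Gamma0 N, Additive.ofMul γ = g := ⟨Additive.toMul g, rfl⟩
  have hsys := HeckeCohom.isCosetSystem N (ℓ : ℕ)
  rw [HeckeCohom.heckeHom_eq_sum ℓ x γ _ _ (fun i => hsys.spec γ i)]
  have key : ∀ i, x (Additive.ofMul (hsys.cocycle γ i)) = x (Additive.ofMul γ) := by
    intro i
    have e : ratBeta N ℓ i * g0Q N γ = g0Q N (hsys.cocycle γ i) * ratBeta N ℓ (hsys.perm γ i) := by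
      apply toReal_injective
      rw [map_mul, map_mul, toReal_ratBeta, toReal_ratBeta, toReal_g0Q, toReal_g0Q]
      exact hsys.spec γ i
    set δ := hsys.cocycle γ i
    have e11 := congrArg (fun g : GL (Fin 2) ℚ => (g : Matrix (Fin 2) (Fin 2) ℚ) 1 1) e
    obtain ⟨x₀, hx₀, u₀, hi1⟩ : ∃ x₀ : ℤ, (x₀ : ZMod N) = 1 ∧ ∃ u₀ : ℤ,
        (ratBeta N ℓ i : Matrix (Fin 2) (Fin 2) ℚ) 1 1 = x₀ ∧
        (ratBeta N ℓ i : Matrix (Fin 2) (Fin 2) ℚ) 1 0 = 0 := by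
      obtain ⟨_ | j, hj⟩ := i
      · exact ⟨1, by simp, 0, by simp [ratBeta, NeZero.ne], by simp [ratBeta, NeZero.ne]⟩
      · exact ⟨((ℓ : ℕ) : ℤ), by simpa using h1, 0, by simp [ratBeta, NeZero.ne],
          by simp [ratBeta, NeZero.ne]⟩
    obtain ⟨hi11, hi10⟩ := hi1
    obtain ⟨x₁, hx₁, b₁, hj11, hj01⟩ : ∃ x₁ : ℤ, (x₁ : ZMod N) = 1 ∧ ∃ b₁ : ℤ,
        (ratBeta N ℓ (hsys.perm γ i) : Matrix (Fin 2) (Fin 2) ℚ) 1 1 = x₁ ∧
        (ratBeta N ℓ (hsys.perm γ i) : Matrix (Fin 2) (Fin 2) ℚ) 0 1 = b₁ := by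
      obtain ⟨_ | j, hj⟩ := hsys.perm γ i
      · exact ⟨1, by simp, 0, by simp [ratBeta, NeZero.ne], by simp [ratBeta, NeZero.ne]⟩
      · exact ⟨((ℓ : ℕ) : ℤ), by simpa using h1, (j.val : ℤ), by simp [ratBeta, NeZero.ne],
          by simp [ratBeta, NeZero.ne, -ZMod.natCast_val]⟩
    have e11' : x₀ * (γ : SL(2, ℤ)) 1 1 = (δ : SL(2, ℤ)) 1 0 * b₁ + (δ : SL(2, ℤ)) 1 1 * x₁ := by
      simp [Matrix.mul_apply, Fin.sum_univ_two, coe_g0Q, hi11, hi10, hj11, hj01] at e11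
      exact_mod_cast e11
    have hdd : (((γ : SL(2, ℤ)) 1 1 : ℤ) : ZMod N) = (((δ : SL(2, ℤ)) 1 1 : ℤ) : ZMod N) := by
      have h := congrArg (Int.cast : ℤ → ZMod N) e11'
      push_cast at h
      rwa [hx₀, hx₁, one_mul, mul_one, Gamma0_mem.mp δ.2, zero_mul, zero_add] at h
    have h := hx (δ * γ⁻¹) ?_
    · rw [ofMul_mul, ofMul_inv, map_add, map_neg, add_neg_eq_zero] at h
      exact h
    have hd := congrArg (Int.cast : ℤ → ZMod N) (HeckeCohom.det_eq_one (γ : SL(2, ℤ)))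
    push_cast at hd
    simp [Matrix.SpecialLinearGroup.coe_inv, Matrix.adjugate_fin_two, Matrix.mul_apply,
      Matrix.vecMul, dotProduct, Fin.sum_univ_two, Gamma0_mem.mp δ.2, Gamma0_mem.mp γ.2, ← hdd]
      at hd ⊢
    linear_combination hd
  simp only [key, Finset.sum_const, Finset.card_univ, card_heckeIdx hℓ, AddMonoidHom.nsmul_apply]

/-- **Ihara's lemma**, elementary form. -/
theorem ihara (hq : q.Prime) (hqN : ¬ q ∣ N) {F G : Cusp → A}
    {x y : Additive (Gamma0 N) →+ A} (hF : IsPrim N F x) (hG : IsPrim N G y) {a : A}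
    (hFG : ∀ r, F r + G (diagQ q • r) = a) (ℓ ℓ₀ : Nat.Primes) [NeZero (ℓ : ℕ)]
    [NeZero (ℓ₀ : ℕ)] (hℓ : ¬ (ℓ : ℕ) ∣ N) (hℓq : (ℓ : ℕ) ≠ q) (hℓ₀ : ¬ (ℓ₀ : ℕ) ∣ N)
    (h₀ : ((ℓ₀ : ℕ) : ZMod N) = 1) :
    HeckeCohom.heckeHom N ℤ A ℓ₀
        (HeckeCohom.heckeHom N ℤ A ℓ (HeckeCohom.heckeHom N ℤ A ℓ x)
          - (((ℓ : ℕ) + 1) ^ 2 : ℕ) • x)
      = ((ℓ₀ : ℕ) + 1) • (HeckeCohom.heckeHom N ℤ A ℓ (HeckeCohom.heckeHom N ℤ A ℓ x)
          - (((ℓ : ℕ) + 1) ^ 2 : ℕ) • x) := by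
  obtain ⟨M, hM, hNM, h0⟩ := exists_level_vanish hq hqN hF hG hFG ℓ hℓ hℓq
  refine heckeHom_eq_smul ℓ₀ hℓ₀ h₀ fun γ hγ => ?_
  exact eq_zero_of_congr hM hNM (((hF.heckeFun ℓ ℤ).heckeFun ℓ ℤ).sub (hF.nsmul _)) h0 γ hγ

end Fermat.Agent.Raise
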