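import Fermat.Agent.Raise.Boundary
import Fermat.Agent.HeckeCohom.Action

/-!
# The transfers at level `N q` over a field, and integral lifts

An operator killing the kernel of `res₀ + tw`, hence mapping into the image of the two transfers;
consequently eigenclasses in the kernel of the transfers lift to integral classes with `U_q² = 1`.
-/

set_option autoImplicit false

noncomputable section

namespace Fermat.Agent.Raise

open CongruenceSubgroup Fermat.Agent.ParHom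
open scoped MatrixGroups

section Killer

variable (M : ℕ) (R A : Type*) [CommRing R] [AddCommGroup A] [Module R A] (ℓ ℓ₀ : Nat.Primes)

/-- `T_{l₀} - (1 + l₀)`. -/
def eisOp : Module.End R (parEllHoms (Gamma0 M) R A) :=
  HeckeCohom.heckeParEll M R A ℓ₀ - ((ℓ₀ : ℕ) + 1) • (1 : Module.End R (parEllHoms (Gamma0 M) R A))

/-- `T_l² - (1 + l)²`. -/
def sqOp : Module.End R (parEllHoms (Gamma0 M) R A) :=
  HeckeCohom.heckeParEll M R A ℓ * HeckeCohom.heckeParEll M R A ℓ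
    - (((ℓ : ℕ) + 1) ^ 2) • (1 : Module.End R (parEllHoms (Gamma0 M) R A))

/-- `(T_{l₀} - 1 - l₀)³ (T_l² - (1 + l)²)`. -/
def killer : Module.End R (parEllHoms (Gamma0 M) R A) :=
  eisOp M R A ℓ₀ * (eisOp M R A ℓ₀ * (eisOp M R A ℓ₀ * sqOp M R A ℓ))

variable {M R A ℓ ℓ₀}

theorem eisOp_apply (x : parEllHoms (Gamma0 M) R A) :
    eisOp M R A ℓ₀ x = HeckeCohom.heckeParEll M R A ℓ₀ x - ((ℓ₀ : ℕ) + 1) • x := rfl

theorem sqOp_apply (x : parEllHoms (Gamma0 M) R A) :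
    sqOp M R A ℓ x = HeckeCohom.heckeParEll M R A ℓ (HeckeCohom.heckeParEll M R A ℓ x)
      - (((ℓ : ℕ) + 1) ^ 2) • x := rfl

theorem map_eisOp {M' : ℕ} {S B : Type*} [CommRing S] [AddCommGroup B] [Module S B]
    (f : parEllHoms (Gamma0 M) R A →+ parEllHoms (Gamma0 M') S B)
    (h₀ : ∀ x, f (HeckeCohom.heckeParEll M R A ℓ₀ x) = HeckeCohom.heckeParEll M' S B ℓ₀ (f x))
    (x : parEllHoms (Gamma0 M) R A) : f (eisOp M R A ℓ₀ x) = eisOp M' S B ℓ₀ (f x) := by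
  rw [eisOp_apply, eisOp_apply, map_sub, map_nsmul, h₀]

theorem map_killer {M' : ℕ} {S B : Type*} [CommRing S] [AddCommGroup B] [Module S B]
    (f : parEllHoms (Gamma0 M) R A →+ parEllHoms (Gamma0 M') S B)
    (h : ∀ x, f (HeckeCohom.heckeParEll M R A ℓ x) = HeckeCohom.heckeParEll M' S B ℓ (f x))
    (h₀ : ∀ x, f (HeckeCohom.heckeParEll M R A ℓ₀ x) = HeckeCohom.heckeParEll M' S B ℓ₀ (f x))
    (x : parEllHoms (Gamma0 M) R A) : f (killer M R A ℓ ℓ₀ x) = killer M' S B ℓ ℓ₀ (f x) := by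
  simp only [killer, Module.End.mul_apply, map_eisOp f h₀]
  rw [sqOp_apply, sqOp_apply, map_sub, map_nsmul, h, h]

theorem killer_eigen {x : parEllHoms (Gamma0 M) R A} {a a₀ : R}
    (h : HeckeCohom.heckeParEll M R A ℓ x = a • x)
    (h₀ : HeckeCohom.heckeParEll M R A ℓ₀ x = a₀ • x) :
    killer M R A ℓ ℓ₀ x
      = ((a₀ - ((ℓ₀ : ℕ) + 1 : R)) ^ 3 * (a ^ 2 - ((ℓ : ℕ) + 1 : R) ^ 2)) • x := by
  have e0 : eisOp M R A ℓ₀ x = (a₀ - ((ℓ₀ : ℕ) + 1 : R)) • x := by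
    rw [eisOp_apply, h₀]; module
  have e : sqOp M R A ℓ x = (a ^ 2 - ((ℓ : ℕ) + 1 : R) ^ 2) • x := by
    rw [sqOp_apply, h, map_smul, h, smul_smul]; module
  simp only [killer, Module.End.mul_apply, e, map_smul, e0, smul_smul]
  congr 1
  ring

theorem eisOp_sqOp_comm [NeZero M] (x : parEllHoms (Gamma0 M) R A) :
    eisOp M R A ℓ₀ (sqOp M R A ℓ x) = sqOp M R A ℓ (eisOp M R A ℓ₀ x) := by
  have h : ∀ x, HeckeCohom.heckeParEll M R A ℓ₀ (HeckeCohom.heckeParEll M R A ℓ x)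
      = HeckeCohom.heckeParEll M R A ℓ (HeckeCohom.heckeParEll M R A ℓ₀ x) :=
    fun x => LinearMap.congr_fun (HeckeCohom.heckeParEll_commute M R A ℓ₀ ℓ).eq x
  simp only [eisOp_apply, sqOp_apply, map_sub, map_nsmul, h, smul_sub]
  module

end Killer

section Kernel

variable {N q : ℕ} [Fact q.Prime] [NeZero N] [NeZero q] {R A : Type*} [CommRing R]
  [AddCommGroup A] [Module R A] (ℓ ℓ₀ : Nat.Primes)

theorem not_dvd_left_of_not_dvd_mul {l N q : ℕ} (h : ¬ l ∣ N * q) : ¬ l ∣ N :=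
  fun h' => h (h'.mul_right q)

theorem not_dvd_right_of_not_dvd_mul {l N q : ℕ} (h : ¬ l ∣ N * q) : ¬ l ∣ q :=
  fun h' => h (h'.mul_left N)

/-- `tw` is injective up to `T_{l₀} - 1 - l₀`. -/
theorem eisOp_eq_zero_of_tw_eq_zero (hℓ₀ : ¬ (ℓ₀ : ℕ) ∣ N * q)
    (h₁ : ((ℓ₀ : ℕ) : ZMod (N * q)) = 1) {y : parEllHoms (Gamma0 N) R A}
    (hy : tw (q := q) R A y = 0) : eisOp N R A ℓ₀ y = 0 := by
  haveI : NeZero (ℓ₀ : ℕ) := ⟨ℓ₀.2.ne_zero⟩
  have hG := IsPrim.of_parEll y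
  have h0 : IsPrim (N * q) (fun r => prim N (y : Additive (Gamma0 N) →+ A) (diagQ q • r)) 0 := by
    have := tw_isPrim (q := q) hG
    rwa [hy] at this
  have hE := heckeFun_eq_smul h0 ℓ₀ hℓ₀ h₁
  rw [heckeFun_comp_diagQ ℓ₀ hℓ₀ hG] at hE
  have hs : ∀ s, heckeFun N ℓ₀ (prim N (y : Additive (Gamma0 N) →+ A)) s
      = ((ℓ₀ : ℕ) + 1) • prim N (y : Additive (Gamma0 N) →+ A) s := fun s => by
    simpa [smul_inv_smul] using congrFun hE ((diagQ q)⁻¹ • s)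
  refine Subtype.ext ?_
  rw [eisOp_apply]
  show (HeckeCohom.heckeParEll N R A ℓ₀ y : Additive (Gamma0 N) →+ A)
    - (((ℓ₀ : ℕ) + 1) • y : parEllHoms (Gamma0 N) R A) = 0
  rw [sub_eq_zero, Submodule.coe_smul_of_tower]
  exact (heckeParEll_isPrim ℓ₀ hG).eq_of_const (hG.nsmul _) 0 fun s => by
    rw [hs, add_zero, Pi.smul_apply]

/-- Ihara: `killer` annihilates the kernel of `res₀ + tw`. -/
theorem killer_eq_zero (hqN : ¬ q ∣ N) (hℓ : ¬ (ℓ : ℕ) ∣ N * q) (hℓ₀ : ¬ (ℓ₀ : ℕ) ∣ N * q)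
    (h₁ : ((ℓ₀ : ℕ) : ZMod (N * q)) = 1) {x₁ x₂ : parEllHoms (Gamma0 N) R A}
    (h : res0 (q := q) R A x₁ + tw R A x₂ = 0) :
    killer N R A ℓ ℓ₀ x₁ = 0 ∧ killer N R A ℓ ℓ₀ x₂ = 0 := by
  haveI : NeZero (ℓ₀ : ℕ) := ⟨ℓ₀.2.ne_zero⟩
  haveI : NeZero (ℓ : ℕ) := ⟨ℓ.2.ne_zero⟩
  have hq : q.Prime := Fact.out
  have hℓ₀N := not_dvd_left_of_not_dvd_mul hℓ₀
  have hℓq : (ℓ : ℕ) ≠ q := fun e => not_dvd_right_of_not_dvd_mul hℓ (e ▸ dvd_rfl)
  have h₁N : ((ℓ₀ : ℕ) : ZMod N) = 1 := by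
    have := congrArg (ZMod.castHom (dvd_mul_right N q) (ZMod N)) h₁
    simpa using this
  have hF₁ := IsPrim.of_parEll x₁
  have hF₂ := IsPrim.of_parEll x₂
  have hsum : IsPrim (N * q) (prim N (x₁ : Additive (Gamma0 N) →+ A)
      + fun r => prim N (x₂ : Additive (Gamma0 N) →+ A) (diagQ q • r)) 0 := by
    have := (res0_isPrim (q := q) hF₁).add (tw_isPrim (q := q) hF₂)
    rwa [← Submodule.coe_add, h] at this
  have hG₁ := (heckeParEll_isPrim ℓ₀ hF₁).sub (hF₁.nsmul ((ℓ₀ : ℕ) + 1))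
  have hG₂ := (heckeParEll_isPrim ℓ₀ hF₂).sub (hF₂.nsmul ((ℓ₀ : ℕ) + 1))
  have hFG : ∀ r, (heckeFun N ℓ₀ (prim N (x₁ : Additive (Gamma0 N) →+ A))
        - ((ℓ₀ : ℕ) + 1) • prim N (x₁ : Additive (Gamma0 N) →+ A)) r
      + (heckeFun N ℓ₀ (prim N (x₂ : Additive (Gamma0 N) →+ A))
        - ((ℓ₀ : ℕ) + 1) • prim N (x₂ : Additive (Gamma0 N) →+ A)) (diagQ q • r) = 0 := by
    intro r
    have hE := congrFun (heckeFun_eq_smul hsum ℓ₀ hℓ₀ h₁) r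
    have hlin : heckeFun (N * q) ℓ₀ (prim N (x₁ : Additive (Gamma0 N) →+ A)
        + fun r => prim N (x₂ : Additive (Gamma0 N) →+ A) (diagQ q • r)) r
        = heckeFun N ℓ₀ (prim N (x₁ : Additive (Gamma0 N) →+ A)) r
          + heckeFun N ℓ₀ (prim N (x₂ : Additive (Gamma0 N) →+ A)) (diagQ q • r) := by
      rw [heckeFun_congr hℓ₀N hℓ₀ (prim N (x₁ : Additive (Gamma0 N) →+ A)),
        ← congrFun (heckeFun_comp_diagQ ℓ₀ hℓ₀ hF₂) r]
      exact Finset.sum_add_distrib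
    rw [hlin, Pi.smul_apply, Pi.add_apply, smul_add] at hE
    simp only [Pi.sub_apply, Pi.smul_apply]
    rw [sub_add_sub_comm, hE, sub_self]
  have hI := ihara hq hqN hG₁ hG₂ hFG ℓ ℓ₀ (not_dvd_left_of_not_dvd_mul hℓ) hℓq hℓ₀N h₁N
  have h1 : eisOp N R A ℓ₀ (sqOp N R A ℓ (eisOp N R A ℓ₀ x₁)) = 0 := by
    refine Subtype.ext ?_
    simp only [eisOp_apply, sqOp_apply, AddSubgroupClass.coe_sub, Submodule.coe_smul_of_tower,
      HeckeCohom.coe_heckeParEll_apply, ZeroMemClass.coe_zero, sub_eq_zero] at hI ⊢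
    simp only [map_sub, map_nsmul, heckeHom_int (R := R)] at hI ⊢
    exact hI
  have hsq : ∀ x, eisOp N R A ℓ₀ (sqOp N R A ℓ x) = sqOp N R A ℓ (eisOp N R A ℓ₀ x) :=
    fun x => eisOp_sqOp_comm x
  have h2 : eisOp N R A ℓ₀ (eisOp N R A ℓ₀ (sqOp N R A ℓ x₁)) = 0 := by rw [hsq x₁, h1]
  refine ⟨by simp only [killer, Module.End.mul_apply, h2, map_zero], ?_⟩
  simp only [killer, Module.End.mul_apply]
  refine eisOp_eq_zero_of_tw_eq_zero ℓ₀ hℓ₀ h₁ ?_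
  set f := (tw (N := N) (q := q) R A).toAddMonoidHom
  set g := (res0 (N := N) (q := q) R A).toAddMonoidHom
  have hcomm : ∀ {φ : parEllHoms (Gamma0 N) R A →+ parEllHoms (Gamma0 (N * q)) R A},
      (∀ (l : Nat.Primes), ¬ (l : ℕ) ∣ N * q → ∀ x, φ (HeckeCohom.heckeParEll N R A l x)
        = HeckeCohom.heckeParEll (N * q) R A l (φ x)) →
      ∀ x, φ (eisOp N R A ℓ₀ (eisOp N R A ℓ₀ (sqOp N R A ℓ x)))
        = eisOp _ R A ℓ₀ (eisOp _ R A ℓ₀ (sqOp _ R A ℓ (φ x))) := by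
    intro φ hφ x
    rw [map_eisOp φ (hφ ℓ₀ hℓ₀), map_eisOp φ (hφ ℓ₀ hℓ₀), sqOp_apply, sqOp_apply, map_sub,
      map_nsmul, hφ ℓ hℓ, hφ ℓ hℓ]
  have ef := hcomm (φ := f) (fun l hl x => (heckeParEll_tw l hl x).symm) x₂
  have eg := hcomm (φ := g) (fun l hl x => (heckeParEll_res0 l hl x).symm) x₁
  rw [h2, map_zero] at eg
  show f _ = 0
  rw [ef, show f x₂ = -g x₁ from eq_neg_of_add_eq_zero_right h, map_neg, map_neg, map_neg, ← eg,
    neg_zero]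

end Kernel

section Field

variable {N q : ℕ} [Fact q.Prime] [NeZero N] [NeZero q] (ℓ ℓ₀ : Nat.Primes)

theorem pairing_killer {k : Type*} [CommRing k] {M : ℕ} [NeZero M] (hℓ : ¬ (ℓ : ℕ) ∣ M) (hℓ₀ : ¬ (ℓ₀ : ℕ) ∣ M)
    (x w : parEllHoms (Gamma0 M) k k) :
    Duality.pairing k (neg_one_mem_Gamma0 M) (killer M k k ℓ ℓ₀ x) w
      = Duality.pairing k (neg_one_mem_Gamma0 M) x (killer M k k ℓ ℓ₀ w) := by
  have hD : ∀ x w, Duality.pairing k (neg_one_mem_Gamma0 M) (eisOp M k k ℓ₀ x) w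
      = Duality.pairing k (neg_one_mem_Gamma0 M) x (eisOp M k k ℓ₀ w) := fun x w => by
    simp only [eisOp_apply, map_sub, map_nsmul, LinearMap.sub_apply, LinearMap.smul_apply,
      Duality.pairing_heckeParEll ℓ₀ hℓ₀]
  have hS : ∀ x w, Duality.pairing k (neg_one_mem_Gamma0 M) (sqOp M k k ℓ x) w
      = Duality.pairing k (neg_one_mem_Gamma0 M) x (sqOp M k k ℓ w) := fun x w => by
    simp only [sqOp_apply, map_sub, map_nsmul, LinearMap.sub_apply, LinearMap.smul_apply,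
      Duality.pairing_heckeParEll ℓ hℓ]
  have hc : ∀ x, eisOp M k k ℓ₀ (sqOp M k k ℓ x) = sqOp M k k ℓ (eisOp M k k ℓ₀ x) :=
    fun x => eisOp_sqOp_comm x
  simp only [killer, Module.End.mul_apply, hD, hS]
  rw [← hc, ← hc, ← hc]

/-- `killer` maps into the image of the two transfers, over a field. -/
theorem exists_cor_eq_killer_field {k : Type*} [Field k] (h2 : (2 : k) ≠ 0) (hqN : ¬ q ∣ N) (hℓ : ¬ (ℓ : ℕ) ∣ N * q)
    (hℓ₀ : ¬ (ℓ₀ : ℕ) ∣ N * q) (h₁ : ((ℓ₀ : ℕ) : ZMod (N * q)) = 1)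
    (w₁ w₂ : parEllHoms (Gamma0 N) k k) :
    ∃ z : parEllHoms (Gamma0 (N * q)) k k,
      cor1 k k z = killer N k k ℓ ℓ₀ w₁ ∧ cor2 k k z = killer N k k ℓ ℓ₀ w₂ := by
  set β := (cor1 (N := N) (q := q) k k).prod (cor2 (N := N) (q := q) k k) with hβ
  by_contra hcon
  have hnot : (killer N k k ℓ ℓ₀ w₁, killer N k k ℓ ℓ₀ w₂) ∉ LinearMap.range β := fun ⟨z, hz⟩ =>
    hcon ⟨z, congrArg Prod.fst hz, congrArg Prod.snd hz⟩
  obtain ⟨f, hf, hf0⟩ := Submodule.exists_dual_map_eq_bot_of_notMem hnot inferInstance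
  have h2u : IsUnit (2 : k) := IsUnit.mk0 _ h2
  obtain ⟨x₁, hx₁⟩ := Duality.exists_pairing_eq (neg_one_mem_Gamma0 N) h2u
    (f.comp (LinearMap.inl k _ _))
  obtain ⟨x₂, hx₂⟩ := Duality.exists_pairing_eq (neg_one_mem_Gamma0 N) h2u
    (f.comp (LinearMap.inr k _ _))
  have hsplit : ∀ u₁ u₂, f (u₁, u₂) = Duality.pairing k (neg_one_mem_Gamma0 N) x₁ u₁
      + Duality.pairing k (neg_one_mem_Gamma0 N) x₂ u₂ := fun u₁ u₂ => by
    rw [hx₁, hx₂, LinearMap.comp_apply, LinearMap.comp_apply, ← map_add]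
    simp
  have hzero : res0 (q := q) k k x₁ + tw k k x₂ = 0 := by
    refine Duality.eq_zero_of_pairing_eq_zero (neg_one_mem_Gamma0 _) h2u fun z => ?_
    rw [map_add, LinearMap.add_apply, pairing_res0, pairing_tw hqN, ← hsplit]
    have : f (β z) ∈ Submodule.map f (LinearMap.range β) := ⟨_, ⟨z, rfl⟩, rfl⟩
    rw [hf0] at this
    exact this
  obtain ⟨e₁, e₂⟩ := killer_eq_zero ℓ ℓ₀ hqN hℓ hℓ₀ h₁ hzero
  apply hf
  rw [hsplit, ← pairing_killer ℓ ℓ₀ (not_dvd_left_of_not_dvd_mul hℓ)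
      (not_dvd_left_of_not_dvd_mul hℓ₀), ← pairing_killer ℓ ℓ₀ (not_dvd_left_of_not_dvd_mul hℓ)
      (not_dvd_left_of_not_dvd_mul hℓ₀), e₁, e₂]
  simp

/-- `killer` maps into the image of the two transfers. -/
theorem exists_cor_eq_killer {p : ℕ} [Fact p.Prime] (h2 : (2 : ZMod p) ≠ 0) (hqN : ¬ q ∣ N) (hℓ : ¬ (ℓ : ℕ) ∣ N * q)
    (hℓ₀ : ¬ (ℓ₀ : ℕ) ∣ N * q) (h₁ : ((ℓ₀ : ℕ) : ZMod (N * q)) = 1)
    (w₁ w₂ : parEllHoms (Gamma0 N) (ZMod p) (ZMod p)) :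
    ∃ z : parEllHoms (Gamma0 (N * q)) (ZMod p) (ZMod p),
      cor1 (ZMod p) (ZMod p) z = killer N (ZMod p) (ZMod p) ℓ ℓ₀ w₁ ∧ cor2 (ZMod p) (ZMod p) z = killer N (ZMod p) (ZMod p) ℓ ℓ₀ w₂ :=
  exists_cor_eq_killer_field ℓ ℓ₀ h2 hqN hℓ hℓ₀ h₁ w₁ w₂

end Field

section Cast

variable {M : ℕ} [NeZero M] {R : Type*} [CommRing R]

/-- Reduction of integral classes, additively. -/
def castAdd (M : ℕ) (R : Type*) [CommRing R] :
    parEllHoms (Gamma0 M) ℤ ℤ →+ parEllHoms (Gamma0 M) R R :=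
  AddMonoidHom.mk' Duality.castHom fun φ ψ =>
    Subtype.ext (AddMonoidHom.ext fun g => by simp)

omit [NeZero M] in
theorem coe_castAdd (φ : parEllHoms (Gamma0 M) ℤ ℤ) :
    (castAdd M R φ : Additive (Gamma0 M) →+ R)
      = (Int.castAddHom R).comp (φ : Additive (Gamma0 M) →+ ℤ) := rfl

omit [NeZero M] in
theorem castAdd_heckeParEll (ℓ : Nat.Primes) (φ : parEllHoms (Gamma0 M) ℤ ℤ) :
    castAdd M R (HeckeCohom.heckeParEll M ℤ ℤ ℓ φ)
      = HeckeCohom.heckeParEll M R R ℓ (castAdd M R φ) := by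
  refine Subtype.ext ?_
  rw [coe_castAdd, HeckeCohom.coe_heckeParEll_apply, HeckeCohom.coe_heckeParEll_apply, coe_castAdd]
  exact HeckeCohom.comp_heckeHom _ ℓ _

omit [NeZero M] in
theorem castAdd_injective [CharZero R] : Function.Injective (castAdd M R) := fun φ ψ h =>
  Subtype.ext (AddMonoidHom.ext fun g => Int.cast_injective (α := R)
    (DFunLike.congr_fun (congrArg Subtype.val h) g))

variable (p : ℕ) [Fact p.Prime]

theorem castAdd_surjective : Function.Surjective (castAdd M (ZMod p)) := fun ψ => by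
  obtain ⟨φ, hφ, e⟩ := exists_lift_of_surjective (neg_one_mem_Gamma0 M) (Int.castAddHom (ZMod p))
    ZMod.intCast_surjective (show IsParEllHom (Gamma0 M) (ψ : Additive (Gamma0 M) →+ ZMod p)
      from ψ.2)
  exact ⟨⟨φ, hφ⟩, Subtype.ext e⟩

omit [NeZero M] in
theorem exists_eq_smul_of_castAdd_eq_zero {φ : parEllHoms (Gamma0 M) ℤ ℤ}
    (h : castAdd M (ZMod p) φ = 0) : ∃ ψ, φ = (p : ℤ) • ψ := by
  have hd : ∀ g, (p : ℤ) ∣ (φ : Additive (Gamma0 M) →+ ℤ) g := fun g =>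
    (ZMod.intCast_zmod_eq_zero_iff_dvd _ _).mp (DFunLike.congr_fun (congrArg Subtype.val h) g)
  choose ψ hψ using hd
  have hp : (p : ℤ) ≠ 0 := Int.natCast_ne_zero.mpr (Fact.out : p.Prime).ne_zero
  refine ⟨⟨AddMonoidHom.mk' ψ fun a b => mul_left_cancel₀ hp ?_, fun γ hγ => ?_⟩, ?_⟩
  · rw [← hψ, mul_add, ← hψ, ← hψ, map_add]
  · refine (mul_eq_zero.mp ?_).resolve_left hp
    rw [AddMonoidHom.mk'_apply, ← hψ]
    exact φ.2 γ hγ
  · exact Subtype.ext (AddMonoidHom.ext fun g => by simp [hψ g])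

end Cast

section Transfer

variable {N q : ℕ} [Fact q.Prime] [NeZero N] [NeZero q] {R : Type*} [CommRing R]

theorem castAdd_cor1 (z : parEllHoms (Gamma0 (N * q)) ℤ ℤ) :
    castAdd N R (cor1 ℤ ℤ z) = cor1 R R (castAdd (N * q) R z) :=
  (Duality.corPar_castHom z).symm

theorem castAdd_cor2 (z : parEllHoms (Gamma0 (N * q)) ℤ ℤ) :
    castAdd N R (cor2 ℤ ℤ z) = cor2 R R (castAdd (N * q) R z) :=
  (Duality.corPar_castHom _).symm

theorem heckeParEll_cor1_int (hqN : ¬ q ∣ N) (ℓ : Nat.Primes) (hℓ : ¬ (ℓ : ℕ) ∣ N * q)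
    (z : parEllHoms (Gamma0 (N * q)) ℤ ℤ) :
    cor1 ℤ ℤ (HeckeCohom.heckeParEll (N * q) ℤ ℤ ℓ z)
      = HeckeCohom.heckeParEll N ℤ ℤ ℓ (cor1 ℤ ℤ z) :=
  castAdd_injective (R := ℚ) (by
    rw [castAdd_cor1, castAdd_heckeParEll, castAdd_heckeParEll, castAdd_cor1,
      heckeParEll_cor1 hqN (IsUnit.mk0 _ two_ne_zero) ℓ hℓ])

theorem heckeParEll_cor2_int (hqN : ¬ q ∣ N) (ℓ : Nat.Primes) (hℓ : ¬ (ℓ : ℕ) ∣ N * q)
    (z : parEllHoms (Gamma0 (N * q)) ℤ ℤ) :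
    cor2 ℤ ℤ (HeckeCohom.heckeParEll (N * q) ℤ ℤ ℓ z)
      = HeckeCohom.heckeParEll N ℤ ℤ ℓ (cor2 ℤ ℤ z) :=
  castAdd_injective (R := ℚ) (by
    rw [castAdd_cor2, castAdd_heckeParEll, castAdd_heckeParEll, castAdd_cor2,
      heckeParEll_cor2 hqN (IsUnit.mk0 _ two_ne_zero) ℓ hℓ])

open Polynomial in
theorem castAdd_aeval_eigen {M : ℕ} {f : Module.End ℤ (parEllHoms (Gamma0 M) ℤ ℤ)}
    {g : Module.End R (parEllHoms (Gamma0 M) R R)}
    (hfg : ∀ v, castAdd M R (f v) = g (castAdd M R v)) {v : parEllHoms (Gamma0 M) ℤ ℤ} {θ : R}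
    (hv : g (castAdd M R v) = θ • castAdd M R v) (P : ℤ[X]) :
    castAdd M R (aeval f P v) = (aeval θ P) • castAdd M R v := by
  induction P using Polynomial.induction_on' with
  | add a b ha hb => simp only [map_add, LinearMap.add_apply, ha, hb, add_smul]
  | monomial n c =>
    have hn : ∀ n : ℕ, castAdd M R ((f ^ n) v) = θ ^ n • castAdd M R v := by
      intro n
      induction n with
      | zero => simp
      | succ n ih => rw [pow_succ', Module.End.mul_apply, hfg, ih, map_smul, hv, smul_smul,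
          ← pow_succ]
    rw [aeval_monomial, aeval_monomial, Module.End.mul_apply, Module.algebraMap_end_apply,
      map_zsmul, hn, eq_intCast, mul_smul, Int.cast_smul_eq_zsmul]

open Polynomial in
theorem map_aeval_apply {L L' : Type*} [AddCommGroup L] [AddCommGroup L'] (f : L →ₗ[ℤ] L')
    {P : Module.End ℤ L} {P' : Module.End ℤ L'} (h : ∀ v, f (P v) = P' (f v)) (Q : ℤ[X]) (v : L) :
    f (aeval P Q v) = aeval P' Q (f v) := by
  induction Q using Polynomial.induction_on' with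
  | add a b ha hb => simp only [map_add, LinearMap.add_apply, ha, hb]
  | monomial n a =>
    have hn : ∀ n : ℕ, f ((P ^ n) v) = (P' ^ n) (f v) := by
      intro n
      induction n with
      | zero => simp
      | succ n ih => rw [pow_succ', pow_succ', Module.End.mul_apply, Module.End.mul_apply, h, ih]
    rw [aeval_monomial, aeval_monomial, Module.End.mul_apply, Module.End.mul_apply,
      Module.algebraMap_end_apply, Module.algebraMap_end_apply, map_smul, hn]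

omit [Fact q.Prime] in
theorem castAdd_killer {M : ℕ} [NeZero M] (ℓ ℓ₀ : Nat.Primes) (v : parEllHoms (Gamma0 M) ℤ ℤ) :
    castAdd M R (killer M ℤ ℤ ℓ ℓ₀ v) = killer M R R ℓ ℓ₀ (castAdd M R v) :=
  map_killer (castAdd M R) (castAdd_heckeParEll ℓ) (castAdd_heckeParEll ℓ₀) v

/-- Integrally, `killer` maps into the image of the transfers plus multiples of `p`. -/
theorem exists_killer_eq_cor_add (hqN : ¬ q ∣ N) {p : ℕ} [Fact p.Prime] (hp2 : (2 : ZMod p) ≠ 0)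
    (ℓ ℓ₀ : Nat.Primes) (hℓ : ¬ (ℓ : ℕ) ∣ N * q) (hℓ₀ : ¬ (ℓ₀ : ℕ) ∣ N * q)
    (h₁ : ((ℓ₀ : ℕ) : ZMod (N * q)) = 1) (w₁ w₂ : parEllHoms (Gamma0 N) ℤ ℤ) :
    ∃ (z : parEllHoms (Gamma0 (N * q)) ℤ ℤ) (r₁ r₂ : parEllHoms (Gamma0 N) ℤ ℤ),
      killer N ℤ ℤ ℓ ℓ₀ w₁ = (p : ℤ) • r₁ + cor1 ℤ ℤ z ∧
        killer N ℤ ℤ ℓ ℓ₀ w₂ = (p : ℤ) • r₂ + cor2 ℤ ℤ z := by
  obtain ⟨zb, e₁, e₂⟩ := exists_cor_eq_killer (p := p) ℓ ℓ₀ hp2 hqN hℓ hℓ₀ h₁
    (castAdd N (ZMod p) w₁) (castAdd N (ZMod p) w₂)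
  obtain ⟨z, hz⟩ := castAdd_surjective p zb
  obtain ⟨r₁, hr₁⟩ := exists_eq_smul_of_castAdd_eq_zero p
    (φ := killer N ℤ ℤ ℓ ℓ₀ w₁ - cor1 ℤ ℤ z)
    (by rw [map_sub, castAdd_killer, castAdd_cor1, hz, e₁, sub_self])
  obtain ⟨r₂, hr₂⟩ := exists_eq_smul_of_castAdd_eq_zero p
    (φ := killer N ℤ ℤ ℓ ℓ₀ w₂ - cor2 ℤ ℤ z)
    (by rw [map_sub, castAdd_killer, castAdd_cor2, hz, e₂, sub_self])
  exact ⟨z, r₁, r₂, sub_eq_iff_eq_add.mp hr₁, sub_eq_iff_eq_add.mp hr₂⟩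

open Polynomial in
theorem aeval_zmod_eq_pow {p : ℕ} {G : ℤ[X]} (hGm : G.Monic)
    (hGc : ∀ i, G.coeff i ∈ Ideal.span {(p : ℤ)} ^ (G.natDegree - i)) (θ : ZMod p) :
    aeval θ G = θ ^ G.natDegree := by
  rw [aeval_eq_sum_range, Finset.sum_range_succ, hGm.coeff_natDegree, one_smul,
    Finset.sum_eq_zero, zero_add]
  intro i hi
  have hi' : i < G.natDegree := Finset.mem_range.mp hi
  obtain ⟨c, hc⟩ := Ideal.mem_span_singleton.mp
    (Ideal.pow_le_self (Nat.sub_ne_zero_of_lt hi') (hGc i))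
  rw [hc, zsmul_eq_mul, Int.cast_mul, Int.cast_natCast, ZMod.natCast_self, zero_mul, zero_mul]

open Polynomial in
/-- Cayley–Hamilton for an endomorphism which is a multiple of `p` modulo an invariant image. -/
theorem exists_monic_aeval_mem_range {L L' : Type*} [AddCommGroup L] [AddCommGroup L']
    [Module.Finite ℤ L] (f : L' →ₗ[ℤ] L) (P : Module.End ℤ L) (P' : Module.End ℤ L') (p : ℤ)
    (hPf : ∀ v, f (P' v) = P (f v)) (H : ∀ w, ∃ z r, P w = p • r + f z) :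
    ∃ G : ℤ[X], G.Monic ∧ (∀ i, G.coeff i ∈ Ideal.span {p} ^ (G.natDegree - i)) ∧
      ∀ v r, f v = p • r → ∃ z, f (aeval P' G v - p • z) = 0 := by
  have hker : LinearMap.range f ≤ (LinearMap.range f).comap P := by
    rintro _ ⟨v, rfl⟩
    exact ⟨P' v, hPf v⟩
  have hrange : LinearMap.range ((LinearMap.range f).mapQ _ P hker) ≤ Ideal.span {p} • ⊤ := by
    rintro _ ⟨c, rfl⟩
    obtain ⟨w, rfl⟩ := Submodule.Quotient.mk_surjective _ c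
    obtain ⟨z, r, e⟩ := H w
    rw [Submodule.mapQ_apply, e, Submodule.Quotient.mk_add,
      (Submodule.Quotient.mk_eq_zero (LinearMap.range f)).mpr (LinearMap.mem_range_self f z), add_zero, Submodule.Quotient.mk_smul]
    exact Submodule.smul_mem_smul (Ideal.mem_span_singleton_self _) Submodule.mem_top
  obtain ⟨G, hGm, -, hGc, hG⟩ :=
    LinearMap.exists_monic_and_natDegree_eq_and_coeff_mem_pow_and_aeval_eq_zero ℤ _ _ hrange
  refine ⟨G, hGm, hGc, fun v r hv => ?_⟩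
  have hmem : aeval P G r ∈ LinearMap.range f := by
    rw [← Submodule.Quotient.mk_eq_zero, ← Submodule.mkQ_apply,
      map_aeval_apply (LinearMap.range f).mkQ
        (P' := (LinearMap.range f).mapQ _ P hker) (fun w => rfl) G, hG]
    rfl
  obtain ⟨z, hz⟩ := hmem
  exact ⟨z, by rw [map_sub, map_smul, map_aeval_apply f hPf, hv, map_smul, hz, sub_self]⟩

open Polynomial in
/-- An eigenclass mod `p` killed by both transfers lifts to an integral class killed by them,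
up to a non-zero scalar. -/
theorem exists_lift_cor_zero (hqN : ¬ q ∣ N) {p : ℕ} [Fact p.Prime] (hp2 : (2 : ZMod p) ≠ 0)
    (ℓ ℓ₀ : Nat.Primes) (hℓ : ¬ (ℓ : ℕ) ∣ N * q) (hℓ₀ : ¬ (ℓ₀ : ℕ) ∣ N * q)
    (h₁ : ((ℓ₀ : ℕ) : ZMod (N * q)) = 1) {y : parEllHoms (Gamma0 (N * q)) (ZMod p) (ZMod p)}
    (hy₁ : cor1 (ZMod p) (ZMod p) y = 0) (hy₂ : cor2 (ZMod p) (ZMod p) y = 0) {θ : ZMod p}
    (hθ : θ ≠ 0) (hy : killer (N * q) (ZMod p) (ZMod p) ℓ ℓ₀ y = θ • y) :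
    ∃ (z : parEllHoms (Gamma0 (N * q)) ℤ ℤ) (c : ZMod p), c ≠ 0 ∧
      cor1 ℤ ℤ z = 0 ∧ cor2 ℤ ℤ z = 0 ∧ castAdd (N * q) (ZMod p) z = c • y := by
  haveI := HeckeCohom.parEllHoms_int_finite N
  set β : parEllHoms (Gamma0 (N * q)) ℤ ℤ →ₗ[ℤ]
      parEllHoms (Gamma0 N) ℤ ℤ × parEllHoms (Gamma0 N) ℤ ℤ :=
    (cor1 (N := N) (q := q) ℤ ℤ).prod (cor2 (N := N) (q := q) ℤ ℤ) with hβ
  set P : Module.End ℤ (parEllHoms (Gamma0 N) ℤ ℤ × parEllHoms (Gamma0 N) ℤ ℤ) :=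
    LinearMap.prodMap (killer N ℤ ℤ ℓ ℓ₀) (killer N ℤ ℤ ℓ ℓ₀) with hP
  set P' := killer (N * q) ℤ ℤ ℓ ℓ₀ with hP'
  have hPβ : ∀ v, β (P' v) = P (β v) := fun v => Prod.ext
    (map_killer (cor1 (N := N) (q := q) ℤ ℤ).toAddMonoidHom
      (fun x => heckeParEll_cor1_int hqN ℓ hℓ x) (fun x => heckeParEll_cor1_int hqN ℓ₀ hℓ₀ x) v)
    (map_killer (cor2 (N := N) (q := q) ℤ ℤ).toAddMonoidHom
      (fun x => heckeParEll_cor2_int hqN ℓ hℓ x) (fun x => heckeParEll_cor2_int hqN ℓ₀ hℓ₀ x) v)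
  obtain ⟨G, hGm, hGc, hG⟩ := exists_monic_aeval_mem_range β P P' (p : ℤ) hPβ fun w => by
    obtain ⟨z, r₁, r₂, e₁, e₂⟩ := exists_killer_eq_cor_add hqN hp2 ℓ ℓ₀ hℓ hℓ₀ h₁ w.1 w.2
    exact ⟨z, (r₁, r₂), Prod.ext e₁ e₂⟩
  obtain ⟨v, hv⟩ := castAdd_surjective p y
  obtain ⟨r₁, hr₁⟩ := exists_eq_smul_of_castAdd_eq_zero p (φ := cor1 ℤ ℤ v)
    (by rw [castAdd_cor1, hv, hy₁])
  obtain ⟨r₂, hr₂⟩ := exists_eq_smul_of_castAdd_eq_zero p (φ := cor2 ℤ ℤ v)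
    (by rw [castAdd_cor2, hv, hy₂])
  obtain ⟨z₁, hzero⟩ := hG v (r₁, r₂) (Prod.ext hr₁ hr₂)
  refine ⟨_, θ ^ G.natDegree, pow_ne_zero _ hθ, congrArg Prod.fst hzero, congrArg Prod.snd hzero,
    ?_⟩
  rw [map_sub, map_zsmul, castAdd_aeval_eigen (castAdd_killer ℓ ℓ₀) (θ := θ) (by rw [hv, hy]) G,
    hv, aeval_zmod_eq_pow hGm hGc,
    ← Int.cast_smul_eq_zsmul (ZMod p), Int.cast_natCast, ZMod.natCast_self, zero_smul, sub_zero]

end Transfer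

end Fermat.Agent.Raise
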