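import Mathlib

/-!
# `ℤ[1/q]` and a consequence of Dirichlet's theorem

Every unit class modulo `B` is represented by a product `a` of at most two primes such that some
multiple of `4(r-1)` prime-to-`r` times is an exponent of `q` modulo `a`.
-/

set_option autoImplicit false

namespace Fermat.Agent.Raise

/-- `x` lies in `ℤ[1/q]`. -/
def InA (q : ℕ) (x : ℚ) : Prop := ∃ (k : ℕ) (n : ℤ), x * (q : ℚ) ^ k = n

namespace InA

variable {q : ℕ}

theorem intCast (n : ℤ) : InA q (n : ℚ) := ⟨0, n, by simp⟩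

theorem natCast (n : ℕ) : InA q (n : ℚ) := ⟨0, n, by simp⟩

theorem zero : InA q 0 := ⟨0, 0, by simp⟩

theorem one : InA q 1 := ⟨0, 1, by simp⟩

theorem add {x y : ℚ} (hx : InA q x) (hy : InA q y) : InA q (x + y) := by
  obtain ⟨k, n, h⟩ := hx
  obtain ⟨j, m, h'⟩ := hy
  refine ⟨k + j, n * (q : ℤ) ^ j + m * (q : ℤ) ^ k, ?_⟩
  push_cast
  rw [← h, ← h', pow_add]
  ring

theorem neg {x : ℚ} (hx : InA q x) : InA q (-x) := by
  obtain ⟨k, n, h⟩ := hx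
  exact ⟨k, -n, by push_cast; rw [← h]; ring⟩

theorem sub {x y : ℚ} (hx : InA q x) (hy : InA q y) : InA q (x - y) :=
  sub_eq_add_neg x y ▸ hx.add hy.neg

theorem mul {x y : ℚ} (hx : InA q x) (hy : InA q y) : InA q (x * y) := by
  obtain ⟨k, n, h⟩ := hx
  obtain ⟨j, m, h'⟩ := hy
  refine ⟨k + j, n * m, ?_⟩
  push_cast
  rw [← h, ← h', pow_add]
  ring

theorem div_pow {x : ℚ} (hx : InA q x) (k : ℕ) : InA q (x / (q : ℚ) ^ k) := by
  rcases eq_or_ne ((q : ℚ) ^ k) 0 with h0 | h0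
  · rw [h0, div_zero]; exact zero
  obtain ⟨j, n, h⟩ := hx
  refine ⟨j + k, n, ?_⟩
  rw [← h, pow_add]
  field_simp

theorem pow {x : ℚ} (hx : InA q x) (k : ℕ) : InA q (x ^ k) := by
  induction k with
  | zero => simpa using one
  | succ k ih => rw [pow_succ]; exact ih.mul hx

end InA

theorem coe_dvd_pow_sub_one {l q n : ℕ} (hl : l.Prime) (hlq : ¬ l ∣ q) (h : l - 1 ∣ n) :
    (l : ℤ) ∣ (q : ℤ) ^ n - 1 := by
  haveI : Fact l.Prime := ⟨hl⟩
  obtain ⟨c, rfl⟩ := h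
  rw [← ZMod.intCast_zmod_eq_zero_iff_dvd]
  have hq : (q : ZMod l) ≠ 0 := by rwa [Ne, ZMod.natCast_eq_zero_iff]
  push_cast
  rw [pow_mul, ZMod.pow_card_sub_one_eq_one hq, one_pow, sub_self]

/-- A prime with `l mod m ≠ 1` (`m = r`, or `m = 4` for `r = 2`) has exponent of `q` dividing a
prime-to-`r` multiple of `4 (r - 1)`. -/
theorem exists_exponent_of_prime {q r l : ℕ} (hr : r.Prime) (hl : l.Prime) (hlq : ¬ l ∣ q)
    (hl2 : 2 < l) (hgood : (l : ZMod (if r = 2 then 4 else r)) ≠ 1) :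
    ∃ E : ℕ, ¬ r ∣ E ∧ (l : ℤ) ∣ (q : ℤ) ^ (4 * (r - 1) * E) - 1 := by
  rcases eq_or_ne r 2 with rfl | hr2
  · rw [if_pos rfl] at hgood
    have h4 : l % 4 ≠ 1 := fun h => hgood (by rw [← ZMod.natCast_mod, h]; rfl)
    have hodd : l % 2 = 1 := hl.eq_two_or_odd.resolve_left (by omega)
    refine ⟨(l - 1) / 2, by omega, coe_dvd_pow_sub_one hl hlq ?_⟩
    exact ⟨2, by omega⟩
  · rw [if_neg hr2] at hgood
    refine ⟨l - 1, fun h => hgood ?_, coe_dvd_pow_sub_one hl hlq (Dvd.intro_left _ rfl)⟩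
    have h0 : ((l - 1 : ℕ) : ZMod r) = 0 := (ZMod.natCast_eq_zero_iff _ _).mpr h
    rwa [Nat.cast_sub hl.one_le, Nat.cast_one, sub_eq_zero] at h0

/-- Every unit class is represented by an integer whose exponent of `q` has small `r`-part. -/
theorem exists_rep_exponent {q r B : ℕ} (hq : 0 < q) (hr : r.Prime) (hB : 0 < B)
    (u : (ZMod B)ˣ) :
    ∃ a : ℕ, (a : ZMod B) = (u : ZMod B) ∧ 0 < a ∧
      ∃ E : ℕ, ¬ r ∣ E ∧ (a : ℤ) ∣ (q : ℤ) ^ (4 * (r - 1) * E) - 1 := by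
  set m := if r = 2 then 4 else r with hm
  have hm2 : 2 < m := by
    rw [hm]; split
    · norm_num
    · have := hr.two_le; omega
  haveI : NeZero (B * m) := ⟨Nat.mul_ne_zero hB.ne' (by omega)⟩
  haveI : Fact (1 < m) := ⟨by omega⟩
  obtain ⟨v, hv⟩ := ZMod.unitsMap_surjective (n := B) (m := B * m) (Dvd.intro m rfl) u
  have key : ∀ (w : (ZMod (B * m))ˣ) (n : ℕ),
      ZMod.castHom (Dvd.intro_left B rfl) (ZMod m) (w : ZMod (B * m)) ≠ 1 →
      ∃ l : ℕ, l.Prime ∧ n < l ∧ (l : ZMod (B * m)) = w ∧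
        ∃ E : ℕ, ¬ r ∣ E ∧ (l : ℤ) ∣ (q : ℤ) ^ (4 * (r - 1) * E) - 1 := by
    intro w n hw
    obtain ⟨l, hln, hl, hlw⟩ := Nat.forall_exists_prime_gt_and_eq_mod w.isUnit (n + q + 2)
    refine ⟨l, hl, by omega, hlw, exists_exponent_of_prime hr hl
      (fun h => by have := Nat.le_of_dvd hq h; omega) (by omega) ?_⟩
    rw [← hlw, map_natCast] at hw
    exact hw
  have hred : ∀ x : ℕ, (x : ZMod (B * m)) = (v : ZMod (B * m)) → (x : ZMod B) = (u : ZMod B) := by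
    intro x hx
    rw [← hv, ZMod.unitsMap_val, ← hx, ZMod.cast_natCast (Dvd.intro m rfl)]
  by_cases hvm : ZMod.castHom (Dvd.intro_left B rfl) (ZMod m) (v : ZMod (B * m)) = 1
  · have hne : (-1 : ZMod m) ≠ 1 := by
      haveI : Fact (2 < m) := ⟨hm2⟩
      exact ZMod.neg_one_ne_one
    obtain ⟨l₁, hl₁, -, hw₁, E₁, hE₁, hd₁⟩ := key (-1) 0 (by simpa using hne)
    obtain ⟨l₂, hl₂, hlt, hw₂, E₂, hE₂, hd₂⟩ := key (-v) l₁ (by
      rw [Units.val_neg, map_neg, hvm]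
      exact hne)
    refine ⟨l₁ * l₂, hred _ ?_, Nat.mul_pos hl₁.pos hl₂.pos, E₁ * E₂,
      fun h => (hr.dvd_mul.mp h).elim hE₁ hE₂, ?_⟩
    · rw [Nat.cast_mul, hw₁, hw₂]
      simp
    · have hc : IsCoprime (l₁ : ℤ) (l₂ : ℤ) :=
        Int.isCoprime_iff_gcd_eq_one.mpr (by
          simpa using (Nat.coprime_primes hl₁ hl₂).mpr (by omega))
      push_cast
      refine hc.mul_dvd (hd₁.trans ?_) (hd₂.trans ?_)
      · rw [show 4 * (r - 1) * (E₁ * E₂) = 4 * (r - 1) * E₁ * E₂ by ring, pow_mul (q : ℤ) _ E₂]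
        exact sub_one_dvd_pow_sub_one _ _
      · rw [show 4 * (r - 1) * (E₁ * E₂) = 4 * (r - 1) * E₂ * E₁ by ring, pow_mul (q : ℤ) _ E₁]
        exact sub_one_dvd_pow_sub_one _ _
  · obtain ⟨l, hl, -, hw, E, hE, hd⟩ := key v 0 hvm
    exact ⟨l, hred _ hw, hl.pos, E, hE, hd⟩

/-- The `r`-part of `x ^ E - 1` for `x ≡ 1 (mod r)`, `r ∤ E`. -/
theorem exists_pow_sub_one_eq {r E : ℕ} (hr : r.Prime) {x : ℤ} (hx : (r : ℤ) ∣ x - 1)
    (hE : ¬ r ∣ E) {W : ℕ} {c : ℤ} (hc : ¬ (r : ℤ) ∣ c) (hW : x - 1 = (r : ℤ) ^ W * c) :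
    ∃ δ : ℤ, ¬ (r : ℤ) ∣ δ ∧ x ^ E - 1 = (r : ℤ) ^ W * δ := by
  refine ⟨c * ∑ i ∈ Finset.range E, x ^ i, fun h => ?_, ?_⟩
  · rcases (Nat.prime_iff_prime_int.mp hr).dvd_or_dvd h with h | h
    · exact hc h
    · rw [← ZMod.intCast_zmod_eq_zero_iff_dvd] at h hx
      push_cast at h hx
      rw [sub_eq_zero] at hx
      simp [hx] at h
      exact hE ((ZMod.natCast_eq_zero_iff _ _).mp h)
  · rw [← mul_assoc, ← hW, mul_geom_sum]

end Fermat.Agent.Raise
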