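import Fermat.Agent.Raise.Degeneracy

/-!
# Invariant functions of cusps are Eisenstein

For a prime `l ≡ 1 (mod M)`, `T_l` is multiplication by `l + 1` on `Γ₀(M)`-invariant functions of
cusps.
-/

set_option autoImplicit false

noncomputable section

namespace Fermat.Agent.Raise

open CongruenceSubgroup Matrix.SpecialLinearGroup
open scoped MatrixGroups

theorem exists_integral_ratBeta {M : ℕ} (ℓ : Nat.Primes) [NeZero (ℓ : ℕ)]
    (i : HeckeCohom.HeckeIdx M (ℓ : ℕ)) :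
    ∃ a b d : ℤ, a * d = (ℓ : ℕ) ∧ (a = 1 ∨ a = (ℓ : ℕ)) ∧ (d = 1 ∨ d = (ℓ : ℕ)) ∧
      (ratBeta M ℓ i : Matrix (Fin 2) (Fin 2) ℚ) = !![(a : ℚ), (b : ℚ); 0, (d : ℚ)] := by
  obtain ⟨_ | j, hi⟩ := i
  · exact ⟨(ℓ : ℕ), 0, 1, by ring, .inr rfl, .inl rfl, by simp [ratBeta, NeZero.ne]⟩
  · exact ⟨1, (j.val : ℤ), (ℓ : ℕ), by ring, .inl rfl, .inr rfl,
      by simp [ratBeta, NeZero.ne, -ZMod.natCast_val]⟩

/-- For `l ≡ 1 (mod M)` the Hecke representatives fix every `Γ₀(M)`-orbit of cusps. -/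
theorem exists_gamma0_smul_eq {M : ℕ} (ℓ : Nat.Primes) [NeZero (ℓ : ℕ)]
    (h1 : ((ℓ : ℕ) : ZMod M) = 1) (i : HeckeCohom.HeckeIdx M (ℓ : ℕ)) (r : Cusp) :
    ∃ γ : Gamma0 M, g0Q M γ • r = ratBeta M ℓ i • r := by
  obtain ⟨g, hg⟩ := OnePoint.exists_mem_SL2 ℤ r
  obtain ⟨a₀, b₀, d₀, hdet, ha₀, hd₀, hβ⟩ := exists_integral_ratBeta ℓ i
  set a := g 0 0 with ha
  set b := g 0 1 with hb
  set c := g 1 0 with hc
  set d := g 1 1 with hd
  have hg1 : a * d - b * c = 1 := by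
    have h := HeckeCohom.det_eq_one g
    linear_combination h
  set w₁ := a₀ * a + b₀ * c with hw₁
  set w₂ := d₀ * c with hw₂
  set e : ℤ := (Int.gcd w₁ w₂ : ℤ) with he
  have hel : e ∣ ((ℓ : ℕ) : ℤ) := by
    have h : ((ℓ : ℕ) : ℤ) = (d₀ * w₁ - b₀ * w₂) * d - a₀ * w₂ * b := by
      rw [hw₁, hw₂, ← hdet]; linear_combination -(a₀ * d₀) * hg1
    rw [h]
    exact ((((Int.gcd_dvd_left w₁ w₂).mul_left _).sub ((Int.gcd_dvd_right w₁ w₂).mul_left _)).mul_right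
      _).sub (((Int.gcd_dvd_right w₁ w₂).mul_left _).mul_right _)
  have he' : e = 1 ∨ e = (ℓ : ℕ) := by
    rcases (Nat.dvd_prime ℓ.2).mp (Int.natCast_dvd_natCast.mp hel) with h | h
    · exact .inl (by rw [he, h]; rfl)
    · exact .inr (by rw [he, h])
  have he0 : e ≠ 0 := by rcases he' with h | h <;> rw [h] <;> simp [NeZero.ne (ℓ : ℕ)]
  obtain ⟨u₁, hu₁⟩ : e ∣ w₁ := Int.gcd_dvd_left w₁ w₂
  obtain ⟨u₂, hu₂⟩ : e ∣ w₂ := Int.gcd_dvd_right w₁ w₂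
  have hu : IsCoprime u₁ u₂ := by
    have hbez := Int.gcd_eq_gcd_ab w₁ w₂
    refine ⟨Int.gcdA w₁ w₂, Int.gcdB w₁ w₂, mul_left_cancel₀ he0 ?_⟩
    rw [mul_one]
    rw [← he] at hbez
    linear_combination -(Int.gcdA w₁ w₂) * hu₁ - (Int.gcdB w₁ w₂) * hu₂ - hbez
  obtain ⟨y, x', hyx⟩ := hu
  set x := -x' with hx
  set k : ℤ := -(d * (x - b₀ * y - b) - b * (y - d)) with hk
  have hM1 : ∀ z : ℤ, (z = 1 ∨ z = (ℓ : ℕ)) → (z : ZMod M) = 1 := by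
    rintro z (rfl | rfl)
    · simp
    · simpa using h1
  have hN : (M : ℤ) ∣ u₂ * d - (u₂ * k + y) * c := by
    rw [← ZMod.intCast_zmod_eq_zero_iff_dvd]
    have hE := hM1 e he'
    have c1 := congrArg (Int.cast : ℤ → ZMod M) hu₁
    have c2 := congrArg (Int.cast : ℤ → ZMod M) hu₂
    have c3 := congrArg (Int.cast : ℤ → ZMod M) hyx
    have c4 := congrArg (Int.cast : ℤ → ZMod M) hg1
    simp only [hw₁, hw₂, hk, hx] at c1 c2 ⊢
    push_cast at c1 c2 c3 c4 ⊢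
    rw [hM1 a₀ ha₀, hE, one_mul, one_mul] at c1
    rw [hM1 d₀ hd₀, hE, one_mul, one_mul] at c2
    rw [← c2]
    rw [← c1, ← c2] at c3
    linear_combination (c : ZMod M) * ((y : ZMod M) * c4 - (d : ZMod M) * c3)
  obtain ⟨γ, hγ⟩ := exists_gamma0 (N := M)
    (u₁ * d - (u₁ * k + x) * c) (-(u₁ * b) + (u₁ * k + x) * a)
    (u₂ * d - (u₂ * k + y) * c) (-(u₂ * b) + (u₂ * k + y) * a)
    (by linear_combination (a * d - b * c) * hyx + hg1 - u₂ * (a * d - b * c) * hx) hN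
  refine ⟨γ, ?_⟩
  have hcast : ∀ {z z' : ℤ}, z = z' → (z : ℚ) = z' := fun h => congrArg _ h
  rw [← hg, ← mul_smul, ← mul_smul, OnePoint.smul_infty_eq_ite, OnePoint.smul_infty_eq_ite]
  have e10 : ((g0Q M γ * mapGL ℚ g : GL (Fin 2) ℚ) : Matrix (Fin 2) (Fin 2) ℚ) 1 0 = u₂ := by
    simp [Matrix.mul_apply, Fin.sum_univ_two, coe_g0Q, hγ, ← ha, ← hc]
    have := hcast (show (u₂ * d - (u₂ * k + y) * c) * a + (-(u₂ * b) + (u₂ * k + y) * a) * c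
      = u₂ by linear_combination u₂ * hg1)
    push_cast at this
    linear_combination this
  have e00 : ((g0Q M γ * mapGL ℚ g : GL (Fin 2) ℚ) : Matrix (Fin 2) (Fin 2) ℚ) 0 0 = u₁ := by
    simp [Matrix.mul_apply, Fin.sum_univ_two, coe_g0Q, hγ, ← ha, ← hc]
    have := hcast (show (u₁ * d - (u₁ * k + x) * c) * a + (-(u₁ * b) + (u₁ * k + x) * a) * c
      = u₁ by linear_combination u₁ * hg1)
    push_cast at this
    linear_combination this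
  have f10 : ((ratBeta M ℓ i * mapGL ℚ g : GL (Fin 2) ℚ) : Matrix (Fin 2) (Fin 2) ℚ) 1 0
      = (e : ℚ) * u₂ := by
    simp [Matrix.mul_apply, Fin.sum_univ_two, hβ, ← ha, ← hc]
    exact_mod_cast hu₂
  have f00 : ((ratBeta M ℓ i * mapGL ℚ g : GL (Fin 2) ℚ) : Matrix (Fin 2) (Fin 2) ℚ) 0 0
      = (e : ℚ) * u₁ := by
    simp [Matrix.mul_apply, Fin.sum_univ_two, hβ, ← ha, ← hc]
    exact_mod_cast hu₁
  have he0' : (e : ℚ) ≠ 0 := Int.cast_ne_zero.mpr he0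
  simp only [e10, e00, f10, f00, mul_eq_zero, he0', false_or, mul_div_mul_left _ _ he0']

/-- Invariant functions of cusps have the Eisenstein eigenvalue. -/
theorem heckeFun_eq_smul {M : ℕ} {A : Type*} [AddCommGroup A] {h : Cusp → A} (hh : IsPrim M h 0)
    (ℓ : Nat.Primes) [NeZero (ℓ : ℕ)] (hℓ : ¬ (ℓ : ℕ) ∣ M) (h1 : ((ℓ : ℕ) : ZMod M) = 1) :
    heckeFun M ℓ h = ((ℓ : ℕ) + 1) • h := by
  funext r
  have key : ∀ i, h (ratBeta M ℓ i • r) = h r := fun i => by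
    obtain ⟨γ, hγ⟩ := exists_gamma0_smul_eq ℓ h1 i r
    rw [← hγ, isPrim_zero_iff.mp hh]
  simp only [heckeFun, key, Finset.sum_const, Finset.card_univ, card_heckeIdx hℓ, Pi.smul_apply]

end Fermat.Agent.Raise
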