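import Fermat.Agent.Raise.Arith

/-!
# Principal congruence subgroups of `SL₂(ℤ[1/q])` inside `SL₂(ℚ)`

Basic moves: conjugation by a torus element fixes the value of a homomorphism killing unipotents
as soon as `u² ≡ 1` modulo the upper left entry.
-/

set_option autoImplicit false

noncomputable section

namespace Fermat.Agent.Raise

open Matrix

/-- `SL₂(ℚ)`. -/
abbrev SL2Q : Type := Matrix.SpecialLinearGroup (Fin 2) ℚ

variable {q : ℕ}

/-- All entries lie in `ℤ[1/q]`. -/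
def MatA (q : ℕ) (B : Matrix (Fin 2) (Fin 2) ℚ) : Prop := ∀ i j, InA q (B i j)

theorem MatA.one : MatA q 1 := fun i j => by
  rw [Matrix.one_apply]; split
  · exact InA.one
  · exact InA.zero

theorem MatA.add {B C : Matrix (Fin 2) (Fin 2) ℚ} (hB : MatA q B) (hC : MatA q C) :
    MatA q (B + C) := fun i j => (hB i j).add (hC i j)

theorem MatA.mul {B C : Matrix (Fin 2) (Fin 2) ℚ} (hB : MatA q B) (hC : MatA q C) :
    MatA q (B * C) := fun i j => by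
  rw [Matrix.mul_apply, Fin.sum_univ_two]
  exact ((hB i 0).mul (hC 0 j)).add ((hB i 1).mul (hC 1 j))

theorem MatA.smul {x : ℚ} {B : Matrix (Fin 2) (Fin 2) ℚ} (hx : InA q x) (hB : MatA q B) :
    MatA q (x • B) := fun i j => hx.mul (hB i j)

theorem MatA.adjugate {B : Matrix (Fin 2) (Fin 2) ℚ} (hB : MatA q B) : MatA q B.adjugate := by
  intro i j
  rw [Matrix.adjugate_fin_two]
  fin_cases i <;> fin_cases j <;> first | exact hB _ _ | exact (hB _ _).neg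

/-- `g ≡ 1` modulo `M ℤ[1/q]`. -/
def InCong (q M : ℕ) (g : SL2Q) : Prop :=
  ∃ B, MatA q B ∧ (g : Matrix (Fin 2) (Fin 2) ℚ) = 1 + (M : ℚ) • B

/-- The principal congruence subgroup of level `M` of `SL₂(ℤ[1/q])`. -/
def congr (q M : ℕ) : Subgroup SL2Q where
  carrier := {g | InCong q M g}
  one_mem' := ⟨0, fun i j => InA.zero, by simp⟩
  mul_mem' := by
    rintro g h ⟨B, hB, eg⟩ ⟨C, hC, eh⟩
    refine ⟨B + C + (M : ℚ) • (B * C), (hB.add hC).add (MatA.smul (InA.natCast M) (hB.mul hC)), ?_⟩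
    rw [Matrix.SpecialLinearGroup.coe_mul, eg, eh]
    simp only [mul_add, add_mul, one_mul, mul_one, smul_mul_assoc, mul_smul_comm, smul_add]
    abel
  inv_mem' := by
    rintro g ⟨B, hB, eg⟩
    refine ⟨B.adjugate, hB.adjugate, ?_⟩
    rw [Matrix.SpecialLinearGroup.coe_inv, eg, Matrix.adjugate_fin_two, Matrix.adjugate_fin_two]
    ext i j
    fin_cases i <;> fin_cases j <;> simp

theorem mem_congr_iff {M : ℕ} (hM : M ≠ 0) {g : SL2Q} :
    g ∈ congr q M ↔ InA q ((g 0 0 - 1) / M) ∧ InA q (g 0 1 / M) ∧ InA q (g 1 0 / M) ∧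
      InA q ((g 1 1 - 1) / M) := by
  have hM' : (M : ℚ) ≠ 0 := Nat.cast_ne_zero.mpr hM
  constructor
  · rintro ⟨B, hB, eg⟩
    refine ⟨?_, ?_, ?_, ?_⟩ <;> rw [eg] <;> simp [hM'] <;> exact hB _ _
  · rintro ⟨ha, hb, hc, hd⟩
    refine ⟨!![(g 0 0 - 1) / M, g 0 1 / M; g 1 0 / M, (g 1 1 - 1) / M], fun i j => ?_, ?_⟩
    · fin_cases i <;> fin_cases j <;> assumption
    · ext i j
      fin_cases i <;> fin_cases j <;> simp <;> field_simp <;> ring

theorem congr_anti {M M' : ℕ} (h : M ∣ M') : congr q M' ≤ congr q M := by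
  rintro g ⟨B, hB, eg⟩
  obtain ⟨c, rfl⟩ := h
  exact ⟨(c : ℚ) • B, MatA.smul (InA.natCast c) hB, by rw [eg, smul_smul, Nat.cast_mul]⟩

theorem matA_of_mem_congr {M : ℕ} {g : SL2Q} (hg : g ∈ congr q M) : MatA q (g : Matrix _ _ ℚ) := by
  obtain ⟨B, hB, eg⟩ := hg
  rw [eg]
  exact MatA.one.add (MatA.smul (InA.natCast M) hB)

/-- Conjugation by `h` with `L h`, `L h⁻¹` integral maps level `M L²` into level `M`. -/
theorem conj_mem_congr {M L : ℕ} {h g : SL2Q}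
    (hh : MatA q ((L : ℚ) • (h : Matrix (Fin 2) (Fin 2) ℚ)))
    (hh' : MatA q ((L : ℚ) • ((h⁻¹ : SL2Q) : Matrix (Fin 2) (Fin 2) ℚ)))
    (hg : g ∈ congr q (M * L ^ 2)) : h * g * h⁻¹ ∈ congr q M := by
  obtain ⟨B, hB, eg⟩ := hg
  refine ⟨((L : ℚ) • (h : Matrix (Fin 2) (Fin 2) ℚ)) * B *
    ((L : ℚ) • ((h⁻¹ : SL2Q) : Matrix (Fin 2) (Fin 2) ℚ)), (hh.mul hB).mul hh', ?_⟩
  rw [Matrix.SpecialLinearGroup.coe_mul, Matrix.SpecialLinearGroup.coe_mul, eg, mul_add, add_mul,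
    mul_one, ← Matrix.SpecialLinearGroup.coe_mul, mul_inv_cancel,
    Matrix.SpecialLinearGroup.coe_one]
  simp only [smul_mul_assoc, mul_smul_comm, smul_smul]
  push_cast
  ring_nf

/-- Upper unipotent. -/
def uu (x : ℚ) : SL2Q := ⟨!![1, x; 0, 1], by simp [Matrix.det_fin_two_of]⟩

/-- Lower unipotent. -/
def ll (x : ℚ) : SL2Q := ⟨!![1, 0; x, 1], by simp [Matrix.det_fin_two_of]⟩

/-- Torus element. -/
def dd (u : ℚˣ) : SL2Q := ⟨!![(u : ℚ), 0; 0, ((u⁻¹ : ℚˣ) : ℚ)], by simp [Matrix.det_fin_two_of]⟩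

@[simp] theorem coe_uu (x : ℚ) : (uu x : Matrix (Fin 2) (Fin 2) ℚ) = !![1, x; 0, 1] := rfl
@[simp] theorem coe_ll (x : ℚ) : (ll x : Matrix (Fin 2) (Fin 2) ℚ) = !![1, 0; x, 1] := rfl
@[simp] theorem coe_dd (u : ℚˣ) :
    (dd u : Matrix (Fin 2) (Fin 2) ℚ) = !![(u : ℚ), 0; 0, ((u⁻¹ : ℚˣ) : ℚ)] := rfl

theorem uu_add (x y : ℚ) : uu (x + y) = uu x * uu y := by
  apply Subtype.ext; ext i j
  fin_cases i <;> fin_cases j <;> simp [Matrix.mul_apply, Fin.sum_univ_two, add_comm]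

theorem uu_zero : uu 0 = 1 := by
  apply Subtype.ext; simp [Matrix.one_fin_two]

theorem uu_inv (x : ℚ) : (uu x)⁻¹ = uu (-x) :=
  inv_eq_of_mul_eq_one_right (by rw [← uu_add, add_neg_cancel, uu_zero])

theorem dd_inv (u : ℚˣ) : (dd u)⁻¹ = dd u⁻¹ :=
  inv_eq_of_mul_eq_one_right (by
    apply Subtype.ext; ext i j
    fin_cases i <;> fin_cases j <;> simp [Matrix.mul_apply, Fin.sum_univ_two])

theorem dd_uu (u : ℚˣ) (x : ℚ) : dd u * uu x * (dd u)⁻¹ = uu ((u : ℚ) ^ 2 * x) := by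
  rw [dd_inv]
  apply Subtype.ext; ext i j
  fin_cases i <;> fin_cases j <;> simp [Matrix.mul_apply, Fin.sum_univ_two] <;> ring

theorem uu_mem_congr {M : ℕ} {x : ℚ} (hx : InA q x) : uu ((M : ℚ) * x) ∈ congr q M :=
  ⟨!![0, x; 0, 0], fun i j => by fin_cases i <;> fin_cases j <;> first | exact hx | exact InA.zero,
    by ext i j; fin_cases i <;> fin_cases j <;> simp⟩

theorem ll_mem_congr {M : ℕ} {x : ℚ} (hx : InA q x) : ll ((M : ℚ) * x) ∈ congr q M :=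
  ⟨!![0, 0; x, 0], fun i j => by fin_cases i <;> fin_cases j <;> first | exact hx | exact InA.zero,
    by ext i j; fin_cases i <;> fin_cases j <;> simp⟩

theorem dd_conj_apply (u : ℚˣ) (g : SL2Q) :
    ((dd u * g * (dd u)⁻¹ : SL2Q) : Matrix (Fin 2) (Fin 2) ℚ)
      = !![g 0 0, (u : ℚ) ^ 2 * g 0 1; g 1 0 / (u : ℚ) ^ 2, g 1 1] := by
  have hu0 : (u : ℚ) ≠ 0 := u.ne_zero
  rw [dd_inv, Matrix.SpecialLinearGroup.coe_mul, Matrix.SpecialLinearGroup.coe_mul, coe_dd, coe_dd,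
    inv_inv, Matrix.eta_fin_two (g : Matrix (Fin 2) (Fin 2) ℚ), Units.val_inv_eq_inv_val]
  simp only [Matrix.mul_fin_two]
  ext i j
  fin_cases i <;> fin_cases j <;> simp <;> field_simp

/-- `ψ` is a homomorphism on `S` which kills the unipotent elements of `S`. -/
structure IsUHom {A : Type*} [AddCommGroup A] (S : Subgroup SL2Q) (ψ : SL2Q → A) : Prop where
  map_mul : ∀ g ∈ S, ∀ h ∈ S, ψ (g * h) = ψ g + ψ h
  map_unip : ∀ g ∈ S, g 0 0 + g 1 1 = 2 → ψ g = 0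

namespace IsUHom

variable {A : Type*} [AddCommGroup A] {S T : Subgroup SL2Q} {ψ : SL2Q → A}

theorem map_one (h : IsUHom S ψ) : ψ 1 = 0 := h.map_unip 1 S.one_mem (by norm_num)

theorem mono (h : IsUHom S ψ) (hT : T ≤ S) : IsUHom T ψ :=
  ⟨fun g hg k hk => h.map_mul g (hT hg) k (hT hk), fun g hg => h.map_unip g (hT hg)⟩

theorem map_inv (h : IsUHom S ψ) {g : SL2Q} (hg : g ∈ S) : ψ g⁻¹ = -ψ g := by
  refine eq_neg_of_add_eq_zero_left ?_
  rw [← h.map_mul _ (S.inv_mem hg) _ hg, inv_mul_cancel, h.map_one]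

theorem trace_conj (x g : SL2Q) :
    (x * g * x⁻¹ : SL2Q) 0 0 + (x * g * x⁻¹ : SL2Q) 1 1 = g 0 0 + g 1 1 := by
  have h := Matrix.trace_mul_comm ((x * g : SL2Q) : Matrix (Fin 2) (Fin 2) ℚ)
    ((x⁻¹ : SL2Q) : Matrix (Fin 2) (Fin 2) ℚ)
  rw [← Matrix.SpecialLinearGroup.coe_mul, ← Matrix.SpecialLinearGroup.coe_mul,
    inv_mul_cancel_left, Matrix.trace_fin_two, Matrix.trace_fin_two] at h
  exact h

theorem comp_conj (h : IsUHom S ψ) (x : SL2Q) (hT : ∀ g ∈ T, x * g * x⁻¹ ∈ S) :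
    IsUHom T (fun g => ψ (x * g * x⁻¹)) where
  map_mul g hg k hk := by
    rw [← h.map_mul _ (hT g hg) _ (hT k hk)]
    exact congrArg ψ (by group)
  map_unip g hg e := h.map_unip _ (hT g hg) (by rw [trace_conj]; exact e)

theorem map_conj_mem (h : IsUHom S ψ) {x g : SL2Q} (hx : x ∈ S) (hg : g ∈ S) :
    ψ (x * g * x⁻¹) = ψ g := by
  rw [h.map_mul _ (S.mul_mem hx hg) _ (S.inv_mem hx), h.map_mul _ hx _ hg, h.map_inv hx]
  abel

end IsUHom

/-- Torus conjugation fixes `ψ g` if `u² ≡ 1` modulo the upper left entry. -/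
theorem dfix {A : Type*} [AddCommGroup A] {M : ℕ} {ψ : SL2Q → A} (hψ : IsUHom (congr q M) ψ)
    {g : SL2Q} (hg : g ∈ congr q M) (u : ℚˣ) (hu : InA q (u : ℚ))
    (hu' : InA q ((u⁻¹ : ℚˣ) : ℚ)) {z : ℚ} (hz : InA q z) (hgz : (u : ℚ) ^ 2 - 1 = g 0 0 * z) :
    ψ (dd u * g * (dd u)⁻¹) = ψ g := by
  obtain ⟨B, hB, eg⟩ := id hg
  have h01 : g 0 1 = (M : ℚ) * B 0 1 := by rw [eg]; simp
  have hdet : g 0 0 * g 1 1 - g 0 1 * g 1 0 = 1 := by
    have := g.det_coe; rwa [Matrix.det_fin_two] at this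
  set v := uu ((M : ℚ) * (B 0 1 * z)) with hv
  have hv' : v ∈ congr q M := uu_mem_congr ((hB 0 1).mul hz)
  have hg' : dd u * g * (dd u)⁻¹ ∈ congr q M := by
    refine ⟨dd u * B * dd u⁻¹, ((?_ : MatA q (dd u : Matrix _ _ ℚ)).mul hB).mul ?_, ?_⟩
    · intro i j; fin_cases i <;> fin_cases j <;> simp [hu, hu', InA.zero, -Units.val_inv_eq_inv_val]
    · intro i j; fin_cases i <;> fin_cases j <;> simp [hu, hu', InA.zero, -Units.val_inv_eq_inv_val]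
    · rw [Matrix.SpecialLinearGroup.coe_mul, Matrix.SpecialLinearGroup.coe_mul, eg, dd_inv,
        mul_add, add_mul, mul_one, mul_smul_comm, smul_mul_assoc, ← Matrix.SpecialLinearGroup.coe_mul,
        ← dd_inv, mul_inv_cancel, Matrix.SpecialLinearGroup.coe_one, dd_inv]
  have hgv : g * v ∈ congr q M := Subgroup.mul_mem _ hg hv'
  have key := hψ.map_unip _ (Subgroup.mul_mem _ hg' (Subgroup.inv_mem _ hgv)) (by
    have hu0 : (u : ℚ) ≠ 0 := u.ne_zero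
    rw [h01] at hdet
    rw [Matrix.SpecialLinearGroup.coe_mul, dd_conj_apply, Matrix.SpecialLinearGroup.coe_inv,
      Matrix.adjugate_fin_two]
    simp [Matrix.mul_apply, Fin.sum_univ_two, v, h01]
    field_simp
    linear_combination 2 * (u : ℚ) ^ 2 * hdet
      - ((u : ℚ) ^ 2 - 1) * ((M : ℚ) * B 0 1 * g 1 0) * hgz)
  rw [hψ.map_mul _ hg' _ (Subgroup.inv_mem _ hgv), hψ.map_inv hgv, ← sub_eq_add_neg, sub_eq_zero,
    hψ.map_mul _ hg _ hv', hψ.map_unip v hv' (by simp [v]; norm_num), add_zero] at key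
  exact key

/-- Each element has a torus exponent with small `r`-part. -/
theorem exists_fixing_exponent {A : Type*} [AddCommGroup A] {M r : ℕ} (hq : q.Prime)
    (hqM : ¬ q ∣ M) (hM : 1 < M) (hr : r.Prime) {ψ : SL2Q → A} (hψ : IsUHom (congr q M) ψ)
    {g : SL2Q} (hg : g ∈ congr q M) :
    ∃ E : ℕ, ¬ r ∣ E ∧ ∀ (E' : ℕ), E ∣ E' → ∀ u : ℚˣ,
      ((u : ℚ) = (q : ℚ) ^ (2 * (r - 1) * E') ∨ ((u⁻¹ : ℚˣ) : ℚ) = (q : ℚ) ^ (2 * (r - 1) * E')) →
      ψ (dd u * g * (dd u)⁻¹) = ψ g := by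
  classical
  have hM0 : (M : ℚ) ≠ 0 := by positivity
  have hq0 : (q : ℚ) ≠ 0 := Nat.cast_ne_zero.mpr hq.ne_zero
  obtain ⟨w₀, hw₀, hw₀tr, hb⟩ : ∃ w₀ : SL2Q,
      w₀ ∈ congr q M ∧ w₀ 0 0 + w₀ 1 1 = 2 ∧ (g * w₀) 0 1 ≠ 0 := by
    by_cases hb : g 0 1 = 0
    · refine ⟨uu ((M : ℚ) * 1), uu_mem_congr InA.one, by simp; norm_num, ?_⟩
      have h := g.det_coe
      rw [Matrix.det_fin_two, hb, zero_mul, sub_zero] at h
      have ha : g 0 0 ≠ 0 := left_ne_zero_of_mul_eq_one h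
      simp [Matrix.mul_apply, Fin.sum_univ_two, hb, ha, hM0]
    · exact ⟨1, Subgroup.one_mem _, by norm_num, by simpa using hb⟩
  set g₁ := g * w₀ with hg₁def
  have hg₁ : g₁ ∈ congr q M := Subgroup.mul_mem _ hg hw₀
  obtain ⟨B, hB, eg⟩ := id hg₁
  obtain ⟨K, n, hn⟩ : ∃ (K : ℕ) (n : Fin 2 → Fin 2 → ℤ),
      ∀ i j, B i j * (q : ℚ) ^ K = n i j := by
    choose k n hn using hB
    refine ⟨∑ i, ∑ j, k i j, fun i j => n i j * (q : ℤ) ^ ((∑ i, ∑ j, k i j) - k i j),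
      fun i j => ?_⟩
    have hle : k i j ≤ ∑ i, ∑ j, k i j := by
      fin_cases i <;> fin_cases j <;> simp [Fin.sum_univ_two] <;> omega
    push_cast
    rw [← hn i j, mul_assoc, ← pow_add, Nat.add_sub_cancel' hle]
  have e00 : g₁ 0 0 * (q : ℚ) ^ K = ((q : ℤ) ^ K + M * n 0 0 : ℤ) := by
    rw [eg]; simp [add_mul, mul_assoc, hn]
  have e01 : g₁ 0 1 * (q : ℚ) ^ K = ((M : ℤ) * n 0 1 : ℤ) := by
    rw [eg]; simp [mul_assoc, hn]
  have hn01 : n 0 1 ≠ 0 := fun h => hb (by simpa [h, hq.ne_zero] using e01)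
  set a' : ℤ := (q : ℤ) ^ K + M * n 0 0 with ha'
  obtain ⟨i, b', hb', hb01⟩ := Nat.exists_eq_pow_mul_and_not_dvd
    (Nat.mul_ne_zero (by omega : M ≠ 0) (Int.natAbs_ne_zero.mpr hn01)) q hq.ne_one
  set B' := b' * M with hB'
  have hqB : ¬ q ∣ B' := fun h => (hq.dvd_mul.mp h).elim hb' hqM
  have hB'0 : 0 < B' := Nat.pos_of_ne_zero fun h => hqB (h ▸ dvd_zero q)
  have hdetZ : a' * ((q : ℤ) ^ K + M * n 1 1) - (M * n 0 1) * (M * n 1 0)
      = (q : ℤ) ^ K * (q : ℤ) ^ K := by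
    have h := g₁.det_coe
    rw [Matrix.det_fin_two, eg] at h
    simp at h
    rw [← @Int.cast_inj ℚ, ha']
    push_cast
    simp only [← hn]
    linear_combination ((q : ℚ) ^ K * (q : ℚ) ^ K) * h
  have hunit : ∀ x : ℕ, Nat.Coprime x B' → IsUnit (x : ZMod B') :=
    fun x hx => (ZMod.isUnit_iff_coprime x B').mpr hx
  have hqu : IsUnit (((q : ℤ) ^ K : ℤ) : ZMod B') := by
    push_cast
    exact (hunit q ((hq.coprime_iff_not_dvd).mpr hqB)).pow K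
  have hau : IsUnit (a' : ZMod B') := by
    rw [ZMod.coe_int_isUnit_iff_isCoprime, Int.isCoprime_iff_gcd_eq_one]
    refine Nat.coprime_of_dvd fun l hl h1 h2 => ?_
    have ha : (l : ℤ) ∣ a' := by
      rw [Int.natCast_dvd]; simpa using h2
    have hlB : l ∣ B' := by simpa using h1
    have hlq : (l : ℤ) ∣ (q : ℤ) ^ K * (q : ℤ) ^ K := by
      rw [← hdetZ]
      refine dvd_sub (ha.mul_right _) ?_
      rcases (hl.dvd_mul).mp hlB with h | h
      · refine Dvd.dvd.mul_right ?_ _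
        have : l ∣ M * (n 0 1).natAbs := hb01 ▸ h.mul_left _
        rw [Int.natCast_dvd, Int.natAbs_mul, Int.natAbs_natCast]
        exact this
      · exact ((Int.natCast_dvd_natCast.mpr h).mul_right _).mul_left _
    have hlq' : l ∣ q := by
      have : (l : ℤ) ∣ ((q ^ (K + K) : ℕ) : ℤ) := by push_cast; rwa [pow_add]
      exact hl.dvd_of_dvd_pow (Int.natCast_dvd_natCast.mp this)
    exact hqB ((Nat.prime_dvd_prime_iff_eq hl hq).mp hlq' ▸ hlB)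
  obtain ⟨a, hau', ha0, E, hE, had⟩ :=
    exists_rep_exponent hq.pos hr hB'0 (hau.unit * hqu.unit⁻¹)
  have hcong : (B' : ℤ) ∣ (a : ℤ) * (q : ℤ) ^ K - a' := by
    rw [← ZMod.intCast_zmod_eq_zero_iff_dvd, Int.cast_sub, Int.cast_mul, sub_eq_zero,
      Int.cast_natCast, hau', Units.val_mul, mul_assoc, IsUnit.val_inv_mul, mul_one,
      IsUnit.unit_spec]
  obtain ⟨c, hc⟩ := hcong
  obtain ⟨s, hs⟩ : ∃ s : ℤ, ((q ^ i * b' : ℕ) : ℤ) = s * (M * n 0 1) := by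
    rw [← hb01, ← Int.natAbs_natCast M, ← Int.natAbs_mul, Int.natCast_natAbs]
    rcases abs_choice ((M : ℤ) * n 0 1) with h | h <;> rw [h]
    · exact ⟨1, (one_mul _).symm⟩
    · exact ⟨-1, (neg_one_mul _).symm⟩
  set x : ℚ := (s * c : ℤ) / (q : ℚ) ^ i with hx
  have hxA : InA q x := (InA.intCast _).div_pow i
  set v := ll ((M : ℚ) * x) with hv
  have hv' : v ∈ congr q M := ll_mem_congr hxA
  set g₂ := g₁ * v with hg₂def
  have hg₂ : g₂ ∈ congr q M := Subgroup.mul_mem _ hg₁ hv'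
  have hg₂00 : g₂ 0 0 = (a : ℚ) := by
    have hc' := congrArg (fun y : ℤ => (y : ℚ)) hc
    have hs' := congrArg (fun y : ℤ => (y : ℚ)) hs
    simp [B'] at hc' hs'
    simp at e00 e01
    have hqK : (q : ℚ) ^ K ≠ 0 := pow_ne_zero _ hq0
    have hqi : (q : ℚ) ^ i ≠ 0 := pow_ne_zero _ hq0
    simp [g₂, v, x, Matrix.mul_apply, Fin.sum_univ_two]
    field_simp
    apply mul_right_cancel₀ hqK
    linear_combination (q : ℚ) ^ i * e00 + ((M : ℚ) * (s * c)) * e01 -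
      (q : ℚ) ^ i * hc' - (M : ℚ) * c * hs'
  refine ⟨E, hE, fun E' hEE' u hu => ?_⟩
  obtain ⟨z₀, hz₀⟩ : (a : ℤ) ∣ (q : ℤ) ^ (4 * (r - 1) * E') - 1 := by
    obtain ⟨e, rfl⟩ := hEE'
    rw [← mul_assoc (4 * (r - 1)) E e, pow_mul]
    exact had.trans (sub_one_dvd_pow_sub_one _ _)
  have hz₀' : (q : ℚ) ^ (2 * (r - 1) * E') ^ 1 * (q : ℚ) ^ (2 * (r - 1) * E') - 1
      = (a : ℚ) * z₀ := by
    rw [pow_one, ← pow_add, show 2 * (r - 1) * E' + 2 * (r - 1) * E' = 4 * (r - 1) * E' by ring]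
    exact_mod_cast congrArg (fun y : ℤ => (y : ℚ)) hz₀
  rw [pow_one] at hz₀'
  set Q := (q : ℚ) ^ (2 * (r - 1) * E') with hQ
  have hQ0 : Q ≠ 0 := pow_ne_zero _ hq0
  have hQA : InA q Q := (InA.natCast q).pow _
  have hQA' : InA q Q⁻¹ := by simpa [hQ] using InA.one.div_pow (q := q) (2 * (r - 1) * E')
  have main : ψ (dd u * g₂ * (dd u)⁻¹) = ψ g₂ := by
    rcases hu with hu | hu
    · refine dfix hψ hg₂ u (hu ▸ hQA) ?_ (InA.intCast z₀) ?_
      · rw [Units.val_inv_eq_inv_val, hu]; exact hQA'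
      · rw [hu, hg₂00]; linear_combination hz₀'
    · have hu' : (u : ℚ) = Q⁻¹ := by
        rw [← hu, Units.val_inv_eq_inv_val, inv_inv]
      refine dfix hψ hg₂ u (hu' ▸ hQA') (hu ▸ hQA)
        (z := -(z₀ : ℚ) * Q⁻¹ * Q⁻¹) (((InA.intCast z₀).neg.mul hQA').mul hQA') ?_
      rw [hu', hg₂00]
      field_simp
      linear_combination -hz₀'
  have hval : ψ g₂ = ψ g := by
    rw [hg₂def, hψ.map_mul _ hg₁ _ hv', hg₁def, hψ.map_mul _ hg _ hw₀, hψ.map_unip w₀ hw₀ hw₀tr,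
      hψ.map_unip v hv' (by simp [v]; norm_num)]
    abel
  have huA : MatA q (dd u : Matrix (Fin 2) (Fin 2) ℚ) ∧
      MatA q ((dd u)⁻¹ : SL2Q) := by
    have h2 : InA q (u : ℚ) ∧ InA q ((u⁻¹ : ℚˣ) : ℚ) := by
      rcases hu with hu | hu
      · exact ⟨hu ▸ hQA, by rw [Units.val_inv_eq_inv_val, hu]; exact hQA'⟩
      · exact ⟨by rw [← inv_inv u, Units.val_inv_eq_inv_val, hu]; exact hQA', hu ▸ hQA⟩
    rw [dd_inv]
    constructor <;> intro i j <;> fin_cases i <;> fin_cases j <;>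
      simp [h2.1, h2.2, InA.zero, -Units.val_inv_eq_inv_val]
  have hconj : ∀ y ∈ congr q M, dd u * y * (dd u)⁻¹ ∈ congr q M := fun y hy =>
    conj_mem_congr (L := 1) (by simpa using huA.1) (by simpa using huA.2) (by simpa using hy)
  have hκ := hψ.comp_conj (dd u) hconj
  have hval' : ψ (dd u * g₂ * (dd u)⁻¹) = ψ (dd u * g * (dd u)⁻¹) := by
    have h1 := hκ.map_mul _ hg₁ _ hv'
    have h2 := hκ.map_mul _ hg _ hw₀
    rw [← hg₁def] at h2
    rw [← hg₂def] at h1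
    rw [h1, h2, hκ.map_unip v hv' (by simp [v]; norm_num), add_zero]
    rw [hκ.map_unip w₀ hw₀ hw₀tr, add_zero]
  rw [← hval, ← main, hval']

end Fermat.Agent.Raise
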