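import Fermat.Agent.Raise.Invariance

/-!
# Invariance on deep levels under `SL₂(ℤ[1/l])`
-/

set_option autoImplicit false

noncomputable section

namespace Fermat.Agent.Raise

open Matrix

variable {q N l : ℕ} {A : Type*} [AddCommGroup A] {ψ : SL2Q → A}

theorem conj_uu_int (hq : q.Prime) (hqN : ¬ q ∣ N) (hψ : IsUHom (congr q N) ψ) (k : ℤ) {g : SL2Q}
    (hg : g ∈ congr q N) : ψ (uu (k : ℚ) * g * (uu (k : ℚ))⁻¹) = ψ g := by
  induction k using Int.induction_on with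
  | zero => simp [uu_zero]
  | succ i ih =>
    rw [Int.cast_add, Int.cast_one, add_comm, uu_add, ← ih,
      ← conj_uu_one hq hqN hψ (uu_int_conj_mem_congr (i : ℤ) hg)]
    exact congrArg ψ (by group)
  | pred i ih =>
    rw [Int.cast_sub, Int.cast_one]
    have h := conj_uu_one hq hqN hψ (uu_int_conj_mem_congr (-(i : ℤ) - 1) hg)
    rw [Int.cast_sub, Int.cast_one] at h
    rw [← h, ← ih]
    refine congrArg ψ ?_
    have e : uu (((-(i : ℤ) : ℤ) : ℚ)) = uu 1 * uu (((-(i : ℤ) : ℤ) : ℚ) - 1) := by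
      rw [← uu_add]; ring_nf
    rw [e]
    group

/-- Conjugation by `diag (c, 1)`. -/
def scale (c : ℚˣ) : SL2Q →* SL2Q where
  toFun g := ⟨!![g 0 0, (c : ℚ) * g 0 1; g 1 0 / (c : ℚ), g 1 1], by
    have h := g.det_coe
    rw [Matrix.det_fin_two] at h
    rw [Matrix.det_fin_two_of]
    have := c.ne_zero
    field_simp
    linear_combination h⟩
  map_one' := by
    apply Subtype.ext
    ext i j
    fin_cases i <;> fin_cases j <;> simp
  map_mul' g h := by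
    apply Subtype.ext
    have := c.ne_zero
    show (!![(g * h) 0 0, (c : ℚ) * (g * h) 0 1; (g * h) 1 0 / (c : ℚ), (g * h) 1 1] :
      Matrix (Fin 2) (Fin 2) ℚ) = !![g 0 0, (c : ℚ) * g 0 1; g 1 0 / (c : ℚ), g 1 1] *
        !![h 0 0, (c : ℚ) * h 0 1; h 1 0 / (c : ℚ), h 1 1]
    simp only [Matrix.mul_fin_two, Matrix.SpecialLinearGroup.coe_mul, Matrix.mul_apply,
      Fin.sum_univ_two]
    ext i j
    fin_cases i <;> fin_cases j <;> simp <;> field_simp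

@[simp] theorem coe_scale (c : ℚˣ) (g : SL2Q) : (scale c g : Matrix (Fin 2) (Fin 2) ℚ)
    = !![g 0 0, (c : ℚ) * g 0 1; g 1 0 / (c : ℚ), g 1 1] := rfl

theorem scale_scale (c : ℚˣ) (g : SL2Q) : scale c (scale c⁻¹ g) = g := by
  apply Subtype.ext
  have := c.ne_zero
  ext i j
  fin_cases i <;> fin_cases j <;> simp <;> field_simp


/-- `h` fixes `ψ` on a deep level, with bounded denominators. -/
def Inv (q N l : ℕ) (ψ : SL2Q → A) (h : SL2Q) : Prop :=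
  (∃ j : ℕ, MatA q ((l ^ j : ℕ) • (h : Matrix (Fin 2) (Fin 2) ℚ)) ∧
    MatA q ((l ^ j : ℕ) • ((h⁻¹ : SL2Q) : Matrix (Fin 2) (Fin 2) ℚ))) ∧
  ∃ i : ℕ, ∀ g ∈ congr q (N * l ^ i), h * g * h⁻¹ ∈ congr q N ∧ ψ (h * g * h⁻¹) = ψ g

theorem nsmul_eq_cast_smul (n : ℕ) (B : Matrix (Fin 2) (Fin 2) ℚ) : n • B = (n : ℚ) • B :=
  (Nat.cast_smul_eq_nsmul ℚ n B).symm

theorem Inv.one : Inv q N l ψ 1 :=
  ⟨⟨0, by simpa using MatA.one, by simpa using MatA.one⟩, 0, fun g hg => by simpa using hg⟩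

theorem Inv.mul {h₁ h₂ : SL2Q} (H₁ : Inv q N l ψ h₁) (H₂ : Inv q N l ψ h₂) :
    Inv q N l ψ (h₁ * h₂) := by
  obtain ⟨⟨j₁, a₁, b₁⟩, i₁, f₁⟩ := H₁
  obtain ⟨⟨j₂, a₂, b₂⟩, i₂, f₂⟩ := H₂
  simp only [nsmul_eq_cast_smul] at a₁ b₁ a₂ b₂
  refine ⟨⟨j₁ + j₂, ?_, ?_⟩, i₁ + j₂ * 2 + i₂, fun g hg => ?_⟩
  · rw [nsmul_eq_cast_smul, pow_add, Nat.cast_mul, Matrix.SpecialLinearGroup.coe_mul,
      ← smul_smul, ← mul_smul_comm, ← smul_mul_assoc]
    exact a₁.mul a₂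
  · rw [nsmul_eq_cast_smul, pow_add, Nat.cast_mul, _root_.mul_inv_rev, Matrix.SpecialLinearGroup.coe_mul,
      mul_comm, ← smul_smul, ← mul_smul_comm, ← smul_mul_assoc]
    exact b₂.mul b₁
  · have e : N * l ^ (i₁ + j₂ * 2 + i₂) = N * l ^ i₁ * (l ^ j₂) ^ 2 * l ^ i₂ := by
      rw [pow_add, pow_add, pow_mul]; ring
    rw [e] at hg
    have h2 := f₂ g (congr_anti (mul_dvd_mul_right
      (by rw [mul_assoc]; exact dvd_mul_right _ _) _) hg)
    have hmem : h₂ * g * h₂⁻¹ ∈ congr q (N * l ^ i₁) :=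
      conj_mem_congr a₂ b₂ (congr_anti (dvd_mul_right _ _) hg)
    have h1 := f₁ _ hmem
    rw [h2.2] at h1
    rw [show h₁ * h₂ * g * (h₁ * h₂)⁻¹ = h₁ * (h₂ * g * h₂⁻¹) * h₁⁻¹ by group]
    exact h1

theorem Inv.inv {h : SL2Q} (H : Inv q N l ψ h) : Inv q N l ψ h⁻¹ := by
  obtain ⟨⟨j, a, b⟩, i, f⟩ := H
  refine ⟨⟨j, b, by rwa [inv_inv]⟩, i + j * 2, fun g hg => ?_⟩
  simp only [nsmul_eq_cast_smul] at a b
  have e : N * l ^ (i + j * 2) = N * l ^ i * (l ^ j) ^ 2 := by rw [pow_add, pow_mul]; ring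
  rw [e] at hg
  have hmem : h⁻¹ * g * h⁻¹⁻¹ ∈ congr q (N * l ^ i) :=
    conj_mem_congr b (by rwa [inv_inv]) hg
  have h2 := f _ hmem
  rw [show h * (h⁻¹ * g * h⁻¹⁻¹) * h⁻¹ = g by group] at h2
  exact ⟨congr_anti (dvd_mul_right N _) hmem, h2.2.symm⟩

theorem inv_uu (hq : q.Prime) (hl : l.Prime) (hlq : l ≠ q) (hqN : ¬ q ∣ N)
    (hψ : IsUHom (congr q N) ψ) (k : ℤ) (i : ℕ) :
    Inv q N l ψ (uu ((k : ℚ) / (l : ℚ) ^ i)) := by
  set L := l ^ i with hL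
  have hL0 : (L : ℚ) ≠ 0 := by simp [hL, hl.ne_zero]
  have hLA : InA q ((L : ℚ) * ((k : ℚ) / (L : ℚ))) := by
    rw [mul_div_cancel₀ _ hL0]; exact InA.intCast k
  have hcast : (l : ℚ) ^ i = (L : ℚ) := by simp [hL]
  rw [hcast]
  refine ⟨⟨i, by rw [nsmul_eq_cast_smul]; exact (matA_uu hLA).1,
    by rw [nsmul_eq_cast_smul]; exact (matA_uu hLA).2⟩, i * 2, fun g hg => ?_⟩
  rw [pow_mul, ← hL] at hg
  refine ⟨uu_conj_mem_congr hLA hg, ?_⟩
  have hN0 : N ≠ 0 := fun h => hqN (h ▸ dvd_zero q)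
  have hNL : N * L ≠ 0 := Nat.mul_ne_zero hN0 (by simp [hL, hl.ne_zero])
  have hqNL : ¬ q ∣ N * L := fun h => by
    rcases hq.dvd_mul.mp h with h | h
    · exact hqN h
    · exact hlq ((Nat.prime_dvd_prime_iff_eq hq hl).mp (hq.dvd_of_dvd_pow h)).symm
  set c : ℚˣ := (Units.mk0 (L : ℚ) hL0)⁻¹ with hc
  have hcc : (c : ℚ) = (L : ℚ)⁻¹ := by rw [hc, Units.val_inv_eq_inv_val, Units.val_mk0]
  have hc1 : InA q ((L : ℚ) * c) := by rw [hcc, mul_inv_cancel₀ hL0]; exact InA.one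
  have hc2 : InA q ((L : ℚ) / c) := by
    rw [hcc, div_inv_eq_mul]; exact (InA.natCast L).mul (InA.natCast L)
  have hsc : ∀ x ∈ congr q (N * L), scale c x ∈ congr q N := by
    intro x hx
    obtain ⟨B, hB, eg⟩ := hx
    refine ⟨!![(L : ℚ) * B 0 0, B 0 1; (L : ℚ) * L * B 1 0, (L : ℚ) * B 1 1], fun a b => ?_, ?_⟩
    · have hLA' : InA q (L : ℚ) := InA.natCast L
      fin_cases a <;> fin_cases b
      exacts [hLA'.mul (hB 0 0), hB 0 1, (hLA'.mul hLA').mul (hB 1 0), hLA'.mul (hB 1 1)]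
    · ext a b
      fin_cases a <;> fin_cases b <;> simp [eg, hcc] <;> field_simp
  have hψ' : IsUHom (congr q (N * L)) (fun x => ψ (scale c x)) := by
    refine ⟨fun x hx y hy => ?_, fun x hx e => hψ.map_unip _ (hsc x hx) (by simpa using e)⟩
    rw [map_mul]; exact hψ.map_mul _ (hsc x hx) _ (hsc y hy)
  have hmem : scale c⁻¹ g ∈ congr q (N * L) := by
    obtain ⟨B, hB, eg⟩ := hg
    refine ⟨!![(L : ℚ) * B 0 0, (L : ℚ) * L * B 0 1; B 1 0, (L : ℚ) * B 1 1], fun a b => ?_, ?_⟩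
    · have hLA' : InA q (L : ℚ) := InA.natCast L
      fin_cases a <;> fin_cases b
      exacts [hLA'.mul (hB 0 0), (hLA'.mul hLA').mul (hB 0 1), hB 1 0, hLA'.mul (hB 1 1)]
    · ext a b
      fin_cases a <;> fin_cases b <;> simp [eg, hcc] <;> field_simp
  have h := conj_uu_int hq hqNL hψ' k hmem
  have hu : scale c (uu (k : ℚ)) = uu ((k : ℚ) / L) := by
    apply Subtype.ext
    ext a b
    fin_cases a <;> fin_cases b <;> simp [hcc] <;> ring
  simp only [map_mul, map_inv, hu, scale_scale] at h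
  exact h

/-- The Weyl element. -/
def ss : SL2Q := ⟨!![0, -1; 1, 0], by simp [Matrix.det_fin_two_of]⟩

theorem ss_uu (y : ℚ) : ss * uu (-y) * ss⁻¹ = ll y := by
  apply Subtype.ext
  rw [Matrix.SpecialLinearGroup.coe_mul, Matrix.SpecialLinearGroup.coe_mul,
    Matrix.SpecialLinearGroup.coe_inv]
  ext i j
  fin_cases i <;> fin_cases j <;>
    simp [ss, Matrix.SpecialLinearGroup.coe_inv, Matrix.adjugate_fin_two, Matrix.mul_apply,
      Matrix.vecMul, dotProduct, Fin.sum_univ_two]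

theorem inv_ll (hq : q.Prime) (hl : l.Prime) (hlq : l ≠ q) (hqN : ¬ q ∣ N)
    (hψ : IsUHom (congr q N) ψ) (k : ℤ) (i : ℕ) :
    Inv q N l ψ (ll ((k : ℚ) / (l : ℚ) ^ i)) := by
  have hss : MatA q (ss : Matrix (Fin 2) (Fin 2) ℚ) := by
    intro a b; fin_cases a <;> fin_cases b <;> simp [ss, InA.zero, InA.one, InA.one.neg]
  have hss' : MatA q ((ss⁻¹ : SL2Q) : Matrix (Fin 2) (Fin 2) ℚ) := by
    rw [Matrix.SpecialLinearGroup.coe_inv]; exact hss.adjugate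
  have hconj : ∀ {M : ℕ}, ∀ x ∈ congr q M, ss * x * ss⁻¹ ∈ congr q M := fun {M} x hx =>
    conj_mem_congr (L := 1) (by simpa using hss) (by simpa using hss') (by simpa using hx)
  have hconj' : ∀ {M : ℕ}, ∀ x ∈ congr q M, ss⁻¹ * x * ss ∈ congr q M := fun {M} x hx => by
    simpa using conj_mem_congr (h := ss⁻¹) (L := 1) (by simpa using hss')
      (by simpa using hss) (by simpa using hx)
  obtain ⟨⟨j, a, b⟩, n, f⟩ := inv_uu hq hl hlq hqN (hψ.comp_conj ss hconj) (-k) i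
  simp only [nsmul_eq_cast_smul] at a b
  have e : ll ((k : ℚ) / (l : ℚ) ^ i) = ss * uu (((-k : ℤ) : ℚ) / (l : ℚ) ^ i) * ss⁻¹ := by
    rw [← ss_uu]; push_cast; ring_nf
  rw [e]
  refine ⟨⟨j, ?_, ?_⟩, n, fun g hg => ?_⟩
  · rw [nsmul_eq_cast_smul, Matrix.SpecialLinearGroup.coe_mul, Matrix.SpecialLinearGroup.coe_mul,
      ← smul_mul_assoc, ← mul_smul_comm]
    exact (hss.mul a).mul hss'
  · rw [nsmul_eq_cast_smul, _root_.mul_inv_rev, _root_.mul_inv_rev, inv_inv, ← mul_assoc,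
      Matrix.SpecialLinearGroup.coe_mul, Matrix.SpecialLinearGroup.coe_mul,
      ← smul_mul_assoc, ← mul_smul_comm]
    exact (hss.mul b).mul hss'
  · have h := f _ (hconj' g hg)
    set h0 := uu (((-k : ℤ) : ℚ) / (l : ℚ) ^ i)
    rw [show ss * h0 * ss⁻¹ * g * (ss * h0 * ss⁻¹)⁻¹ = ss * (h0 * (ss⁻¹ * g * ss) * h0⁻¹) * ss⁻¹
      by group]
    refine ⟨hconj _ h.1, h.2.trans ?_⟩
    show ψ (ss * (ss⁻¹ * g * ss) * ss⁻¹) = ψ g
    rw [show ss * (ss⁻¹ * g * ss) * ss⁻¹ = g by group]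

/-- `uu t * ll (-1/t) * uu t`. -/
def weyl (t : ℚ) : SL2Q := uu t * ll (-1 / t) * uu t

theorem inv_dd (hq : q.Prime) (hl : l.Prime) (hlq : l ≠ q) (hqN : ¬ q ∣ N)
    (hψ : IsUHom (congr q N) ψ) {u : ℚˣ} (hu : (u : ℚ) = l) : Inv q N l ψ (dd u) := by
  have h0 : (l : ℚ) ≠ 0 := by exact_mod_cast hl.ne_zero
  have e : dd u = weyl (l : ℚ) * (weyl 1)⁻¹ := by
    rw [eq_mul_inv_iff_mul_eq]
    apply Subtype.ext
    ext a b
    fin_cases a <;> fin_cases b <;>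
      simp [weyl, hu, h0, hl.ne_zero, Matrix.mul_apply, Fin.sum_univ_two] <;>
      field_simp <;> ring
  rw [e]
  have hw1 : Inv q N l ψ (weyl 1) := by
    have h1 := inv_uu hq hl hlq hqN hψ 1 0
    have h2 := inv_ll hq hl hlq hqN hψ (-1) 0
    have := (h1.mul h2).mul h1
    simpa [weyl] using this
  have hwl : Inv q N l ψ (weyl l) := by
    have h1 := inv_uu hq hl hlq hqN hψ (l : ℤ) 0
    have h2 := inv_ll hq hl hlq hqN hψ (-1) 1
    have := (h1.mul h2).mul h1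
    simpa [weyl] using this
  exact hwl.mul hw1.inv

/-- Upper triangular integral matrices of determinant `l²`, divided by `l`, fix `ψ` deep down. -/
theorem exists_deep_invariant (hq : q.Prime) (hl : l.Prime) (hlq : l ≠ q) (hqN : ¬ q ∣ N)
    (hψ : IsUHom (congr q N) ψ) (h : SL2Q) (k b : ℕ) (hk : k ≤ 2)
    (he : (h : Matrix (Fin 2) (Fin 2) ℚ) =
      (1 / (l : ℚ)) • !![(l : ℚ) ^ k, (b : ℚ); 0, (l : ℚ) ^ (2 - k)]) :
    ∃ i : ℕ, ∀ g ∈ congr q (N * l ^ i), h * g * h⁻¹ ∈ congr q N ∧ ψ (h * g * h⁻¹) = ψ g := by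
  have h0 : (l : ℚ) ≠ 0 := by exact_mod_cast hl.ne_zero
  set u : ℚˣ := Units.mk0 (l : ℚ) h0
  suffices H : Inv q N l ψ h from H.2
  have hd := inv_dd hq hl hlq hqN hψ (u := u) rfl
  interval_cases k
  · have e : h = (dd u)⁻¹ * uu (((b : ℤ) : ℚ) / (l : ℚ) ^ 0) := by
      apply Subtype.ext; rw [he]
      ext i j
      fin_cases i <;> fin_cases j <;>
        simp [dd_inv, u, Matrix.mul_apply, Matrix.vecMul, dotProduct, Fin.sum_univ_two] <;>
        field_simp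
    rw [e]
    exact hd.inv.mul (inv_uu hq hl hlq hqN hψ b 0)
  · have e : h = uu (((b : ℤ) : ℚ) / (l : ℚ) ^ 1) := by
      apply Subtype.ext; rw [he]
      ext i j
      fin_cases i <;> fin_cases j <;> simp <;> field_simp
    rw [e]
    exact inv_uu hq hl hlq hqN hψ b 1
  · have e : h = dd u * uu (((b : ℤ) : ℚ) / (l : ℚ) ^ 2) := by
      apply Subtype.ext; rw [he]
      ext i j
      fin_cases i <;> fin_cases j <;>
        simp [u, Matrix.mul_apply, Matrix.vecMul, dotProduct, Fin.sum_univ_two] <;> field_simp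
    rw [e]
    exact hd.mul (inv_uu hq hl hlq hqN hψ b 2)

end Fermat.Agent.Raise
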