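import Fermat.Agent.Density.Main
import Fermat.Agent.CondLevel.Curve
import Fermat.Agent.CondLevel.OddIrred
import Fermat.Agent.Datum.Comparison
import Fermat.Agent.Switch.Congruence

/-!
# Auxiliary primes for level raising

For an irreducible odd mod `p` representation of an elliptic curve there are primes `ℓ` with
`a_ℓ² ≢ (1 + ℓ)²`, and primes `ℓ ≡ 1 (mod M)` with `a_ℓ ≢ 1 + ℓ`.
-/

set_option autoImplicit false

noncomputable section

namespace Fermat.Agent.Raise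

open WeierstrassCurve
open scoped WeierstrassCurve.Affine

section Group

variable {G : Type*} [Group G] {k : Type*} [Field k] (ρ : G →* Matrix (Fin 2) (Fin 2) k) {c : G}

theorem det_mat_sub_one (A : Matrix (Fin 2) (Fin 2) k) : (A - 1).det = 1 - A.trace + A.det := by
  simp [Matrix.det_fin_two, Matrix.trace_fin_two]; ring

theorem det_mat_add_one (A : Matrix (Fin 2) (Fin 2) k) : (A + 1).det = 1 + A.trace + A.det := by
  simp [Matrix.det_fin_two, Matrix.trace_fin_two]; ring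

theorem det_mat_sq_sub_one (A : Matrix (Fin 2) (Fin 2) k) :
    (A ^ 2 - 1).det = (1 + A.det) ^ 2 - A.trace ^ 2 := by
  rw [show A ^ 2 - 1 = (A - 1) * (A + 1) by rw [sub_mul, mul_add, mul_one, one_mul, sq]; abel,
    Matrix.det_mul, det_mat_sub_one, det_mat_add_one]
  ring

theorem det_pow_sub_one_eq_zero {A : Matrix (Fin 2) (Fin 2) k} (h : (A - 1).det = 0) (n : ℕ) :
    (A ^ n - 1).det = 0 := by
  rw [← mul_geom_sum, Matrix.det_mul, h, zero_mul]

theorem det_mat_inv_mul (g : G) : (ρ g).det * (ρ g⁻¹).det = 1 := by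
  rw [← Matrix.det_mul, ← map_mul, mul_inv_cancel, map_one, Matrix.det_one]

theorem rho_inv (g : G) : (ρ g).det • ρ g⁻¹ = (ρ g).adjugate := by
  calc (ρ g).det • ρ g⁻¹ = ((ρ g).adjugate * ρ g) * ρ g⁻¹ := by
        rw [Matrix.adjugate_mul, Matrix.smul_mul, one_mul]
    _ = _ := by rw [mul_assoc, ← map_mul, mul_inv_cancel, map_one, mul_one]

variable (h2 : (2 : k) ≠ 0) (hc : ρ c = !![1, 0; 0, -1])
  (hU : ∃ g, ρ g 0 1 ≠ 0) (hL : ∃ g, ρ g 1 0 ≠ 0)

include h2 hc hU hL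

/-- A non-trivial unipotent cannot pair trivially with all its conjugates. -/
theorem unipotent_eq_one (n : G) (ht : (ρ n).trace = 2) (hd : (ρ n).det = 1)
    (hconj : ∀ g, (ρ (n * (g * n * g⁻¹))).trace = 2) : ρ n = 1 := by
  set N := ρ n with hN
  have key : ∀ g, (N * (ρ g * N * (ρ g).adjugate)).trace = 2 * (ρ g).det := by
    intro g
    rw [← rho_inv, Matrix.mul_smul, Matrix.mul_smul, Matrix.trace_smul, smul_eq_mul, hN,
      ← map_mul, ← map_mul, ← map_mul, hconj, mul_comm]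
  rw [Matrix.trace_fin_two] at ht
  rw [Matrix.det_fin_two] at hd
  have hc' := key c
  simp [hc, Matrix.det_fin_two, Matrix.trace_fin_two, Matrix.mul_apply, Matrix.adjugate_fin_two,
    Fin.sum_univ_two, Matrix.vecMul, dotProduct] at hc'
  have ha : N 0 0 = 1 := by
    have h4 : (2 * (2 : k)) * (N 0 0 - 1) ^ 2 = 0 := by
      linear_combination -hc' - 2 * hd + (-(N 1 1) + 3 * N 0 0 - 2) * ht
    simpa [h2, sub_eq_zero] using h4
  have hb : N 1 1 = 1 := by linear_combination ht - ha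
  have hbc : N 0 1 = 0 ∨ N 1 0 = 0 := by
    rw [← mul_eq_zero]
    linear_combination -hd + N 1 1 * ha + hb
  have hzero : N 0 1 = 0 ∧ N 1 0 = 0 := by
    rcases hbc with h | h
    · refine ⟨h, ?_⟩
      obtain ⟨g, hg⟩ := hU
      have := key g
      simp [Matrix.trace_fin_two, Matrix.det_fin_two, Matrix.mul_apply, Matrix.adjugate_fin_two,
        Fin.sum_univ_two, ha, hb, h] at this
      have e : (ρ g 0 1 * N 1 0) ^ 2 = 0 := by linear_combination -this
      exact (mul_eq_zero.mp (pow_eq_zero_iff two_ne_zero |>.mp e)).resolve_left hg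
    · refine ⟨?_, h⟩
      obtain ⟨g, hg⟩ := hL
      have := key g
      simp [Matrix.trace_fin_two, Matrix.det_fin_two, Matrix.mul_apply, Matrix.adjugate_fin_two,
        Fin.sum_univ_two, ha, hb, h] at this
      have e : (ρ g 1 0 * N 0 1) ^ 2 = 0 := by linear_combination -this
      exact (mul_eq_zero.mp (pow_eq_zero_iff two_ne_zero |>.mp e)).resolve_left hg
  ext i j
  fin_cases i <;> fin_cases j <;> simp [ha, hb, hzero.1, hzero.2]

/-- Some element of a subgroup containing all commutators has no eigenvalue `1`. -/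
theorem exists_trace_ne_one_add_det (H : Subgroup G)
    (hH : ∀ g h : G, g * h * g⁻¹ * h⁻¹ ∈ H) : ∃ h ∈ H, (ρ h).trace ≠ 1 + (ρ h).det := by
  by_contra hcon
  push Not at hcon
  have hdet : ∀ g h : G, (ρ (g * h * g⁻¹ * h⁻¹)).det = 1 := by
    intro g h
    simp only [map_mul, Matrix.det_mul]
    linear_combination (ρ h).det * (ρ h⁻¹).det * det_mat_inv_mul ρ g + det_mat_inv_mul ρ h
  have hone : ∀ g h : G, ρ (g * h * g⁻¹ * h⁻¹) = 1 := by
    intro g h
    set n := g * h * g⁻¹ * h⁻¹ with hn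
    have ht : ∀ m ∈ H, (ρ m).det = 1 → (ρ m).trace = 2 := fun m hm hm1 => by
      rw [hcon m hm, hm1]; norm_num
    refine unipotent_eq_one ρ h2 hc hU hL n (ht n (hH g h) (hdet g h)) (hdet g h) fun a => ?_
    have hmem : a * n * a⁻¹ ∈ H := by
      have := H.mul_mem (hH a n) (hH g h)
      rwa [← hn, inv_mul_cancel_right] at this
    refine ht _ (H.mul_mem (hH g h) hmem) ?_
    simp only [map_mul, Matrix.det_mul]
    rw [show (ρ n).det = 1 from hdet g h, mul_one, det_mat_inv_mul, one_mul]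
  obtain ⟨g, hg⟩ := hU
  have h1 : ρ (g * c) = ρ (c * g) := by
    rw [show g * c = g * c * g⁻¹ * c⁻¹ * (c * g) by group, map_mul, hone, one_mul]
  have h01 := congrFun (congrFun (congrArg (fun m : Matrix (Fin 2) (Fin 2) k => (m : Fin 2 → Fin 2 → k))
    h1) 0) 1
  simp [map_mul, hc, Matrix.mul_apply, Fin.sum_univ_two] at h01
  exact hg ((mul_eq_zero.mp (show (2 : k) * ρ g 0 1 = 0 by linear_combination -h01)).resolve_left h2)

/-- Some element has neither `1` nor `-1` as an eigenvalue. -/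
theorem exists_trace_sq_ne : ∃ g, (ρ g).trace ^ 2 ≠ (1 + (ρ g).det) ^ 2 := by
  by_contra hcon
  push Not at hcon
  have h22 : ∀ g, (ρ g).det = 1 → (ρ g).trace = 2 ∨ (ρ g).trace = -2 := by
    intro g hg
    have h := hcon g
    rw [hg, show ((1 : k) + 1) = 2 by norm_num] at h
    exact sq_eq_sq_iff_eq_or_eq_neg.mp h
  have huni : ∀ n, (ρ n).trace = 2 → (ρ n).det = 1 → ρ n = 1 := by
    intro n ht hd
    refine unipotent_eq_one ρ h2 hc hU hL n ht hd fun g => ?_
    set m := g * n * g⁻¹ with hm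
    have hdm : (ρ m).det = 1 := by
      simp only [hm, map_mul, Matrix.det_mul, hd, mul_one, det_mat_inv_mul]
    have htm : (ρ m).trace = 2 := by
      rw [hm, map_mul, Matrix.trace_mul_comm, ← map_mul, inv_mul_cancel_left, ht]
    have hN2 : ρ n * ρ n = (2 : k) • ρ n - 1 := by
      rw [Matrix.trace_fin_two] at ht
      rw [Matrix.det_fin_two] at hd
      ext i j
      fin_cases i <;> fin_cases j <;> simp [Matrix.mul_apply, Fin.sum_univ_two]
      · linear_combination (ρ n 0 0) * ht - hd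
      · linear_combination (ρ n 0 1) * ht
      · linear_combination (ρ n 1 0) * ht
      · linear_combination (ρ n 1 1) * ht - hd
    have ht2 : (ρ (n * (n * m))).trace = 2 * (ρ (n * m)).trace - 2 := by
      rw [map_mul, map_mul, ← mul_assoc, hN2, sub_mul, Matrix.trace_sub, one_mul, htm,
        Matrix.smul_mul, Matrix.trace_smul, smul_eq_mul]
    have hd1 : (ρ (n * m)).det = 1 := by rw [map_mul, Matrix.det_mul, hd, hdm, one_mul]
    have hd2 : (ρ (n * (n * m))).det = 1 := by rw [map_mul, Matrix.det_mul, hd, hd1, one_mul]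
    rcases h22 _ hd1 with h | h
    · exact h
    · exfalso
      have h8 : (2 : k) ^ 3 ≠ 0 := pow_ne_zero 3 h2
      have h4 : (2 : k) ^ 2 ≠ 0 := pow_ne_zero 2 h2
      rcases h22 _ hd2 with h' | h' <;> rw [ht2, h] at h'
      · exact h8 (by linear_combination -h')
      · exact h4 (by linear_combination -h')
  have hpm : ∀ g, (ρ g).det = 1 → ρ g = 1 ∨ ρ g = -1 := by
    intro g hg
    rcases h22 g hg with ht | ht
    · exact .inl (huni g ht hg)
    · right
      rw [Matrix.trace_fin_two] at ht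
      rw [Matrix.det_fin_two] at hg
      have hsq : ρ (g * g) = 1 := by
        refine huni (g * g) ?_ ?_ <;>
          simp [Matrix.trace_fin_two, Matrix.det_fin_two, map_mul, Matrix.mul_apply, Fin.sum_univ_two]
        · linear_combination (ρ g 0 0 + ρ g 1 1 - 2) * ht - 2 * hg
        · linear_combination (ρ g 0 0 * ρ g 1 1 - ρ g 0 1 * ρ g 1 0 + 1) * hg
      have e : ∀ i j, ρ (g * g) i j = (1 : Matrix (Fin 2) (Fin 2) k) i j := fun i j => by rw [hsq]
      have e00 := e 0 0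
      have e01 := e 0 1
      have e10 := e 1 0
      have e11 := e 1 1
      simp [map_mul, Matrix.mul_apply, Fin.sum_univ_two] at e00 e01 e10 e11
      ext i j
      fin_cases i <;> fin_cases j <;> simp <;> refine mul_left_cancel₀ h2 ?_
      · linear_combination -e00 + ρ g 0 0 * ht - hg
      · linear_combination -e01 + ρ g 0 1 * ht
      · linear_combination -e10 + ρ g 1 0 * ht
      · linear_combination -e11 + ρ g 1 1 * ht - hg
  obtain ⟨g, hg⟩ := hU
  have hdc : (ρ c).det = -1 := by simp [hc, Matrix.det_fin_two]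
  have hk : ρ (g * c) = ρ (c * g) ∨ ρ (g * c) = -ρ (c * g) := by
    have e : g * c = g * c * g⁻¹ * c⁻¹ * (c * g) := by group
    rcases hpm (g * c * g⁻¹ * c⁻¹) (by
      simp only [map_mul, Matrix.det_mul]
      linear_combination (ρ c).det * (ρ c⁻¹).det * det_mat_inv_mul ρ g + det_mat_inv_mul ρ c)
      with h | h
    · exact .inl (by rw [e, map_mul, h, one_mul])
    · exact .inr (by rw [e, map_mul, h, neg_one_mul])
  rcases hk with h | h
  · have h01 := congrFun (congrFun h 0) 1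
    simp [map_mul, hc, Matrix.mul_apply, Fin.sum_univ_two] at h01
    exact hg ((mul_eq_zero.mp (show (2 : k) * ρ g 0 1 = 0 by linear_combination -h01)).resolve_left h2)
  · have h00 := congrFun (congrFun h 0) 0
    have h11 := congrFun (congrFun h 1) 1
    simp [map_mul, hc, Matrix.mul_apply, Matrix.vecMul, dotProduct, Fin.sum_univ_two] at h00 h11
    have hg0 : ρ g 0 0 = 0 :=
      (mul_eq_zero.mp (show (2 : k) * ρ g 0 0 = 0 by linear_combination h00)).resolve_left h2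
    have hg1 : ρ g 1 1 = 0 :=
      (mul_eq_zero.mp (show (2 : k) * ρ g 1 1 = 0 by linear_combination -h11)).resolve_left h2
    have hd : (ρ g).det = -1 := by
      have := hcon g
      rw [Matrix.trace_fin_two, hg0, hg1, add_zero, zero_pow two_ne_zero, eq_comm,
        pow_eq_zero_iff two_ne_zero] at this
      linear_combination this
    rcases hpm (g * c) (by rw [map_mul, Matrix.det_mul, hd, hdc, neg_one_mul, neg_neg]) with e | e <;>
    · have := congrFun (congrFun e 0) 1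
      simp [map_mul, hc, Matrix.mul_apply, Fin.sum_univ_two] at this
      exact hg this

end Group

local notation "Γℚ" => AlgebraicClosure ℚ ≃ₐ[ℚ] AlgebraicClosure ℚ

/-- Irreducibility passes to an integral model. -/
theorem modRepIsIrreducible_of_isIntegralModelOf {E : WeierstrassCurve ℚ} [E.IsElliptic]
    {W : WeierstrassCurve ℤ} (hW : W.IsIntegralModelOf E) {p : ℕ} [NeZero p]
    (hirr : Affine.Point.GaloisRepIsIrreducible (K := AlgebraicClosure ℚ) ℚ E p) :
    W.Δ ≠ 0 ∧ W.ModRepIsIrreducible p := by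
  obtain ⟨C, hC⟩ := hW
  set E' : WeierstrassCurve ℚ := W.map (Int.castRingHom ℚ) with hE'
  have hΔE : E.Δ ≠ 0 := E.isUnit_Δ.ne_zero
  have hΔ' : E'.Δ ≠ 0 := by
    rw [← hC, variableChange_Δ]
    exact mul_ne_zero (pow_ne_zero _ C.u⁻¹.ne_zero) hΔE
  let S : WeierstrassCurve ℚ := ⟨0, 0, 0, -27 * E.c₄, -54 * E.c₆⟩
  have hu := C.u.ne_zero
  have h1 : Switch.IsModel E.toAffine S.toAffine 1 := ⟨rfl, rfl, rfl, by simp [S], by simp [S]⟩
  have h2 : Switch.IsModel E'.toAffine S.toAffine (C.u : ℚ) := by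
    refine ⟨rfl, rfl, rfl, ?_, ?_⟩
    · show -27 * E.c₄ = -27 * (C.u : ℚ) ^ 4 * E'.c₄
      rw [← hC, variableChange_c₄, Units.val_inv_eq_inv_val]
      field_simp
    · show -54 * E.c₆ = -54 * (C.u : ℚ) ^ 6 * E'.c₆
      rw [← hC, variableChange_c₆, Units.val_inv_eq_inv_val]
      field_simp
  have hb : ∀ {F : WeierstrassCurve ℚ}, F.Δ ≠ 0 → (F⁄(AlgebraicClosure ℚ)).Δ ≠ 0 := fun {F} h => by
    rw [show (F⁄(AlgebraicClosure ℚ)).Δ = algebraMap ℚ _ F.Δ from WeierstrassCurve.map_Δ ..]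
    exact (_root_.map_ne_zero _).2 h
  have hu1 : algebraMap ℚ (AlgebraicClosure ℚ) 1 ≠ 0 := by simp
  have hu2 : algebraMap ℚ (AlgebraicClosure ℚ) (C.u : ℚ) ≠ 0 := (_root_.map_ne_zero _).2 hu
  classical
  obtain ⟨f, hf⟩ := Switch.exists_torsion_equiv (m := p) (h1.baseChange.pointEquiv hu1 (hb hΔE))
    (fun σ P => h1.pointEquiv_smul hu1 (hb hΔE) σ P)
  obtain ⟨f', hf'⟩ := Switch.exists_torsion_equiv (m := p) (h2.baseChange.pointEquiv hu2 (hb hΔ'))
    (fun σ P => h2.pointEquiv_smul hu2 (hb hΔ') σ P)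
  refine ⟨fun h => hΔ' (by rw [hE', map_Δ, h, map_zero]), ?_⟩
  refine Switch.galoisRepIsIrreducible_of_equiv (f.trans f'.symm) (fun σ P => ?_) hirr
  apply f'.injective
  simp only [AddEquiv.trans_apply, AddEquiv.apply_symm_apply, hf, hf']

variable {W : WeierstrassCurve ℤ} {p : ℕ} [Fact p.Prime]

/-- The mod `p` representation in a basis adapted to complex conjugation. -/
theorem exists_odd_matrix_rep (hΔ : W.Δ ≠ 0) (hp2 : p ≠ 2) (hirr : W.ModRepIsIrreducible p) :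
    ∃ (ρ : Γℚ →* Matrix (Fin 2) (Fin 2) (ZMod p)) (c : Γℚ), ρ c = !![1, 0; 0, -1] ∧
      (∃ g, ρ g 0 1 ≠ 0) ∧ (∃ g, ρ g 1 0 ≠ 0) ∧
      (∃ L : IntermediateField ℚ (AlgebraicClosure ℚ), FiniteDimensional ℚ L ∧
        ∀ σ : Γℚ, (∀ x ∈ L, σ x = x) → ρ σ = 1) ∧
      ∀ ℓ : ℕ, ℓ.Prime → ℓ ≠ p → W.IsGoodPrimeFor ℓ →
        ∀ A : ValuationSubring (AlgebraicClosure ℚ), A.LiesOverPrime ℓ →
          ∀ τ : Γℚ, A.IsFrobeniusAt τ ℓ →
            (ρ τ).trace = (W.apOfModel ℓ : ZMod p) ∧ (ρ τ).det = (ℓ : ZMod p) := by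
  have hp : p.Prime := Fact.out
  have h2 : (2 : ZMod p) ≠ 0 := by
    intro h
    exact hp2 ((Nat.prime_dvd_prime_iff_eq hp Nat.prime_two).mp
      ((ZMod.natCast_eq_zero_iff 2 p).mp (by exact_mod_cast h)))
  obtain ⟨b₀⟩ := CondLevel.exists_torsBasis (W := W) hΔ hp.ne_zero
  have hV : Module.finrank (ZMod p) (CondLevel.Tors W p) = 2 := by
    rw [Module.finrank_eq_card_basis b₀, Fintype.card_fin]
  obtain ⟨c, hcc, hc1⟩ := CondLevel.exists_involution
  obtain ⟨b, hb0, hb1⟩ := CondLevel.exists_eigenbasis_of_involution h2 hV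
    (CondLevel.torsRep W p c) (by rw [← map_mul, hcc, map_one])
    (CondLevel.det_torsRep_involution hΔ hp2 c hcc hc1)
  obtain ⟨σ, τ, hne⟩ := CondLevel.exists_oddOffDiag_ne_zero h2 hV (CondLevel.torsRep W p) hcc
    (CondLevel.det_torsRep_involution hΔ hp2 c hcc hc1) (fun U hU => hirr.2 U hU)
  rw [CondLevel.oddOffDiag_eq_four_mul _ b hb0 hb1] at hne
  refine ⟨CondLevel.matrixRep b (CondLevel.torsRep W p), c, CondLevel.toMatrix_eigenbasis hb0 hb1,
    ⟨σ, fun h => hne (by rw [h, mul_zero, zero_mul])⟩, ⟨τ, fun h => hne (by rw [h, mul_zero])⟩,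
    ?_, ?_⟩
  · have := CondLevel.isElliptic_baseChange hΔ
    obtain ⟨L, hL, hfix⟩ :=
      EC.galoisFactorsThroughFiniteLevel (W.map (Int.castRingHom ℚ)) hp.ne_zero
    refine ⟨L, hL, fun g hg => ?_⟩
    rw [CondLevel.matrixRep_apply, show CondLevel.torsRep W p g = 1 from hfix g hg,
      LinearMap.toMatrix_one]
  · intro ℓ hℓ hℓp hg A hA φ hφ
    rw [CondLevel.matrixRep_apply]
    refine ⟨?_, ?_⟩
    · rw [← LinearMap.trace_eq_matrix_trace (ZMod p) b]
      exact ECRed.galoisTrace_frobenius_prime hℓ hA hg hφ hp (Ne.symm hℓp)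
    · rw [LinearMap.det_toMatrix]
      exact (ECRed.trace_det_frobenius hℓ hA hg hφ hp (Ne.symm hℓp) (pow_one p).symm).2

/-- Primes at which the mod `p` representation is neither Eisenstein nor twisted Eisenstein. -/
theorem exists_prime_sq_ne (hΔ : W.Δ ≠ 0) (hp2 : p ≠ 2) (hirr : W.ModRepIsIrreducible p)
    (S : Finset ℕ) :
    ∃ ℓ : ℕ, ℓ.Prime ∧ ℓ ∉ S ∧ ℓ ≠ p ∧ W.IsGoodPrimeFor ℓ ∧
      (W.apOfModel ℓ : ZMod p) ^ 2 ≠ (1 + (ℓ : ZMod p)) ^ 2 := by
  have h2 : (2 : ZMod p) ≠ 0 := by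
    intro h
    exact hp2 ((Nat.prime_dvd_prime_iff_eq Fact.out Nat.prime_two).mp
      ((ZMod.natCast_eq_zero_iff 2 p).mp (by exact_mod_cast h)))
  obtain ⟨ρ, c, hc, hU, hL, ⟨L, hfin, hfix⟩, hfrob⟩ := exists_odd_matrix_rep hΔ hp2 hirr
  obtain ⟨σ, hσ⟩ := exists_trace_sq_ne ρ h2 hc hU hL
  obtain ⟨ℓ, hℓ, hS, A, hA, τ, hτ, ⟨k, hk⟩, -⟩ :=
    Density.exists_frobenius_pow σ L (insert p (S ∪ W.Δ.natAbs.primeFactors))
  simp only [Finset.mem_insert, Finset.mem_union, not_or] at hS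
  have hg : W.IsGoodPrimeFor ℓ := fun hdvd => hS.2.2 <| Nat.mem_primeFactors.mpr
    ⟨hℓ, Int.natCast_dvd.mp hdvd, Int.natAbs_ne_zero.mpr hΔ⟩
  obtain ⟨ht, hd⟩ := hfrob ℓ hℓ hS.1 hg A hA τ hτ
  refine ⟨ℓ, hℓ, hS.2.1, hS.1, hg, fun hcon => hσ ?_⟩
  have hτ0 : (ρ τ ^ 2 - 1).det = 0 := by rw [det_mat_sq_sub_one, ht, hd, hcon, sub_self]
  have h := det_pow_sub_one_eq_zero hτ0 k
  rw [← pow_mul, mul_comm, pow_mul, ← map_pow,
    ← Datum.apply_eq_of_agree ρ L hfix hk, det_mat_sq_sub_one, sub_eq_zero] at h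
  exact h.symm

/-- Primes `ℓ ≡ 1 (mod M)` at which the mod `p` representation is not Eisenstein. -/
theorem exists_prime_one_mod_ne (hΔ : W.Δ ≠ 0) (hp2 : p ≠ 2) (hirr : W.ModRepIsIrreducible p)
    (M : ℕ) [NeZero M] (S : Finset ℕ) :
    ∃ ℓ : ℕ, ℓ.Prime ∧ ℓ ∉ S ∧ ℓ ≠ p ∧ ¬ ℓ ∣ M ∧ (ℓ : ZMod M) = 1 ∧ W.IsGoodPrimeFor ℓ ∧
      (W.apOfModel ℓ : ZMod p) ≠ 1 + (ℓ : ZMod p) := by
  have h2 : (2 : ZMod p) ≠ 0 := by
    intro h
    exact hp2 ((Nat.prime_dvd_prime_iff_eq Fact.out Nat.prime_two).mp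
      ((ZMod.natCast_eq_zero_iff 2 p).mp (by exact_mod_cast h)))
  obtain ⟨ρ, c, hc, hU, hL, ⟨L, hfin, hfix⟩, hfrob⟩ := exists_odd_matrix_rep hΔ hp2 hirr
  obtain ⟨L', hfin', hfix'⟩ := Datum.exists_level_chiMod M
  let H : Subgroup Γℚ :=
    { carrier := {g | Datum.chiMod M g = 1}
      one_mem' := map_one _
      mul_mem' := fun {a b} (ha : _ = 1) (hb : _ = 1) => by
        show Datum.chiMod M (a * b) = 1
        rw [map_mul, ha, hb, one_mul]
      inv_mem' := fun {a} (ha : _ = 1) => by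
        show Datum.chiMod M a⁻¹ = 1
        have h := map_mul (Datum.chiMod M) a a⁻¹
        rwa [mul_inv_cancel, map_one, ha, one_mul, eq_comm] at h }
  have hH : ∀ g h : Γℚ, g * h * g⁻¹ * h⁻¹ ∈ H := fun g h => by
    show Datum.chiMod M (g * h * g⁻¹ * h⁻¹) = 1
    have e : ∀ g : Γℚ, Datum.chiMod M g * Datum.chiMod M g⁻¹ = 1 := fun g => by
      rw [← map_mul, mul_inv_cancel, map_one]
    simp only [map_mul]
    linear_combination Datum.chiMod M h * Datum.chiMod M h⁻¹ * e g + e h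
  obtain ⟨σ, hσH, hσ⟩ := exists_trace_ne_one_add_det ρ h2 hc hU hL H hH
  obtain ⟨ℓ, hℓ, hS, A, hA, τ, hτ, ⟨k, hk⟩, k', hk'⟩ :=
    Density.exists_frobenius_pow σ (L ⊔ L')
      (insert p (S ∪ W.Δ.natAbs.primeFactors ∪ M.primeFactors))
  simp only [Finset.mem_insert, Finset.mem_union, not_or] at hS
  have hg : W.IsGoodPrimeFor ℓ := fun hdvd => hS.2.1.2 <| Nat.mem_primeFactors.mpr
    ⟨hℓ, Int.natCast_dvd.mp hdvd, Int.natAbs_ne_zero.mpr hΔ⟩
  have hℓM : ¬ ℓ ∣ M := fun h => hS.2.2 (Nat.mem_primeFactors.mpr ⟨hℓ, h, NeZero.ne M⟩)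
  obtain ⟨ht, hd⟩ := hfrob ℓ hℓ hS.1 hg A hA τ hτ
  refine ⟨ℓ, hℓ, hS.2.1.1, hS.1, hℓM, ?_, hg, fun hcon => hσ ?_⟩
  · rw [← Datum.chiMod_frobenius M hA hτ (hℓ.coprime_iff_not_dvd.mpr hℓM),
      Datum.apply_eq_of_agree _ L' hfix' (fun x hx => hk' x (SetLike.le_def.mp le_sup_right hx)),
      map_pow, show Datum.chiMod M σ = 1 from hσH, one_pow]
  have hτ0 : (ρ τ - 1).det = 0 := by rw [det_mat_sub_one, ht, hd, hcon]; ring
  have h := det_pow_sub_one_eq_zero hτ0 k
  rw [← map_pow,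
    ← Datum.apply_eq_of_agree ρ L hfix (fun x hx => hk x (SetLike.le_def.mp le_sup_left hx)),
    det_mat_sub_one] at h
  linear_combination -h

end Fermat.Agent.Raise
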