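import Fermat.Agent.Raise.Cong

/-!
# Homomorphisms of congruence subgroups of `SL₂(ℤ[1/q])` killing unipotents

Such a homomorphism is invariant under conjugation by `SL₂(ℤ)` and, on deeper levels, by
upper triangular elements of `SL₂(ℤ[1/l])`. The proof uses Dirichlet's theorem to find torus
elements with small local exponents (Serre's argument).
-/

set_option autoImplicit false

noncomputable section

namespace Fermat.Agent.Raise

open Matrix

variable {q : ℕ} {A : Type*} [AddCommGroup A]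

theorem matA_uu {L : ℕ} {y : ℚ} (hy : InA q ((L : ℚ) * y)) :
    MatA q ((L : ℚ) • (uu y : Matrix (Fin 2) (Fin 2) ℚ)) ∧
      MatA q ((L : ℚ) • (((uu y)⁻¹ : SL2Q) : Matrix (Fin 2) (Fin 2) ℚ)) := by
  have hL : InA q (L : ℚ) := InA.natCast L
  have hy' : InA q (-((L : ℚ) * y)) := hy.neg
  rw [uu_inv]
  constructor <;> intro i j <;> fin_cases i <;> fin_cases j <;> simp [hL, hy, hy', InA.zero]

theorem uu_conj_mem_congr {M L : ℕ} {y : ℚ} (hy : InA q ((L : ℚ) * y)) {g : SL2Q}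
    (hg : g ∈ congr q (M * L ^ 2)) : uu y * g * (uu y)⁻¹ ∈ congr q M :=
  conj_mem_congr (matA_uu hy).1 (matA_uu hy).2 hg

theorem uu_int_conj_mem_congr {M : ℕ} (k : ℤ) {g : SL2Q} (hg : g ∈ congr q M) :
    uu (k : ℚ) * g * (uu (k : ℚ))⁻¹ ∈ congr q M :=
  uu_conj_mem_congr (L := 1) (by simpa using InA.intCast k) (by simpa using hg)

/-- One prime `r ∣ N` gives a period prime to `r`. -/
theorem exists_period {N r W : ℕ} {c : ℤ} (hq : q.Prime) (hqN : ¬ q ∣ N) (hN : 1 < N)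
    (hr : r.Prime) (hrN : r ∣ N) (hc : ¬ (r : ℤ) ∣ c)
    (hW : (q : ℤ) ^ (4 * (r - 1)) - 1 = (r : ℤ) ^ W * c) {ψ : SL2Q → A}
    (hψ : IsUHom (congr q N) ψ) {f : SL2Q} (hf : f ∈ congr q (N * (r ^ W) ^ 2 * (r ^ W) ^ 2)) :
    ∃ δ : ℤ, ¬ (r : ℤ) ∣ δ ∧ ∀ k : ℤ, ψ (uu ((k + δ : ℤ) : ℚ) * f * (uu ((k + δ : ℤ) : ℚ))⁻¹) =
      ψ (uu (k : ℚ) * f * (uu (k : ℚ))⁻¹) := by
  set L := r ^ W with hL
  have hL0 : (L : ℚ) ≠ 0 := by simp [hL, hr.ne_zero]
  have hrq : ¬ r ∣ q := fun h =>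
    hqN ((Nat.prime_dvd_prime_iff_eq hr hq).mp h ▸ hrN)
  set N₁ := N * L ^ 2 with hN₁
  have hqN₁ : ¬ q ∣ N₁ := fun h => by
    rcases hq.dvd_mul.mp h with h | h
    · exact hqN h
    · exact hrq ((Nat.prime_dvd_prime_iff_eq hq hr).mp
        (hq.dvd_of_dvd_pow (hq.dvd_of_dvd_pow h)) ▸ dvd_rfl)
  have hN₁1 : 1 < N₁ := lt_of_lt_of_le hN
    (Nat.le_mul_of_pos_right _ (by simp [hL, hr.pos]))
  set t : ℚ := 1 / (L : ℚ) with ht
  have htA : InA q ((L : ℚ) * t) := by rw [ht, mul_one_div_cancel hL0]; exact InA.one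
  have htA' : InA q ((L : ℚ) * -t) := by rw [mul_neg]; exact htA.neg
  have hψt : IsUHom (congr q N₁) (fun g => ψ (uu t * g * (uu t)⁻¹)) :=
    hψ.comp_conj (uu t) fun g hg => uu_conj_mem_congr htA hg
  set fk : ℤ → SL2Q := fun k => uu (k : ℚ) * f * (uu (k : ℚ))⁻¹ with hfk
  set gk : ℤ → SL2Q := fun k => uu (-t) * fk k * (uu (-t))⁻¹ with hgk
  have hfkmem : ∀ k, fk k ∈ congr q (N₁ * L ^ 2) := fun k => uu_int_conj_mem_congr k hf
  have hfkN : ∀ k, fk k ∈ congr q N := fun k =>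
    congr_anti (by rw [hN₁, mul_assoc]; exact dvd_mul_right _ _) (hfkmem k)
  have hgkmem : ∀ k, gk k ∈ congr q N₁ := fun k => uu_conj_mem_congr htA' (hfkmem k)
  choose E₁ hE₁ hfix₁ using fun k : ℤ =>
    exists_fixing_exponent hq hqN hN hr hψ (hfkN k)
  choose E₂ hE₂ hfix₂ using fun k : ℤ =>
    exists_fixing_exponent hq hqN₁ hN₁1 hr hψt (hgkmem k)
  set E := ∏ k ∈ Finset.range N, E₁ k * E₂ k with hE
  have hrE : ¬ r ∣ E := by
    rw [hE]
    intro h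
    obtain ⟨k, -, hk⟩ := (hr.prime.dvd_finsetProd_iff _).mp h
    exact (hr.dvd_mul.mp hk).elim (hE₁ k) (hE₂ k)
  have hrx : (r : ℤ) ∣ (q : ℤ) ^ (4 * (r - 1)) - 1 :=
    coe_dvd_pow_sub_one hr hrq (Dvd.intro_left _ rfl)
  obtain ⟨δ, hδr, hδ⟩ := exists_pow_sub_one_eq hr hrx hrE hc hW
  refine ⟨δ, hδr, ?_⟩
  set P : ℤ → A := fun k => ψ (fk k) with hP
  have hmemN : ∀ i : ℤ, uu (((N : ℤ) * i : ℤ) : ℚ) ∈ congr q N := fun i => by
    push_cast; exact uu_mem_congr (InA.intCast i)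
  have hsplit : ∀ i k : ℤ, fk ((N : ℤ) * i + k) =
      uu (((N : ℤ) * i : ℤ) : ℚ) * fk k * (uu (((N : ℤ) * i : ℤ) : ℚ))⁻¹ := fun i k => by
    simp only [hfk, Int.cast_add, uu_add]
    group
  have hper : ∀ i k : ℤ, P ((N : ℤ) * i + k) = P k := fun i k => by
    simp only [hP, hsplit]
    exact hψ.map_conj_mem (hmemN i) (hfkN k)
  have hq0 : (q : ℚ) ≠ 0 := Nat.cast_ne_zero.mpr hq.ne_zero
  set u : ℚˣ := Units.mk0 ((q : ℚ) ^ (2 * (r - 1) * E)) (pow_ne_zero _ hq0) with hu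
  have huu : (u : ℚ) ^ 2 * t = δ + t := by
    have h := congrArg (fun y : ℤ => (y : ℚ)) hδ
    simp only [Int.cast_sub, Int.cast_pow, Int.cast_one, Int.cast_mul, Int.cast_natCast] at h
    rw [← pow_mul] at h
    rw [hu, Units.val_mk0, ← pow_mul, show 2 * (r - 1) * E * 2 = 4 * (r - 1) * E by ring, ht]
    field_simp
    rw [hL, Nat.cast_pow]
    linear_combination h
  have huA : InA q (u : ℚ) := (InA.natCast q).pow _
  have huA' : InA q ((u⁻¹ : ℚˣ) : ℚ) := by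
    simpa [hu] using InA.one.div_pow (q := q) (2 * (r - 1) * E)
  have hu' : ((u⁻¹⁻¹ : ℚˣ) : ℚ) = (q : ℚ) ^ (2 * (r - 1) * E) := by rw [inv_inv]; rfl
  have hddA : ∀ v : ℚˣ, InA q (v : ℚ) → InA q ((v⁻¹ : ℚˣ) : ℚ) →
      ∀ g ∈ congr q N, dd v * g * (dd v)⁻¹ ∈ congr q N := by
    intro v hv hv' g hg
    refine conj_mem_congr (L := 1) ?_ ?_ (by simpa using hg)
    · intro i j; fin_cases i <;> fin_cases j <;> simp [hv, InA.zero] <;> simpa using hv'
    · rw [dd_inv]; intro i j; fin_cases i <;> fin_cases j <;>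
        simp [hv, InA.zero, -Units.val_inv_eq_inv_val, hv']
  -- every integer translate is fixed by `u⁻¹`
  have hfixall : ∀ k : ℤ, ψ (dd u⁻¹ * fk k * (dd u⁻¹)⁻¹) = P k := by
    intro k
    obtain ⟨j, hj⟩ : ∃ j : ℕ, (j : ℤ) = k % (N : ℤ) :=
      ⟨(k % (N : ℤ)).toNat, Int.toNat_of_nonneg (Int.emod_nonneg _ (by omega))⟩
    have hjN : j < N := by
      have := Int.emod_lt_of_pos k (by omega : (0 : ℤ) < N); omega
    have hk : k = (N : ℤ) * (k / N) + (j : ℤ) := by rw [hj, Int.mul_ediv_add_emod]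
    have hκ := hψ.comp_conj (dd u⁻¹) (hddA _ huA' (by rw [inv_inv]; exact huA))
    have hdiv : E₁ (j : ℤ) ∣ E :=
      (Dvd.intro _ rfl).trans (Finset.dvd_prod_of_mem (fun k : ℕ => E₁ k * E₂ k)
        (Finset.mem_range.mpr hjN))
    have h1 := hκ.map_conj_mem (hmemN (k / N)) (hfkN j)
    rw [← hsplit] at h1
    have h2 := hfix₁ j E hdiv u⁻¹ (Or.inr hu')
    rw [← hk] at h1
    rw [h1, h2]
    exact (by rw [hk, hper] : P (j : ℤ) = P k)
  have hmain : ∀ j : ℕ, j < N → P ((j : ℤ) + δ) = P j := by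
    intro j hj
    have hdiv : E₂ (j : ℤ) ∣ E :=
      (Dvd.intro_left _ rfl).trans (Finset.dvd_prod_of_mem (fun k : ℕ => E₁ k * E₂ k)
        (Finset.mem_range.mpr hj))
    have h2 : ψ (uu t * (dd u⁻¹ * gk j * (dd u⁻¹)⁻¹) * (uu t)⁻¹)
        = ψ (uu t * gk j * (uu t)⁻¹) := hfix₂ j E hdiv u⁻¹ (Or.inr hu')
    have h3 : uu t * gk j * (uu t)⁻¹ = fk j := by
      simp only [hgk, ← uu_inv]; group
    have h4 : dd u⁻¹ * fk ((j : ℤ) + δ) * (dd u⁻¹)⁻¹
        = uu t * (dd u⁻¹ * gk j * (dd u⁻¹)⁻¹) * (uu t)⁻¹ := by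
      have e1 : fk ((j : ℤ) + δ) = uu (δ : ℚ) * fk j * (uu (δ : ℚ))⁻¹ := by
        simp only [hfk, Int.cast_add]
        rw [add_comm _ (δ : ℚ), uu_add]
        group
      have e2 : uu (δ : ℚ) = dd u * uu t * (dd u)⁻¹ * (uu t)⁻¹ := by
        rw [dd_uu, huu, uu_add, mul_inv_cancel_right]
      simp only [e1, e2, hgk, ← dd_inv, ← uu_inv, inv_inv]
      group
    have h5 := hfixall ((j : ℤ) + δ)
    rw [h4, h2, h3] at h5
    exact h5.symm
  intro k
  obtain ⟨j, hj⟩ : ∃ j : ℕ, (j : ℤ) = k % (N : ℤ) :=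
    ⟨(k % (N : ℤ)).toNat, Int.toNat_of_nonneg (Int.emod_nonneg _ (by omega))⟩
  have hjN : j < N := by
    have := Int.emod_lt_of_pos k (by omega : (0 : ℤ) < N); omega
  have hk : k = (N : ℤ) * (k / N) + (j : ℤ) := by rw [hj, Int.mul_ediv_add_emod]
  show P (k + δ) = P k
  rw [hk, add_assoc, hper, hper, hmain j hjN]

/-- Diagonal normal form modulo a power of the level. -/
theorem exists_normal_form {N e : ℕ} (hN : N ≠ 0) {ζ : SL2Q → A} (hζ : IsUHom (congr q N) ζ)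
    {g : SL2Q} (hg : g ∈ congr q N) :
    ∃ g' ∈ congr q N, ζ g' = ζ g ∧ g' 0 0 = g 0 0 ∧
      InA q (g' 0 1 / (N : ℚ) ^ (e + 1)) ∧ InA q (g' 1 0 / (N : ℚ) ^ (e + 1)) ∧
      InA q ((g' 0 0 * g' 1 1 - 1) / (N : ℚ) ^ (e + 1)) := by
  have hN' : (N : ℚ) ≠ 0 := Nat.cast_ne_zero.mpr hN
  obtain ⟨B, hB, eg⟩ := id hg
  have h00 : g 0 0 = 1 + N * B 0 0 := by rw [eg]; simp
  have h01 : g 0 1 = N * B 0 1 := by rw [eg]; simp
  have h10 : g 1 0 = N * B 1 0 := by rw [eg]; simp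
  set a' := ∑ i ∈ Finset.range (e + 1), (-((N : ℚ) * B 0 0)) ^ i with ha'
  have ha'A : InA q a' := by
    rw [ha']
    exact Finset.sum_induction _ (InA q) (fun _ _ => InA.add) InA.zero
      fun i _ => (((InA.natCast N).mul (hB 0 0)).neg).pow i
  have haa' : 1 - g 0 0 * a' = (N : ℚ) ^ (e + 1) * (-(B 0 0)) ^ (e + 1) := by
    rw [h00, ha', ← mul_pow,
      show 1 + (N : ℚ) * B 0 0 = 1 - -((N : ℚ) * B 0 0) by ring, mul_neg_geom_sum]
    ring
  set v := ll ((N : ℚ) * -(B 1 0 * a'))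
  set w := uu ((N : ℚ) * -(B 0 1 * a'))
  have hv : v ∈ congr q N := ll_mem_congr ((hB 1 0).mul ha'A).neg
  have hw : w ∈ congr q N := uu_mem_congr ((hB 0 1).mul ha'A).neg
  set g' := v * g * w with hg'
  have hg'mem : g' ∈ congr q N := Subgroup.mul_mem _ (Subgroup.mul_mem _ hv hg) hw
  refine ⟨g', hg'mem, ?_, ?_, ?_⟩
  · rw [hg', hζ.map_mul _ (Subgroup.mul_mem _ hv hg) _ hw, hζ.map_mul _ hv _ hg,
      hζ.map_unip v hv (by simp [v]; norm_num), hζ.map_unip w hw (by simp [w]; norm_num), zero_add,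
      add_zero]
  · simp [g', v, w, Matrix.mul_apply, Matrix.vecMul, dotProduct, Fin.sum_univ_two]
  have e00 : g' 0 0 = g 0 0 := by simp [g', v, w, Matrix.mul_apply, Matrix.vecMul, dotProduct, Fin.sum_univ_two]
  have e01 : g' 0 1 = g 0 1 * (1 - g 0 0 * a') := by
    simp [g', v, w, Matrix.mul_apply, Matrix.vecMul, dotProduct, Fin.sum_univ_two, h01]; ring
  have e10 : g' 1 0 = g 1 0 * (1 - g 0 0 * a') := by
    simp [g', v, w, Matrix.mul_apply, Matrix.vecMul, dotProduct, Fin.sum_univ_two, h10]; ring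
  have hM : (N : ℚ) ^ (e + 1) ≠ 0 := pow_ne_zero _ hN'
  have hp : InA q ((-(B 0 0)) ^ (e + 1)) := (hB 0 0).neg.pow _
  have hA := matA_of_mem_congr hg
  have hdet := g'.det_coe
  rw [Matrix.det_fin_two] at hdet
  refine ⟨?_, ?_, ?_⟩
  · rw [e01, haa', mul_left_comm, mul_div_cancel_left₀ _ hM]
    exact (hA 0 1).mul hp
  · rw [e10, haa', mul_left_comm, mul_div_cancel_left₀ _ hM]
    exact (hA 1 0).mul hp
  · rw [show g' 0 0 * g' 1 1 - 1 = g' 0 1 * g' 1 0 by linear_combination hdet, e01, haa',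
      show g 0 1 * ((N : ℚ) ^ (e + 1) * (-(B 0 0)) ^ (e + 1)) * g' 1 0
        = (N : ℚ) ^ (e + 1) * (g 0 1 * (-(B 0 0)) ^ (e + 1) * g' 1 0) by ring,
      mul_div_cancel_left₀ _ hM]
    exact ((hA 0 1).mul hp).mul (matA_of_mem_congr hg'mem 1 0)

/-- A homomorphism killing unipotents and a deep level kills the whole level. -/
theorem eq_zero_of_deep {N e : ℕ} (hN : N ≠ 0) {ζ : SL2Q → A} (hζ : IsUHom (congr q N) ζ)
    (h0 : ∀ g ∈ congr q (N ^ (e + 1)), ζ g = 0) {g : SL2Q} (hg : g ∈ congr q N) : ζ g = 0 := by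
  have hN' : (N : ℚ) ≠ 0 := Nat.cast_ne_zero.mpr hN
  obtain ⟨B, hB, eg⟩ := id hg
  set z := -(B 0 0)
  have hx : uu ((N : ℚ) * 1) ∈ congr q N := uu_mem_congr InA.one
  set w : SL2Q := ll z * uu ((N : ℚ) * 1) * (ll z)⁻¹ with hw
  have hz : InA q z := (hB 0 0).neg
  have hlinv : (ll z)⁻¹ = ll (-z) := inv_eq_of_mul_eq_one_right (by
    apply Subtype.ext; ext i j
    fin_cases i <;> fin_cases j <;> simp [Matrix.mul_apply, Fin.sum_univ_two])
  have hwmem : w ∈ congr q N := by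
    refine conj_mem_congr (L := 1) ?_ ?_ (by simpa using hx)
    · intro i j; fin_cases i <;> fin_cases j <;> simp [hz, InA.zero, InA.one]
    · rw [hlinv]; intro i j; fin_cases i <;> fin_cases j <;> simp [hz.neg, InA.zero, InA.one]
  have hw0 : ζ w = 0 := hζ.map_unip w hwmem (by
    rw [hw, IsUHom.trace_conj]; simp; norm_num)
  have hw00 : w 0 0 = g 0 0 := by
    rw [hw, hlinv, eg]; simp [Matrix.mul_apply, Fin.sum_univ_two, z]
  obtain ⟨g', hg', hgv, hg00, hgb, hgc, hgd⟩ := exists_normal_form (e := e) hN hζ hg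
  obtain ⟨w', hw', hwv, hw'00, hwb, hwc, hwd⟩ := exists_normal_form (e := e) hN hζ hwmem
  have hM : (N ^ (e + 1) : ℕ) ≠ 0 := pow_ne_zero _ hN
  have hmem : g' * w'⁻¹ ∈ congr q (N ^ (e + 1)) := by
    rw [mem_congr_iff hM, Nat.cast_pow]
    have hG := matA_of_mem_congr hg'
    have hW := matA_of_mem_congr hw'
    have ea : g' 0 0 = w' 0 0 := by rw [hg00, hw'00, hw00]
    refine ⟨?_, ?_, ?_, ?_⟩ <;>
      simp [Matrix.SpecialLinearGroup.coe_inv, Matrix.adjugate_fin_two, Matrix.mul_apply,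
        Fin.sum_univ_two]
    · convert hwd.sub (hgb.mul (hW 1 0)) using 1
      rw [ea]; ring
    · convert (hgb.mul (hW 0 0)).sub ((hG 0 0).mul hwb) using 1
      ring
    · convert (hgc.mul (hW 1 1)).sub ((hG 1 1).mul hwc) using 1
      ring
    · convert hgd.sub (hgc.mul (hW 0 1)) using 1
      rw [ea]; ring
  have h := h0 _ hmem
  rw [hζ.map_mul _ hg' _ (Subgroup.inv_mem _ hw'), hζ.map_inv hw', hgv, hwv, hw0, neg_zero,
    add_zero] at h
  exact h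

/-- Invariance under `uu 1`. -/
theorem conj_uu_one {N : ℕ} (hq : q.Prime) (hqN : ¬ q ∣ N) {ψ : SL2Q → A}
    (hψ : IsUHom (congr q N) ψ) {g : SL2Q} (hg : g ∈ congr q N) :
    ψ (uu 1 * g * (uu 1)⁻¹) = ψ g := by
  have hN0 : N ≠ 0 := fun h => hqN (h ▸ dvd_zero q)
  rcases Nat.lt_or_ge 1 N with hN | hN
  swap
  · obtain rfl : N = 1 := by omega
    have : uu ((1 : ℕ) * 1 : ℚ) ∈ congr q 1 := uu_mem_congr InA.one
    simp only [Nat.cast_one, mul_one] at this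
    exact hψ.map_conj_mem this hg
  have hdata : ∀ r : ℕ, r.Prime → r ∣ N → ∃ (W : ℕ) (c : ℤ), ¬ (r : ℤ) ∣ c ∧
      (q : ℤ) ^ (4 * (r - 1)) - 1 = (r : ℤ) ^ W * c := by
    intro r hr _
    have hpos : 2 ≤ q ^ (4 * (r - 1)) := by
      calc 2 = 2 ^ 1 := rfl
        _ ≤ q ^ 1 := Nat.pow_le_pow_left hq.two_le 1
        _ ≤ q ^ (4 * (r - 1)) := Nat.pow_le_pow_right hq.pos (by have := hr.two_le; omega)
    obtain ⟨W, c, hc, e⟩ := Nat.exists_eq_pow_mul_and_not_dvd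
      (by omega : q ^ (4 * (r - 1)) - 1 ≠ 0) r hr.ne_one
    refine ⟨W, c, fun h => hc (Int.natCast_dvd_natCast.mp h), ?_⟩
    have h := congrArg (fun x : ℕ => (x : ℤ)) e
    push_cast [Nat.cast_sub (by omega : 1 ≤ q ^ (4 * (r - 1)))] at h
    exact h
  choose W c hc hW using hdata
  classical
  set e := ∑ r ∈ N.primeFactors, if h : r.Prime ∧ r ∣ N then 4 * W r h.1 h.2 else 0 with he
  set ζ : SL2Q → A := fun g => ψ (uu 1 * g * (uu 1)⁻¹) - ψ g with hζdef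
  have hconj := hψ.comp_conj (uu 1) fun g hg => by
    simpa using uu_int_conj_mem_congr (q := q) (M := N) 1 hg
  have hζ : IsUHom (congr q N) ζ := by
    refine ⟨fun g hg h hh => ?_, fun g hg e => ?_⟩
    · simp only [hζdef]
      rw [hconj.map_mul g hg h hh, hψ.map_mul g hg h hh]; abel
    · simp only [hζdef]
      rw [hconj.map_unip g hg e, hψ.map_unip g hg e, sub_zero]
  refine sub_eq_zero.mp (eq_zero_of_deep (e := e) hN0 hζ (fun f hf => ?_) hg)
  have hfN : f ∈ congr q N := congr_anti (dvd_pow_self N (by omega)) hf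
  let P : ℤ → A := fun k => ψ (uu (k : ℚ) * f * (uu (k : ℚ))⁻¹)
  let S : AddSubgroup ℤ :=
    { carrier := {d | ∀ k, P (k + d) = P k}
      add_mem' := fun {a b} ha hb k => by rw [← add_assoc, hb, ha]
      zero_mem' := fun k => by rw [add_zero]
      neg_mem' := fun {a} ha k => by
        have h := ha (k + -a)
        rw [neg_add_cancel_right] at h
        exact h.symm }
  have hNS : (N : ℤ) ∈ S := fun k => by
    show ψ _ = ψ _
    push_cast
    rw [add_comm (k : ℚ), uu_add]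
    have h1 : uu ((N : ℚ)) ∈ congr q N := by
      simpa using uu_mem_congr (q := q) (M := N) InA.one
    have := hψ.map_conj_mem h1 (uu_int_conj_mem_congr k hfN)
    simpa [mul_assoc] using this
  obtain ⟨d, hd⟩ := Int.subgroup_cyclic S
  have hd' : ∀ x, x ∈ S ↔ d ∣ x := fun x => by
    rw [hd, AddSubgroup.mem_closure_singleton]
    exact ⟨fun ⟨n, hn⟩ => ⟨n, by rw [← hn, smul_eq_mul, mul_comm]⟩,
      fun ⟨n, hn⟩ => ⟨n, by rw [hn, smul_eq_mul, mul_comm]⟩⟩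
  have hd1 : d.natAbs = 1 := by
    by_contra h
    obtain ⟨r, hr, hrd⟩ := Nat.exists_prime_and_dvd h
    have hrd' : (r : ℤ) ∣ d := Int.natCast_dvd.mpr hrd
    have hrN : r ∣ N := Int.natCast_dvd_natCast.mp (hrd'.trans ((hd' _).mp hNS))
    have hle : 4 * W r hr hrN ≤ e := by
      rw [he]
      refine le_trans ?_ (Finset.single_le_sum (fun _ _ => Nat.zero_le _)
        (Nat.mem_primeFactors.mpr ⟨hr, hrN, hN0⟩))
      rw [dif_pos ⟨hr, hrN⟩]
    obtain ⟨δ, hδ, hper⟩ := exists_period hq hqN hN hr hrN (hc r hr hrN) (hW r hr hrN) hψ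
      (f := f) (congr_anti (by
        rw [mul_assoc, ← pow_add, ← pow_mul, pow_succ']
        refine mul_dvd_mul_left N ((pow_dvd_pow r ?_).trans (pow_dvd_pow_of_dvd hrN e))
        omega) hf)
    exact hδ (hrd'.trans ((hd' δ).mp hper))
  have h1 : (1 : ℤ) ∈ S := (hd' 1).mpr (Int.natAbs_dvd.mp (by rw [hd1]; exact dvd_rfl))
  have := h1 0
  simp only [P, zero_add, Int.cast_one, Int.cast_zero, uu_zero, one_mul, inv_one, mul_one] at this
  simp only [hζdef, this, sub_self]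

end Fermat.Agent.Raise
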