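import Fermat.Agent.Raise.ModP
import Fermat.Agent.Raise.GaloisAux
import Fermat.Agent.HeckeCohom.Faithful
import Fermat.Agent.Eigen.EigenHom
import Fermat.Agent.Eigen.Lifting
import Fermat.Agent.Integral.Main

/-!
# Level raising

From an eigenclass mod `p` of level `N` satisfying the congruence at `q` to an eigenform of level
`N q` with `a_q² = 1`.
-/

set_option autoImplicit false

noncomputable section

namespace Fermat.Agent.Raise

open CongruenceSubgroup Fermat.Agent.ParHom CuspForm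
open scoped MatrixGroups

local notation "Zbar" => integralClosure ℤ ℂ

/-- The mod `p` eigenclass of a congruent eigenform. -/
theorem exists_eigenclass {N : ℕ} [NeZero N] {p : ℕ} [Fact p.Prime]
    {f : CuspForm (Gamma0 N) 2} (hf : f.IsNormalizedEigenform) (𝔪 : Ideal Zbar) [𝔪.IsMaximal]
    (hpm : (p : Zbar) ∈ 𝔪) (G : Set Nat.Primes) (c : Nat.Primes → ℤ)
    (hc : ∀ ℓ ∈ G, ∃ a : Zbar, (a : ℂ) = ModularFormClass.qCoeff f ℓ ∧ a - (c ℓ : Zbar) ∈ 𝔪)
    (hGN : ∀ ℓ ∈ G, ¬ (ℓ : ℕ) ∣ N) :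
    ∃ x : parEllHoms (Gamma0 N) (ZMod p) (ZMod p), x ≠ 0 ∧
      ∀ ℓ ∈ G, HeckeCohom.heckeParEll N (ZMod p) (ZMod p) ℓ x = (c ℓ : ZMod p) • x := by
  haveI := HeckeCohom.heckeAlgebra_two_finite N
  letI := Ideal.Quotient.field 𝔪
  set χ : heckeAlgebra N 2 ∅ →+* Zbar := (Eigen.eigenChar f hf ∅).codRestrict Zbar
    (fun t => map_isIntegral_int (Eigen.eigenChar f hf ∅) (Algebra.IsIntegral.isIntegral t)) with hχ
  set χk := (Ideal.Quotient.mk 𝔪).comp χ with hχk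
  obtain ⟨φ, hφ, hkill⟩ := HeckeCohom.exists_ne_zero_killed_of_field χk
    (by rw [map_natCast, ← map_natCast (Ideal.Quotient.mk 𝔪), Ideal.Quotient.eq_zero_iff_mem]
        exact hpm)
  refine ⟨⟨φ.1, φ.2⟩, fun h => hφ (Subtype.ext (congrArg Subtype.val h)), fun ℓ hℓ => ?_⟩
  obtain ⟨a, ha, ham⟩ := hc ℓ hℓ
  have e : χ (heckeAlgebra.T ℓ.2 (hGN ℓ hℓ) (Set.notMem_empty (ℓ : ℕ))) = a :=
    Subtype.ext (by rw [ha]; exact Eigen.eigenChar_T hf _ _ _)
  have h := hkill (heckeAlgebra.T ℓ.2 (hGN ℓ hℓ) (Set.notMem_empty (ℓ : ℕ)) - ((c ℓ : ℤ) : heckeAlgebra N 2 ∅)) (by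
    rw [map_sub, map_intCast, hχk, RingHom.comp_apply, e, ← map_intCast (Ideal.Quotient.mk 𝔪),
      ← map_sub]
    exact Ideal.Quotient.eq_zero_iff_mem.mpr ham)
  rw [map_sub, map_intCast, LinearMap.sub_apply, Module.End.intCast_apply, sub_eq_zero,
    HeckeCohom.heckeAct_T] at h
  refine Subtype.ext ?_
  have h' : HeckeCohom.heckeHom N ℤ (ZMod p) ℓ φ.1 = c ℓ • φ.1 := congrArg Subtype.val h
  show HeckeCohom.heckeHom N (ZMod p) (ZMod p) ℓ φ.1 = (c ℓ : ZMod p) • φ.1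
  rw [heckeHom_int, h', Int.cast_smul_eq_zsmul]

section

variable {N q p : ℕ} [Fact q.Prime] [NeZero N] [NeZero q] [Fact p.Prime]

/-- The integral class of level `N q`. -/
theorem exists_integral_class (hqN : ¬ q ∣ N) (h2 : (2 : ZMod p) ≠ 0) (ℓ ℓ₀ : Nat.Primes)
    (hℓ : ¬ (ℓ : ℕ) ∣ N * q) (hℓ₀ : ¬ (ℓ₀ : ℕ) ∣ N * q) (h₁ : ((ℓ₀ : ℕ) : ZMod (N * q)) = 1)
    {x : parEllHoms (Gamma0 N) (ZMod p) (ZMod p)} (hx : x ≠ 0) (G : Set Nat.Primes)
    (c : Nat.Primes → ℤ) (hG : ∀ l ∈ G, ¬ (l : ℕ) ∣ N * q)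
    (heig : ∀ l ∈ G, HeckeCohom.heckeParEll N (ZMod p) (ZMod p) l x = (c l : ZMod p) • x)
    (hℓG : ℓ ∈ G) (hℓ₀G : ℓ₀ ∈ G)
    (hne : (c ℓ : ZMod p) ^ 2 ≠ (1 + (ℓ : ℕ) : ZMod p) ^ 2)
    (hne₀ : (c ℓ₀ : ZMod p) ≠ (1 + (ℓ₀ : ℕ) : ZMod p)) (hq : q.Prime) {ε : ZMod p}
    (hε : ε * ε = 1)
    (hTq : HeckeCohom.heckeParEll N (ZMod p) (ZMod p) ⟨q, hq⟩ x = (ε * ((q : ℕ) + 1)) • x) :
    ∃ z : parEllHoms (Gamma0 (N * q)) ℤ ℤ,
      castAdd (N * q) (ZMod p) z ≠ 0 ∧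
      HeckeCohom.heckeParEll (N * q) ℤ ℤ ⟨q, hq⟩
        (HeckeCohom.heckeParEll (N * q) ℤ ℤ ⟨q, hq⟩ z) = z ∧
      ∀ l ∈ G, castAdd (N * q) (ZMod p) (HeckeCohom.heckeParEll (N * q) ℤ ℤ l z)
        = (c l : ZMod p) • castAdd (N * q) (ZMod p) z := by
  set θ : ZMod p := ((c ℓ₀ : ZMod p) - ((ℓ₀ : ℕ) + 1 : ZMod p)) ^ 3
      * ((c ℓ : ZMod p) ^ 2 - ((ℓ : ℕ) + 1 : ZMod p) ^ 2) with hθ
  have hθ0 : θ ≠ 0 := by
    refine mul_ne_zero (pow_ne_zero _ (sub_ne_zero.mpr ?_)) (sub_ne_zero.mpr ?_)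
    · rwa [add_comm]
    · rwa [add_comm]
  set y := res0 (q := q) (ZMod p) (ZMod p) x + tw (ZMod p) (ZMod p) ((-ε) • x) with hy
  have hyl : ∀ l ∈ G, HeckeCohom.heckeParEll (N * q) (ZMod p) (ZMod p) l y
      = (c l : ZMod p) • y := by
    intro l hl
    rw [hy, map_add, heckeParEll_res0 l (hG l hl), heckeParEll_tw l (hG l hl), heig l hl, map_smul,
      map_smul, map_smul, map_smul, smul_add, heig l hl, map_smul,
      smul_comm]
  have hy0 : y ≠ 0 := fun h => by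
    have h' := (killer_eq_zero ℓ ℓ₀ hqN hℓ hℓ₀ h₁ h).1
    rw [killer_eigen (heig ℓ hℓG) (heig ℓ₀ hℓ₀G)] at h'
    exact hx ((smul_eq_zero.mp h').resolve_left hθ0)
  have hy₁ : cor1 (ZMod p) (ZMod p) y = 0 := by
    rw [hy, map_add, cor1_res0 hqN, cor1_tw hqN hq, map_smul, hTq, smul_smul,
      ← Nat.cast_smul_eq_nsmul (ZMod p), ← add_smul]
    rw [show ((q + 1 : ℕ) : ZMod p) + -ε * (ε * ((q : ℕ) + 1)) = 0 by
      push_cast; linear_combination -((q : ZMod p) + 1) * hε, zero_smul]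
  have hy₂ : cor2 (ZMod p) (ZMod p) y = 0 := by
    rw [hy, map_add, cor2_res0 hqN hq, cor2_tw hqN, hTq,
      ← Nat.cast_smul_eq_nsmul (ZMod p), smul_smul, ← add_smul]
    rw [show ε * ((q : ℕ) + 1 : ZMod p) + ((q + 1 : ℕ) : ZMod p) * -ε = 0 by push_cast; ring,
      zero_smul]
  obtain ⟨z, a, ha, hz₁, hz₂, hz⟩ := exists_lift_cor_zero hqN h2 ℓ ℓ₀ hℓ hℓ₀ h₁ hy₁ hy₂ hθ0
    (killer_eigen (hyl ℓ hℓG) (hyl ℓ₀ hℓ₀G))
  refine ⟨z, ?_, heckeParEll_sq_eq_self hqN hq hz₁ hz₂, fun l hl => ?_⟩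
  · rw [hz]; exact smul_ne_zero ha hy0
  · rw [castAdd_heckeParEll, hz, map_smul, hyl l hl, smul_comm]

set_option maxHeartbeats 2000000 in
/-- From an integral class with `U_q² = 1` to an eigenform. -/
theorem exists_eigenform_of_class {M : ℕ} [NeZero M] {q : ℕ} (hq : q.Prime) (hqM : q ∣ M)
    (z : parEllHoms (Gamma0 M) ℤ ℤ) (hz : castAdd M (ZMod p) z ≠ 0)
    (hU : HeckeCohom.heckeParEll M ℤ ℤ ⟨q, hq⟩ (HeckeCohom.heckeParEll M ℤ ℤ ⟨q, hq⟩ z) = z)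
    (G : Set Nat.Primes) (c : Nat.Primes → ℤ) (hG : ∀ l ∈ G, ¬ (l : ℕ) ∣ M)
    (heig : ∀ l ∈ G, castAdd M (ZMod p) (HeckeCohom.heckeParEll M ℤ ℤ l z)
      = (c l : ZMod p) • castAdd M (ZMod p) z) :
    ∃ (g : CuspForm (Gamma0 M) 2) (𝔪' : Ideal Zbar),
      g.IsNormalizedEigenform ∧ 𝔪'.IsMaximal ∧ (p : Zbar) ∈ 𝔪' ∧
      (∀ l ∈ G, ∃ a : Zbar, (a : ℂ) = ModularFormClass.qCoeff g l ∧ a - (c l : Zbar) ∈ 𝔪') ∧
      ModularFormClass.qCoeff g q ^ 2 = 1 := by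
  haveI := HeckeCohom.heckeAlgebra_two_finite M
  set act := HeckeCohom.heckeAct M ℤ ℤ with hact
  have hmul : ∀ s t, act (s * t) z = act s (act t z) := fun s t => by
    rw [map_mul, Module.End.mul_apply]
  let ann : Ideal (heckeAlgebra M 2 ∅) :=
    { carrier := {t | act t z = 0}
      add_mem' := fun {s t} (hs : _ = 0) (ht : _ = 0) => by
        show act (s + t) z = 0
        rw [map_add, LinearMap.add_apply, hs, ht, add_zero]
      zero_mem' := by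
        show act 0 z = 0
        rw [map_zero, LinearMap.zero_apply]
      smul_mem' := fun s t (ht : _ = 0) => by
        show act (s * t) z = 0
        rw [hmul, ht, map_zero] }
  let J : Ideal (heckeAlgebra M 2 ∅) :=
    { carrier := {t | castAdd M (ZMod p) (act t z) = 0}
      add_mem' := fun {s t} (hs : _ = 0) (ht : _ = 0) => by
        show castAdd M (ZMod p) (act (s + t) z) = 0
        rw [map_add, LinearMap.add_apply, map_add, hs, ht, add_zero]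
      zero_mem' := by
        show castAdd M (ZMod p) (act 0 z) = 0
        rw [map_zero, LinearMap.zero_apply, map_zero]
      smul_mem' := fun s t (ht : _ = 0) => by
        show castAdd M (ZMod p) (act (s * t) z) = 0
        obtain ⟨ψ, hψ⟩ := exists_eq_smul_of_castAdd_eq_zero p ht
        rw [hmul, hψ, map_zsmul, map_zsmul, ← Int.cast_smul_eq_zsmul (ZMod p), Int.cast_natCast,
          ZMod.natCast_self, zero_smul] }
  have hJne : J ≠ ⊤ := fun h => by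
    have h1 : castAdd M (ZMod p) (act 1 z) = 0 := (Ideal.eq_top_iff_one J).mp h
    rw [map_one, Module.End.one_apply] at h1
    exact hz h1
  obtain ⟨Mx, hMx, hJM⟩ := Ideal.exists_le_maximal J hJne
  have hannM : ann ≤ Mx := le_trans (fun t (ht : act t z = 0) => by
    show castAdd M (ZMod p) (act t z) = 0
    rw [ht, map_zero]) hJM
  haveI : IsAddTorsionFree (heckeAlgebra M 2 ∅ ⧸ ann) := ⟨fun n hn a b hab => by
    obtain ⟨s, rfl⟩ := Ideal.Quotient.mk_surjective a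
    obtain ⟨t, rfl⟩ := Ideal.Quotient.mk_surjective b
    rw [Ideal.Quotient.mk_eq_mk_iff_sub_mem]
    have hab' : n • Ideal.Quotient.mk ann s = n • Ideal.Quotient.mk ann t := hab
    rw [← map_nsmul, ← map_nsmul, Ideal.Quotient.mk_eq_mk_iff_sub_mem, ← smul_sub] at hab'
    have h0 : act (n • (s - t)) z = 0 := hab'
    rw [map_nsmul, LinearMap.smul_apply] at h0
    refine Subtype.ext (AddMonoidHom.ext fun g => ?_)
    have h1 := DFunLike.congr_fun (congrArg Subtype.val h0) g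
    simpa [hn] using h1⟩
  haveI := hMx
  haveI : (Mx.map (Ideal.Quotient.mk ann)).IsMaximal :=
    Ideal.IsMaximal.map_of_surjective_of_ker_le Ideal.Quotient.mk_surjective
      (by rwa [Ideal.mk_ker])
  obtain ⟨χ, 𝔪', hmax, hcomap⟩ :=
    Eigen.exists_char_lift_maximal (Mx.map (Ideal.Quotient.mk ann))
  have hmem : ∀ t, castAdd M (ZMod p) (act t z) = 0 → χ (Ideal.Quotient.mk ann t) ∈ 𝔪' := fun t ht => by
    rw [← Ideal.mem_comap, hcomap]
    exact Ideal.mem_map_of_mem _ (hJM ht)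
  set χC : heckeAlgebra M 2 ∅ →+* ℂ :=
    ((integralClosure ℤ ℂ).val.toRingHom.comp χ).comp (Ideal.Quotient.mk ann) with hχC
  obtain ⟨g, hg, hgχ⟩ := Eigen.exists_eigenform_of_ringHom (Integral.hasIntegralStructure M 2) χC
  refine ⟨g, 𝔪', hg, hmax, ?_, fun l hl => ?_, ?_⟩
  · have h := hmem (p : heckeAlgebra M 2 ∅) (by
      rw [map_natCast, Module.End.natCast_apply, map_nsmul, ← Nat.cast_smul_eq_nsmul (ZMod p),
        ZMod.natCast_self, zero_smul])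
    rwa [map_natCast, map_natCast] at h
  · refine ⟨χ (Ideal.Quotient.mk ann
      (heckeAlgebra.T l.2 (hG l hl) (Set.notMem_empty (l : ℕ)))), ?_, ?_⟩
    · rw [← Eigen.eigenChar_T hg l.2 (hG l hl) (Set.notMem_empty (l : ℕ)), hgχ]
      rfl
    · have h := hmem (heckeAlgebra.T l.2 (hG l hl) (Set.notMem_empty (l : ℕ)) - ((c l : ℤ) : heckeAlgebra M 2 ∅)) (by
        rw [map_sub, map_intCast, LinearMap.sub_apply, Module.End.intCast_apply, hact,
          HeckeCohom.heckeAct_T, map_sub, map_zsmul, ← Int.cast_smul_eq_zsmul (ZMod p), sub_eq_zero]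
        exact heig l hl)
      rwa [map_sub, map_intCast, map_sub, map_intCast] at h
  · rw [← Eigen.eigenChar_U hg hq hqM (Set.notMem_empty q), hgχ, ← map_pow, sq, ← map_one χC]
    have hq1 : heckeAlgebra.U hq hqM (Set.notMem_empty q) * heckeAlgebra.U hq hqM (Set.notMem_empty q)
        - 1 ∈ ann := by
      show act _ z = 0
      rw [map_sub, map_mul, map_one, LinearMap.sub_apply, Module.End.mul_apply, hact,
        HeckeCohom.heckeAct_U, hU, Module.End.one_apply, sub_self]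
    rw [hχC, RingHom.comp_apply _ (Ideal.Quotient.mk ann), RingHom.comp_apply _ (Ideal.Quotient.mk ann),
      Ideal.Quotient.mk_eq_mk_iff_sub_mem _ _ |>.mpr hq1]

end

end Fermat.Agent.Raise
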