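import Fermat.Agent.HeckeCohom.Operators
import Fermat.Agent.ParHom.Defs

/-!
# Primitives on cusps of homomorphisms of `Γ₀(M)`

A homomorphism killing parabolic elements is the period of a function on the cusps
`OnePoint ℚ`; Hecke operators act on such functions by summing over coset representatives.
-/

set_option autoImplicit false

noncomputable section

namespace Fermat.Agent.Raise

open CongruenceSubgroup Matrix.SpecialLinearGroup
open scoped MatrixGroups

/-- Cusps. -/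
abbrev Cusp : Type := OnePoint ℚ

/-- An upper triangular element of `GL₂(ℚ)`; the identity in degenerate cases. -/
def upperQ (a b d : ℚ) : GL (Fin 2) ℚ :=
  if h : a * d = 0 then 1 else Matrix.GeneralLinearGroup.mkOfDetNeZero !![a, b; 0, d]
    (by rwa [Matrix.det_fin_two_of, mul_zero, sub_zero])

theorem coe_upperQ {a b d : ℚ} (h : a * d ≠ 0) :
    (upperQ a b d : Matrix (Fin 2) (Fin 2) ℚ) = !![a, b; 0, d] := by
  rw [upperQ, dif_neg h]; rfl

/-- `(1 j; 0 p)`. -/
def heckeQ (p j : ℕ) : GL (Fin 2) ℚ := upperQ 1 j p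

/-- `(p 0; 0 1)`. -/
def diagQ (p : ℕ) : GL (Fin 2) ℚ := upperQ p 0 1

@[simp] theorem coe_heckeQ {p : ℕ} (hp : p ≠ 0) (j : ℕ) :
    (heckeQ p j : Matrix (Fin 2) (Fin 2) ℚ) = !![1, (j : ℚ); 0, (p : ℚ)] :=
  coe_upperQ (by simp [hp])

@[simp] theorem coe_diagQ {p : ℕ} (hp : p ≠ 0) :
    (diagQ p : Matrix (Fin 2) (Fin 2) ℚ) = !![(p : ℚ), 0; 0, 1] :=
  coe_upperQ (by simp [hp])

/-- `GL₂(ℚ) → GL₂(ℝ)`. -/
def toReal : GL (Fin 2) ℚ →* GL (Fin 2) ℝ := Matrix.GeneralLinearGroup.map (Rat.castHom ℝ)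

theorem toReal_injective : Function.Injective toReal := by
  intro g h e
  apply Units.ext
  ext i j
  have := congrArg (fun x : GL (Fin 2) ℝ => (x : Matrix (Fin 2) (Fin 2) ℝ) i j) e
  simpa [toReal] using this

theorem coe_toReal (g : GL (Fin 2) ℚ) (i j : Fin 2) :
    (toReal g : Matrix (Fin 2) (Fin 2) ℝ) i j = ((g : Matrix (Fin 2) (Fin 2) ℚ) i j : ℝ) := rfl

variable {M : ℕ}

/-- `Γ₀(M) → GL₂(ℚ)`. -/
def g0Q (M : ℕ) : Gamma0 M →* GL (Fin 2) ℚ := (mapGL ℚ).comp (Gamma0 M).subtype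

theorem coe_g0Q (γ : Gamma0 M) (i j : Fin 2) :
    (g0Q M γ : Matrix (Fin 2) (Fin 2) ℚ) i j = (((γ : SL(2, ℤ)) i j : ℤ) : ℚ) := by
  simp [g0Q]

theorem toReal_g0Q (γ : Gamma0 M) : toReal (g0Q M γ) = HeckeCohom.gamma0GL M γ := by
  apply Units.ext
  ext i j
  rw [coe_toReal, coe_g0Q, HeckeCohom.gamma0GL_entry]
  norm_cast

/-- Rational coset representatives of the Hecke operator at `p`. -/
def ratBeta (M p : ℕ) (i : HeckeCohom.HeckeIdx M p) : GL (Fin 2) ℚ :=
  i.1.elim (diagQ p) fun j => heckeQ p j.val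

theorem toReal_ratBeta (p : ℕ) [NeZero p] (i : HeckeCohom.HeckeIdx M p) :
    toReal (ratBeta M p i) = HeckeCohom.heckeBeta M p i := by
  apply Units.ext
  ext a b
  obtain ⟨⟨_ | j⟩, hi⟩ := i <;> fin_cases a <;> fin_cases b <;>
    simp [coe_toReal, ratBeta, HeckeCohom.heckeBeta, NeZero.ne p, -ZMod.natCast_val]

/-- The Hecke operator at `p` on functions of cusps. -/
def heckeFun (M p : ℕ) [NeZero p] {A : Type*} [AddCommMonoid A] (F : Cusp → A) (r : Cusp) : A :=
  ∑ i : HeckeCohom.HeckeIdx M p, F (ratBeta M p i • r)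

/-- `F` has periods `x`. -/
def IsPrim (M : ℕ) {A : Type*} [AddCommGroup A] (F : Cusp → A)
    (x : Additive (Gamma0 M) →+ A) : Prop :=
  ∀ (γ : Gamma0 M) (r : Cusp), F (g0Q M γ • r) = F r + x (Additive.ofMul γ)

section

variable {A : Type*} [AddCommGroup A] {F G : Cusp → A} {x y : Additive (Gamma0 M) →+ A}

theorem IsPrim.add (hF : IsPrim M F x) (hG : IsPrim M G y) : IsPrim M (F + G) (x + y) :=
  fun γ r => by simp only [Pi.add_apply, hF γ r, hG γ r, AddMonoidHom.add_apply]; abel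

theorem IsPrim.sub (hF : IsPrim M F x) (hG : IsPrim M G y) : IsPrim M (F - G) (x - y) :=
  fun γ r => by simp only [Pi.sub_apply, hF γ r, hG γ r, AddMonoidHom.sub_apply]; abel

theorem IsPrim.nsmul (hF : IsPrim M F x) (n : ℕ) : IsPrim M (n • F) (n • x) :=
  fun γ r => by simp only [Pi.smul_apply, hF γ r, AddMonoidHom.nsmul_apply, smul_add]

theorem IsPrim.zsmul (hF : IsPrim M F x) (n : ℤ) : IsPrim M (n • F) (n • x) :=
  fun γ r => by simp only [Pi.smul_apply, hF γ r, AddMonoidHom.smul_apply, smul_add]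

theorem IsPrim.unique (hF : IsPrim M F x) (hG : IsPrim M F y) : x = y := by
  ext γ
  obtain ⟨γ, rfl⟩ : ∃ g : Gamma0 M, Additive.ofMul g = γ := ⟨Additive.toMul γ, rfl⟩
  exact add_left_cancel ((hF γ OnePoint.infty).symm.trans (hG γ OnePoint.infty))

theorem IsPrim.eq_of_const (hF : IsPrim M F x) (hG : IsPrim M G y) (a : A)
    (h : ∀ r, F r = G r + a) : x = y := by
  refine hF.unique fun γ r => ?_
  rw [h, h, hG]; abel

/-- A homomorphism with a primitive kills every element fixing a cusp. -/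
theorem IsPrim.eq_zero_of_fix (hF : IsPrim M F x) {γ : Gamma0 M} {r : Cusp}
    (h : g0Q M γ • r = r) : x (Additive.ofMul γ) = 0 := by
  have h' := hF γ r
  rw [h] at h'
  exact left_eq_add.mp h'

theorem IsPrim.heckeFun (hF : IsPrim M F x) (ℓ : Nat.Primes) [NeZero (ℓ : ℕ)] (R : Type*)
    [Semiring R] [Module R A] :
    IsPrim M (heckeFun M ℓ F) (HeckeCohom.heckeHom M R A ℓ x) := by
  haveI : Fact (ℓ : ℕ).Prime := ⟨ℓ.2⟩
  intro γ r
  have h := HeckeCohom.isCosetSystem M (ℓ : ℕ)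
  have e : ∀ i, ratBeta M ℓ i * g0Q M γ
      = g0Q M (h.cocycle γ i) * ratBeta M ℓ (h.perm γ i) := by
    intro i
    apply toReal_injective
    rw [map_mul, map_mul, toReal_ratBeta, toReal_ratBeta, toReal_g0Q, toReal_g0Q]
    exact h.spec γ i
  show (∑ i, F (ratBeta M ℓ i • g0Q M γ • r)) = (∑ i, F (ratBeta M ℓ i • r)) + _
  simp only [← mul_smul, e]
  simp only [mul_smul, hF _ _, Finset.sum_add_distrib]
  refine congrArg₂ (· + ·) (Equiv.sum_comp (h.permEquiv γ) fun i => F (ratBeta M ℓ i • r)) ?_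
  exact (h.transfer_apply x γ).symm

theorem trace_sq_eq_four_of_fix {γ : Gamma0 M} {r : Cusp} (h : g0Q M γ • r = r) :
    ((γ : SL(2, ℤ)) : Matrix (Fin 2) (Fin 2) ℤ).trace ^ 2 = 4 := by
  obtain ⟨g, hg⟩ := OnePoint.exists_mem_SL2 ℤ r
  set δ : SL(2, ℤ) := g⁻¹ * (γ : SL(2, ℤ)) * g with hδ
  have hfix : (mapGL ℚ δ) • (OnePoint.infty : Cusp) = OnePoint.infty := by
    rw [hδ, map_mul, map_mul, mul_smul, mul_smul, hg,
      show mapGL ℚ (γ : SL(2, ℤ)) • r = r from h, ← hg, ← mul_smul, ← map_mul, inv_mul_cancel,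
      map_one, one_smul]
  have h10 : δ 1 0 = 0 := by
    rw [OnePoint.smul_infty_eq_ite] at hfix
    split at hfix
    · rename_i h0; simpa using h0
    · exact absurd hfix (OnePoint.coe_ne_infty _)
  have htr : ((γ : SL(2, ℤ)) : Matrix (Fin 2) (Fin 2) ℤ).trace
      = (δ : Matrix (Fin 2) (Fin 2) ℤ).trace := by
    rw [hδ, mul_assoc, Matrix.SpecialLinearGroup.coe_mul, Matrix.trace_mul_comm,
      ← Matrix.SpecialLinearGroup.coe_mul, mul_inv_cancel_right]
  have hd := δ.det_coe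
  rw [Matrix.det_fin_two, h10, mul_zero, sub_zero] at hd
  rw [htr, Matrix.trace_fin_two]
  rcases Int.eq_one_or_neg_one_of_mul_eq_one' hd with ⟨ha, hb⟩ | ⟨ha, hb⟩ <;>
    rw [ha, hb] <;> norm_num

end

/-- `Γ₀(M)`-orbits of cusps. -/
def orbitSetoid (M : ℕ) : Setoid Cusp where
  r r s := ∃ γ : Gamma0 M, g0Q M γ • r = s
  iseqv :=
    ⟨fun r => ⟨1, by rw [map_one, one_smul]⟩,
      fun {r s} ⟨γ, h⟩ => ⟨γ⁻¹, by rw [← h, map_inv, inv_smul_smul]⟩,
      fun {r s t} ⟨γ, h⟩ ⟨δ, h'⟩ => ⟨δ * γ, by rw [map_mul, mul_smul, h, h']⟩⟩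

theorem exists_move (M : ℕ) (r : Cusp) :
    ∃ γ : Gamma0 M, g0Q M γ • (Quotient.mk (orbitSetoid M) r).out = r :=
  Quotient.mk_out (s := orbitSetoid M) r

/-- The standard primitive of a homomorphism. -/
def prim (M : ℕ) {A : Type*} [AddCommGroup A] (x : Additive (Gamma0 M) →+ A) (r : Cusp) : A :=
  x (Additive.ofMul (exists_move M r).choose)

theorem isPrim_prim {A : Type*} [AddCommGroup A] {x : Additive (Gamma0 M) →+ A}
    (hx : ModularCurve.Period.IsParabolicHom (Gamma0 M) x) : IsPrim M (prim M x) x := by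
  intro γ r
  have hs : Quotient.mk (orbitSetoid M) (g0Q M γ • r) = Quotient.mk (orbitSetoid M) r :=
    (Quotient.sound (s := orbitSetoid M) ⟨γ, rfl⟩).symm
  have h1 := (exists_move M r).choose_spec
  have h2 := (exists_move M (g0Q M γ • r)).choose_spec
  set a := (exists_move M r).choose
  set b := (exists_move M (g0Q M γ • r)).choose
  rw [congrArg Quotient.out hs] at h2
  have hfix : g0Q M (b⁻¹ * (γ * a)) • (Quotient.mk (orbitSetoid M) r).out
      = (Quotient.mk (orbitSetoid M) r).out := by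
    rw [map_mul, map_mul, map_inv, mul_smul, mul_smul, h1, inv_smul_eq_iff]
    exact h2.symm
  have h0 := hx _ (trace_sq_eq_four_of_fix hfix)
  rw [ofMul_mul, ofMul_mul, ofMul_inv, map_add, map_add, map_neg, neg_add_eq_zero] at h0
  show x (Additive.ofMul b) = x (Additive.ofMul a) + _
  rw [h0]; abel

theorem IsPrim.of_parEll {A : Type*} [AddCommGroup A] {R : Type*} [Semiring R] [Module R A]
    (x : ParHom.parEllHoms (Gamma0 M) R A) :
    IsPrim M (prim M (x : Additive (Gamma0 M) →+ A)) (x : Additive (Gamma0 M) →+ A) :=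
  isPrim_prim x.2.isParabolicHom

end Fermat.Agent.Raise
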