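import Fermat.Agent.Raise.Deep
import Fermat.Agent.Raise.Primitive

/-!
# Functions of cusps equivariant for two copies of `Γ₀(N)`

`Γ₀(N)` and its conjugate by `diag (q, 1)` generate the group `Γ₀(N)[1/q]`; a function of cusps
equivariant for both thus gives a homomorphism on this group killing all unipotents.
-/

set_option autoImplicit false

noncomputable section

namespace Fermat.Agent.Raise

open CongruenceSubgroup Matrix.SpecialLinearGroup
open scoped MatrixGroups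

variable {q N : ℕ} {A : Type*} [AddCommGroup A]

/-- `SL₂(ℤ) → SL₂(ℚ)`. -/
def slQ : SL(2, ℤ) →* SL2Q := Matrix.SpecialLinearGroup.map (Int.castRingHom ℚ)

@[simp] theorem coe_slQ (g : SL(2, ℤ)) (i j : Fin 2) :
    (slQ g : Matrix (Fin 2) (Fin 2) ℚ) i j = ((g i j : ℤ) : ℚ) := rfl

theorem toGL_slQ (γ : Gamma0 N) :
    Matrix.SpecialLinearGroup.toGL (slQ (γ : SL(2, ℤ))) = g0Q N γ := by
  apply Units.ext
  ext i j
  rw [coe_g0Q]
  rfl

/-- The elements along which `F` changes by a constant. -/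
def shiftSubgroup (F : Cusp → A) : Subgroup SL2Q where
  carrier := {g | ∃ a, ∀ r, F (Matrix.SpecialLinearGroup.toGL g • r) = F r + a}
  one_mem' := ⟨0, fun r => by rw [map_one, one_smul, add_zero]⟩
  mul_mem' := by
    rintro g h ⟨a, ha⟩ ⟨b, hb⟩
    exact ⟨b + a, fun r => by rw [map_mul, mul_smul, ha, hb, add_assoc]⟩
  inv_mem' := by
    rintro g ⟨a, ha⟩
    refine ⟨-a, fun r => ?_⟩
    have h := ha (Matrix.SpecialLinearGroup.toGL g⁻¹ • r)
    rw [← mul_smul, ← map_mul, mul_inv_cancel, map_one, one_smul] at h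
    rw [h]; abel

theorem mem_shift_of_prim {F : Cusp → A} {x : Additive (Gamma0 N) →+ A} (hF : IsPrim N F x)
    (γ : Gamma0 N) : slQ (γ : SL(2, ℤ)) ∈ shiftSubgroup F :=
  ⟨_, fun r => by rw [toGL_slQ]; exact hF γ r⟩

/-- `(a, b/q; qc, d)` for `(a, b; c, d) ∈ Γ₀(N)`. -/
theorem mem_shift_of_symm (hq : q ≠ 0) {F G : Cusp → A} {y : Additive (Gamma0 N) →+ A}
    (hG : IsPrim N G y) {a : A} (hFG : ∀ r, F r + G (diagQ q • r) = a) (γ : Gamma0 N) :
    scale (Units.mk0 (q : ℚ) (Nat.cast_ne_zero.mpr hq))⁻¹ (slQ (γ : SL(2, ℤ)))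
      ∈ shiftSubgroup F := by
  refine ⟨-y (Additive.ofMul γ), fun r => ?_⟩
  set h := scale (Units.mk0 (q : ℚ) (Nat.cast_ne_zero.mpr hq))⁻¹ (slQ (γ : SL(2, ℤ))) with hh
  have hqQ : (q : ℚ) ≠ 0 := Nat.cast_ne_zero.mpr hq
  have e : diagQ q * Matrix.SpecialLinearGroup.toGL h = g0Q N γ * diagQ q := by
    apply Units.ext
    ext i j
    fin_cases i <;> fin_cases j <;>
      simp [h, hq, Matrix.mul_apply, Matrix.vecMul, dotProduct, Fin.sum_univ_two, coe_g0Q] <;>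
      field_simp
  have h1 := hFG (Matrix.SpecialLinearGroup.toGL h • r)
  rw [← mul_smul, e, mul_smul, hG, ← hFG r] at h1
  have h2 := eq_sub_of_add_eq h1
  rw [h2]; abel

theorem intCast_dvd_of_inA (hq : q.Prime) (hqN : ¬ q ∣ N) {c : ℤ} (h : InA q ((c : ℚ) / N)) :
    (N : ℤ) ∣ c := by
  have hN : (N : ℚ) ≠ 0 := Nat.cast_ne_zero.mpr fun h => hqN (h ▸ dvd_zero q)
  obtain ⟨k, n, e⟩ := h
  have e' : c * (q : ℤ) ^ k = (N : ℤ) * n := by
    rw [← @Int.cast_inj ℚ]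
    push_cast
    rw [← e]
    field_simp
  have hcop : IsCoprime (N : ℤ) ((q : ℤ) ^ k) := by
    refine IsCoprime.pow_right ?_
    rw [Int.isCoprime_iff_gcd_eq_one]
    simpa [Nat.coprime_comm, Nat.Coprime, Nat.gcd_comm] using (hq.coprime_iff_not_dvd.mpr hqN)
  exact hcop.dvd_of_dvd_mul_right ⟨n, e'⟩

theorem exists_gamma0 {N : ℕ} (a b c d : ℤ) (hdet : a * d - b * c = 1) (hc : (N : ℤ) ∣ c) :
    ∃ γ : Gamma0 N, ((γ : SL(2, ℤ)) : Matrix (Fin 2) (Fin 2) ℤ) = !![a, b; c, d] :=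
  ⟨⟨⟨!![a, b; c, d], by rw [Matrix.det_fin_two_of]; exact hdet⟩, Gamma0_mem.mpr (by
    simpa [ZMod.intCast_zmod_eq_zero_iff_dvd] using hc)⟩, rfl⟩

/-- If `α u + β v ≡ 0`, some `γ ∈ Γ₀(N)` makes a row of `γ m` divisible by `q`. -/
theorem exists_kill_row (hq : q.Prime) (hqN : ¬ q ∣ N) (m : Matrix (Fin 2) (Fin 2) ℤ)
    (hdet : (q : ℤ) ∣ m.det) (i₀ : Fin 2) :
    ∃ γ : Gamma0 N, ∀ j, (q : ℤ) ∣ (((γ : SL(2, ℤ)) : Matrix (Fin 2) (Fin 2) ℤ) * m) i₀ j := by
  haveI : Fact q.Prime := ⟨hq⟩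
  by_cases h0 : ∀ j, (q : ℤ) ∣ m i₀ j
  · exact ⟨1, fun j => by simpa using h0 j⟩
  push Not at h0
  obtain ⟨j₀, hj₀⟩ := h0
  have hj₀' : ((m i₀ j₀ : ℤ) : ZMod q) ≠ 0 := fun h =>
    hj₀ ((ZMod.intCast_zmod_eq_zero_iff_dvd _ _).mp h)
  have hdet' : (m 0 0 : ZMod q) * m 1 1 = m 0 1 * m 1 0 := by
    have h := (ZMod.intCast_zmod_eq_zero_iff_dvd _ _).mpr hdet
    rw [Matrix.det_fin_two] at h
    push_cast at h
    exact sub_eq_zero.mp h
  have hcop : q.Coprime N := hq.coprime_iff_not_dvd.mpr hqN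
  have hgcd : ∀ t : ZMod q, ∃ x : ℤ, (x : ZMod q) = t ∧ IsCoprime x (N : ℤ) := by
    intro t
    obtain ⟨x, hx1, hx2⟩ := Nat.chineseRemainder hcop t.val 1
    refine ⟨x, ?_, ?_⟩
    · rw [Int.cast_natCast, (ZMod.natCast_eq_natCast_iff _ _ _).mpr hx1, ZMod.natCast_zmod_val]
    · rw [Int.isCoprime_iff_gcd_eq_one]
      simpa using hx2.gcd_eq.trans (Nat.gcd_one_left N)
  fin_cases i₀
  · -- top row `(x, 1)`
    obtain ⟨x, hx, hxN⟩ := hgcd (-(m 1 j₀ : ZMod q) / (m 0 j₀ : ZMod q))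
    obtain ⟨w, z, hwz⟩ := hxN
    obtain ⟨γ, hγ⟩ := exists_gamma0 (N := N) x 1 (-(z * N)) w
      (by linear_combination hwz) (dvd_neg.mpr (Dvd.intro_left z rfl))
    refine ⟨γ, fun j => ?_⟩
    rw [hγ, ← ZMod.intCast_zmod_eq_zero_iff_dvd]
    simp [Matrix.mul_apply, Fin.sum_univ_two, hx]
    simp at hj₀'
    fin_cases j₀ <;> fin_cases j <;> simp at hj₀' ⊢ <;> field_simp <;>
      first | linear_combination hdet' | linear_combination -hdet' | ring
  · -- bottom row `(N, v)`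
    obtain ⟨v, hv, hvN⟩ := hgcd (-((N : ZMod q) * (m 0 j₀ : ZMod q)) / (m 1 j₀ : ZMod q))
    obtain ⟨w, z, hwz⟩ := hvN
    obtain ⟨γ, hγ⟩ := exists_gamma0 (N := N) w (-z) (N : ℤ) v
      (by linear_combination hwz) dvd_rfl
    refine ⟨γ, fun j => ?_⟩
    rw [hγ, ← ZMod.intCast_zmod_eq_zero_iff_dvd]
    simp [Matrix.mul_apply, Fin.sum_univ_two, hv]
    simp at hj₀'
    fin_cases j₀ <;> fin_cases j <;> simp at hj₀' ⊢ <;> field_simp <;>
      first | linear_combination (N : ZMod q) * hdet' |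
        linear_combination -(N : ZMod q) * hdet' | ring

/-- `Γ₀(N)` and its conjugate generate `Γ₀(N)[1/q]`. -/
theorem mem_shift (hq : q.Prime) (hqN : ¬ q ∣ N) {F G : Cusp → A}
    {x y : Additive (Gamma0 N) →+ A} (hF : IsPrim N F x) (hG : IsPrim N G y) {a : A}
    (hFG : ∀ r, F r + G (diagQ q • r) = a) {g : SL2Q} (hA : MatA q (g : Matrix _ _ ℚ))
    (hc : InA q (g 1 0 / N)) : g ∈ shiftSubgroup F := by
  obtain ⟨k, m, hm⟩ : ∃ (k : ℕ) (m : Matrix (Fin 2) (Fin 2) ℤ),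
      ∀ i j, g i j * (q : ℚ) ^ k = m i j := by
    choose k n hn using hA
    refine ⟨∑ i, ∑ j, k i j, fun i j => n i j * (q : ℤ) ^ ((∑ i, ∑ j, k i j) - k i j),
      fun i j => ?_⟩
    have hle : k i j ≤ ∑ i, ∑ j, k i j := by
      fin_cases i <;> fin_cases j <;> simp [Fin.sum_univ_two] <;> omega
    push_cast
    rw [← hn i j, mul_assoc, ← pow_add, Nat.add_sub_cancel' hle]
  have hq0 : (q : ℚ) ≠ 0 := Nat.cast_ne_zero.mpr hq.ne_zero
  have hm10 : (N : ℤ) ∣ m 1 0 := intCast_dvd_of_inA hq hqN (by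
    rw [← hm, mul_div_right_comm]
    exact hc.mul ((InA.natCast q).pow k))
  clear hA hc
  induction k generalizing g m with
  | zero =>
    have hdet : m 0 0 * m 1 1 - m 0 1 * m 1 0 = 1 := by
      have h := g.det_coe
      rw [Matrix.det_fin_two] at h
      rw [← @Int.cast_inj ℚ]
      push_cast
      simp only [← hm, pow_zero, mul_one]
      exact h
    obtain ⟨γ, hγ⟩ := exists_gamma0 _ _ _ _ hdet hm10
    convert mem_shift_of_prim hF γ using 1
    apply Subtype.ext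
    ext i j
    rw [coe_slQ, hγ, ← Matrix.eta_fin_two m, ← hm, pow_zero, mul_one]
  | succ k ih =>
    have hdet : m.det = (q : ℤ) ^ (k + 1) * (q : ℤ) ^ (k + 1) := by
      have h := g.det_coe
      rw [Matrix.det_fin_two] at h
      rw [← @Int.cast_inj ℚ, Matrix.det_fin_two]
      push_cast
      simp only [← hm]
      linear_combination ((q : ℚ) ^ (k + 1) * (q : ℚ) ^ (k + 1)) * h
    obtain ⟨γ, hγ⟩ := exists_kill_row hq hqN m
      (hdet ▸ (dvd_pow_self _ (by omega)).mul_right _) 1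
    set m₁ := ((γ : SL(2, ℤ)) : Matrix (Fin 2) (Fin 2) ℤ) * m with hm₁
    obtain ⟨c, hc⟩ := hγ 0
    obtain ⟨d, hd⟩ := hγ 1
    have hcN : (N : ℤ) ∣ c := by
      have h : (N : ℤ) ∣ m₁ 1 0 := by
        rw [hm₁, Matrix.mul_apply, Fin.sum_univ_two]
        exact ((HeckeCohom.dvd_apply_one_zero N γ).mul_right _).add (hm10.mul_left _)
      rw [hc] at h
      refine IsCoprime.dvd_of_dvd_mul_left ?_ h
      rw [Int.isCoprime_iff_gcd_eq_one]
      simpa [Nat.gcd_comm] using (hq.coprime_iff_not_dvd.mpr hqN)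
    set m' : Matrix (Fin 2) (Fin 2) ℤ := !![m₁ 0 0, m₁ 0 1; c, d] with hm'
    have hq0' : (q : ℤ) ≠ 0 := Int.natCast_ne_zero.mpr hq.ne_zero
    have hdet' : m'.det = (q : ℤ) ^ (2 * k + 1) := by
      have h : m₁.det = (q : ℤ) ^ (k + 1) * (q : ℤ) ^ (k + 1) := by
        rw [hm₁, Matrix.det_mul, Matrix.SpecialLinearGroup.det_coe, one_mul, hdet]
      rw [Matrix.det_fin_two, hc, hd] at h
      apply mul_left_cancel₀ hq0'
      rw [hm', Matrix.det_fin_two_of]
      linear_combination h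
    obtain ⟨δ, hδ⟩ := exists_kill_row hq hqN m' (hdet' ▸ dvd_pow_self _ (by omega)) 0
    set D : Matrix (Fin 2) (Fin 2) ℤ := ((δ : SL(2, ℤ)) : Matrix (Fin 2) (Fin 2) ℤ) with hD
    obtain ⟨s, hs⟩ := hδ 0
    obtain ⟨t, ht⟩ := hδ 1
    set u : ℚˣ := (Units.mk0 (q : ℚ) hq0)⁻¹ with hu
    set g₁ := slQ (γ : SL(2, ℤ)) * g with hg₁
    set g' := scale u (slQ (δ : SL(2, ℤ))) * g₁ with hg'
    have hg₁e : ∀ i j, g₁ i j * (q : ℚ) ^ (k + 1) = m₁ i j := by
      intro i j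
      simp [hg₁, hm₁, Matrix.mul_apply, Fin.sum_univ_two, add_mul, mul_assoc, hm]
    have h := ih (g := g') !![s, t; (D * m') 1 0,
        (D * m') 1 1] (fun i j => ?_) (by
      rw [Matrix.of_apply]
      simp only [Matrix.cons_val_one, Matrix.cons_val_zero, Matrix.mul_apply, Fin.sum_univ_two, hm']
      simpa using ((HeckeCohom.dvd_apply_one_zero N δ).mul_right (m₁ 0 0)).add
        (hcN.mul_left ((δ : SL(2, ℤ)) 1 1)))
    · have hmem := Subgroup.mul_mem _ (Subgroup.mul_mem _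
        (Subgroup.inv_mem _ (mem_shift_of_prim hF γ))
        (Subgroup.inv_mem _ (mem_shift_of_symm hq.ne_zero hG hFG δ))) h
      rwa [show (slQ (γ : SL(2, ℤ)))⁻¹ *
        (scale (Units.mk0 (q : ℚ) (Nat.cast_ne_zero.mpr hq.ne_zero))⁻¹ (slQ (δ : SL(2, ℤ))))⁻¹ * g'
          = g by rw [hg', hg₁, hu]; group] at hmem
    · have e : ∀ i j, ((D * m') i j : ℚ) =
          (D i 0 : ℚ) * m' 0 j + (D i 1 : ℚ) * m' 1 j := by
        intro i j; rw [Matrix.mul_apply, Fin.sum_univ_two]; push_cast; rfl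
      apply mul_right_cancel₀ hq0
      rw [mul_assoc, ← pow_succ, hg']
      have hs' : (((D * m') 0 0 : ℤ) : ℚ) = (q : ℚ) * s := by
        rw [hs]; push_cast; rfl
      have ht' : (((D * m') 0 1 : ℤ) : ℚ) = (q : ℚ) * t := by
        rw [ht]; push_cast; rfl
      rw [e] at hs' ht'
      have e00 : (m₁ 1 0 : ℚ) = (q : ℚ) * c := by rw [hc]; push_cast; rfl
      have e01 : (m₁ 1 1 : ℚ) = (q : ℚ) * d := by rw [hd]; push_cast; rfl
      simp [hm', hD] at hs' ht'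
      fin_cases i <;> fin_cases j <;>
        simp [Matrix.mul_apply, Fin.sum_univ_two, add_mul, mul_assoc, hg₁e, e, hm', hu, e00, e01] <;>
        field_simp <;>
        first
          | linear_combination hs'
          | linear_combination ht'
          | ring

/-- An element of trace `2` fixes a cusp. -/
theorem exists_fixed_of_trace {g : SL2Q} (h : g 0 0 + g 1 1 = 2) :
    ∃ r : Cusp, Matrix.SpecialLinearGroup.toGL g • r = r := by
  by_cases hc : g 1 0 = 0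
  · exact ⟨OnePoint.infty, by rw [OnePoint.smul_infty_eq_ite, if_pos (by exact hc)]⟩
  · have hdet := g.det_coe
    rw [Matrix.det_fin_two] at hdet
    refine ⟨((g 0 0 - g 1 1) / (2 * g 1 0) : ℚ), ?_⟩
    have e : g 1 0 * ((g 0 0 - g 1 1) / (2 * g 1 0)) + g 1 1 = 1 := by
      field_simp
      linear_combination h
    rw [OnePoint.smul_some_eq_ite]
    rw [if_neg (by show g 1 0 * _ + g 1 1 ≠ 0; rw [e]; exact one_ne_zero)]
    refine congrArg OnePoint.some ?_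
    show (g 0 0 * _ + g 0 1) / (g 1 0 * _ + g 1 1) = _
    rw [e, div_one]
    field_simp
    linear_combination ((g 0 0 + g 1 1 + 2) / 2 + (g 0 0 - g 1 1) / 2) * h - 2 * hdet

/-- The homomorphism of `Γ₀(N)[1/q]` attached to a symmetric pair of primitives. -/
theorem exists_uHom (hq : q.Prime) (hqN : ¬ q ∣ N) {F G : Cusp → A}
    {x y : Additive (Gamma0 N) →+ A} (hF : IsPrim N F x) (hG : IsPrim N G y) {a : A}
    (hFG : ∀ r, F r + G (diagQ q • r) = a) :
    ∃ ψ : SL2Q → A, IsUHom (congr q N) ψ ∧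
      ∀ g : SL2Q, MatA q (g : Matrix _ _ ℚ) → InA q (g 1 0 / N) →
        ∀ r, F (Matrix.SpecialLinearGroup.toGL g • r) = F r + ψ g := by
  refine ⟨fun g => F (Matrix.SpecialLinearGroup.toGL g • OnePoint.infty) - F OnePoint.infty,
    ?_, fun g hA hc r => ?_⟩
  · have hmem : ∀ g ∈ congr q N, g ∈ shiftSubgroup F := by
      intro g hg
      refine mem_shift hq hqN hF hG hFG (matA_of_mem_congr hg) ?_
      exact ((mem_congr_iff (fun h => hqN (by rw [h]; exact dvd_zero q))).mp hg).2.2.1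
    refine ⟨fun g hg h hh => ?_, fun g hg e => ?_⟩
    · obtain ⟨a, ha⟩ := hmem g hg
      obtain ⟨b, hb⟩ := hmem h hh
      simp only [map_mul, mul_smul, ha, hb]
      abel
    · obtain ⟨a, ha⟩ := hmem g hg
      obtain ⟨r, hr⟩ := exists_fixed_of_trace e
      have := ha r
      rw [hr, left_eq_add] at this
      show F _ - F _ = 0
      rw [ha, this, add_zero, sub_self]
  · obtain ⟨b, hb⟩ := mem_shift hq hqN hF hG hFG hA hc
    show _ = F r + (F _ - F _)
    rw [hb, hb, add_sub_cancel_left]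

end Fermat.Agent.Raise
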